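import Fermat.Agent.H29.ESB.Interfaces

/-!
# P-ES / ES-B, row ESB-1: `ValuationRingDVRStatement`

Every nontrivial valuation ring of a function field of one variable `F/K` containing the
constants is the valuation ring of a place (i.e. is a discrete valuation ring).
-/

set_option autoImplicit false

noncomputable section

open AlgebraicCurve IntermediateField Polynomial IsDedekindDomain
open scoped IntermediateField.algebraAdjoinAdjoin

namespace Fermat.Agent.H39

section dedekind

variable {F : Type*} [Field F]
variable {R : Type*} [CommRing R] [IsDedekindDomain R] [Algebra R F] [IsFractionRing R F]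

/-- A nontrivial valuation ring of `F` containing a Dedekind domain `R` with fraction field `F`
is the valuation ring of a height one prime of `R`. -/
theorem esb_exists_heightOneSpectrum_of_le (V : ValuationSubring F) (hV : V ≠ ⊤)
    (hR : ∀ r : R, algebraMap R F r ∈ V) :
    ∃ w : HeightOneSpectrum R, (w.valuation F).valuationSubring = V := by
  let φ : R →+* V := (algebraMap R F).codRestrict V.toSubring hR
  let P : Ideal R := Ideal.comap φ (IsLocalRing.maximalIdeal V)
  have hPprime : P.IsPrime := Ideal.comap_isPrime φ _
  -- elements outside `P` are units of `V`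
  have hunit : ∀ r : R, r ∉ P → (algebraMap R F r)⁻¹ ∈ V := by
    intro r hr
    have h1 : φ r ∉ IsLocalRing.maximalIdeal V := hr
    have h2 : IsUnit (φ r) := IsLocalRing.notMem_maximalIdeal.mp h1
    obtain ⟨u, hu⟩ := h2.exists_right_inv
    have h3 : algebraMap R F r * (u : F) = 1 := by
      have := congrArg Subtype.val hu
      simpa [φ] using this
    have h4 : (algebraMap R F r)⁻¹ = (u : F) := inv_eq_of_mul_eq_one_right h3
    rw [h4]
    exact u.2
  have hPne : P ≠ ⊥ := by
    intro hbot
    apply hV
    rw [eq_top_iff]
    intro f _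
    obtain ⟨n, d, hd, rfl⟩ := IsFractionRing.div_surjective (A := R) f
    have hd0 : d ≠ 0 := nonZeroDivisors.ne_zero hd
    have hdP : d ∉ P := by
      rw [hbot, Ideal.mem_bot]
      exact hd0
    rw [div_eq_mul_inv]
    exact mul_mem (hR n) (hunit d hdP)
  let w : HeightOneSpectrum R := ⟨P, hPprime, hPne⟩
  refine ⟨w, ?_⟩
  rw [← HeightOneSpectrum.valuationSubringAtPrime_eq_valuationSubring]
  apply ValuationSubring.eq_of_le_of_ne_top _ _ hV
  intro x hx
  rw [HeightOneSpectrum.valuationSubringAtPrime_eq_valuationSubring] at hx
  obtain ⟨n, d, hnd⟩ := w.exists_primeCompl_mul_eq_of_integer x hx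
  have hd : (d : R) ∉ P := d.2
  have hd0 : algebraMap R F d ≠ 0 := by
    intro h
    apply hd
    have : (d : R) = 0 := (map_eq_zero_iff _ (IsFractionRing.injective R F)).mp h
    rw [this]
    exact P.zero_mem
  have hx' : x = algebraMap R F n * (algebraMap R F d)⁻¹ := by
    rw [← hnd]
    field_simp
  rw [hx']
  exact mul_mem (hR n) (hunit d hd)

end dedekind

section main

variable {K F : Type} [Field K] [Field F] [Algebra K F]

/-- The core case: the coordinate lies in the valuation ring. -/
theorem esb_valuationRing_of_mem [IsAlgClosed K] [CharZero K] (y : F)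
    (hy : Transcendental K y) (hfin : FiniteDimensional K⟮y⟯ F)
    (V : ValuationSubring F) (hK : ∀ a : K, algebraMap K F a ∈ V) (hV : V ≠ ⊤)
    (hyV : y ∈ V) : ∃ w : Place K F, w.toValuationSubring = V := by
  classical
  let A := Algebra.adjoin K {y}
  let e : K[X] ≃ₐ[K] A := Polynomial.algEquivOfTranscendental K y hy
  have hPIR : IsPrincipalIdealRing A :=
    IsPrincipalIdealRing.of_surjective e.toRingEquiv.toRingHom e.surjective
  have hDA : IsDedekindDomain A := inferInstance
  have hcharL : CharZero K⟮y⟯ := charZero_of_injective_algebraMap (algebraMap K K⟮y⟯).injective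
  have hsep : Algebra.IsSeparable K⟮y⟯ F := inferInstance
  let B := integralClosure A F
  have hDB : IsDedekindDomain B := integralClosure.isDedekindDomain A K⟮y⟯ F
  have hFB : IsFractionRing B F := integralClosure.isFractionRing_of_finite_extension K⟮y⟯ F
  have hKBF : IsScalarTower K B F := IsScalarTower.of_algebraMap_eq (fun c => rfl)
  have hAV : ∀ a : A, (a : F) ∈ V := by
    intro a
    have ha : (a : F) ∈ Algebra.adjoin K {y} := a.2
    rw [Algebra.adjoin_singleton_eq_range_aeval] at ha
    obtain ⟨q, hq⟩ := ha
    rw [← hq]
    show aeval y q ∈ _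
    rw [Polynomial.aeval_eq_sum_range]
    refine sum_mem (fun i _ => ?_)
    rw [Algebra.smul_def]
    exact mul_mem (hK _) (pow_mem hyV _)
  have hBV : ∀ b : B, algebraMap B F b ∈ V := by
    intro b
    let ψ : A →+* V := (algebraMap A F).codRestrict V.toSubring hAV
    let _ : Algebra A V := ψ.toAlgebra
    have : IsScalarTower A V F := IsScalarTower.of_algebraMap_eq (fun a => rfl)
    have hb : IsIntegral A (algebraMap B F b) := b.2
    have hb' : IsIntegral V (algebraMap B F b) := hb.tower_top
    obtain ⟨a, ha⟩ := IsIntegrallyClosed.isIntegral_iff.mp hb'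
    rw [← ha]
    exact a.2
  obtain ⟨w, hw⟩ := esb_exists_heightOneSpectrum_of_le (F := F) (R := B) V hV hBV
  exact ⟨Place.ofHeightOneSpectrum (K := K) (F := F) (R := B) w, hw⟩

/-- **ESB-1**: every nontrivial valuation ring of `F` containing the constants is the valuation
ring of a place. -/
theorem valuationRingDVR : Fermat.Agent.H29.ValuationRingDVRStatement := by
  intro K F _ _ _ _ _ x hx hfin V hK hV
  by_cases hxV : x ∈ V
  · exact esb_valuationRing_of_mem x hx hfin V hK hV hxV
  · have hxinv : x⁻¹ ∈ V := (V.mem_or_inv_mem x).resolve_left hxV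
    have htr : Transcendental K x⁻¹ := fun h => hx (IsAlgebraic.inv_iff.mp h)
    have heq : K⟮x⁻¹⟯ = K⟮x⟯ := by
      apply le_antisymm
      · rw [adjoin_simple_le_iff]
        exact inv_mem (mem_adjoin_simple_self K x)
      · rw [adjoin_simple_le_iff]
        have := inv_mem (mem_adjoin_simple_self K x⁻¹)
        rwa [inv_inv] at this
    have hfin' : FiniteDimensional K⟮x⁻¹⟯ F := by
      rw [heq]; exact hfin
    exact esb_valuationRing_of_mem x⁻¹ htr hfin' V hK hV hxinv

end main

end Fermat.Agent.H39
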