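import Mathlib

/-!
# P-CFT / SH-3 (row 608, helper39): additive functors and finite biproduct decompositions

An additive functor `F : C ⥤ ModuleCat k` sends a finite biproduct decomposition
`M = ⨁ M_g` (given by `π g : M ⟶ M_g`, `j g : M_g ⟶ M`) to a product decomposition:
`z ↦ (F(π g) z)_g` is bijective, also after composing with isomorphisms `s g`.
-/

set_option autoImplicit false

universe u v w

open CategoryTheory

namespace Fermat.Agent.H39

theorem mackey_bijective_of_biproduct {k : Type u} [CommRing k] {C : Type v} [Category.{w} C]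
    [Preadditive C] (F : C ⥤ ModuleCat.{u} k) [F.Additive] {ι : Type u} [Fintype ι]
    [DecidableEq ι] (M : C) (Mg : ι → C) (Xg : ι → ModuleCat.{u} k)
    (π : ∀ g, M ⟶ Mg g) (j : ∀ g, Mg g ⟶ M) (s : ∀ g, F.obj (Mg g) ⟶ Xg g)
    (hs : ∀ g, IsIso (s g))
    (h1 : ∀ g, j g ≫ π g = 𝟙 _) (h2 : ∀ g h, g ≠ h → j g ≫ π h = 0)
    (h3 : ∑ g, π g ≫ j g = 𝟙 M) :
    Function.Bijective (fun (z : F.obj M) (g : ι) => (s g).hom ((F.map (π g)).hom z)) := by
  have hsum : ∀ z : F.obj M, ∑ g, (F.map (j g)).hom ((F.map (π g)).hom z) = z := by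
    intro z
    have h := congrArg (fun φ => (F.map φ).hom z) h3
    simp only [F.map_sum, F.map_comp, F.map_id, ModuleCat.hom_id, LinearMap.id_coe, id_eq,
      ModuleCat.hom_sum, LinearMap.sum_apply, ModuleCat.hom_comp, LinearMap.comp_apply] at h
    exact h
  have hsinj : ∀ g, Function.Injective (s g).hom := fun g =>
    (ConcreteCategory.bijective_of_isIso (s g)).1
  have hssurj : ∀ g, Function.Surjective (s g).hom := fun g =>
    (ConcreteCategory.bijective_of_isIso (s g)).2
  constructor
  · intro z z' h
    have h' : ∀ g, (F.map (π g)).hom z = (F.map (π g)).hom z' := fun g =>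
      hsinj g (congrFun h g)
    rw [← hsum z, ← hsum z']
    exact Finset.sum_congr rfl fun g _ => by rw [h' g]
  · intro w
    choose y hy using fun g => hssurj g (w g)
    refine ⟨∑ g, (F.map (j g)).hom (y g), ?_⟩
    funext h
    show (s h).hom ((F.map (π h)).hom (∑ g, (F.map (j g)).hom (y g))) = w h
    rw [map_sum, Finset.sum_eq_single h]
    · have : (F.map (π h)).hom ((F.map (j h)).hom (y h)) = y h := by
        have h' := congrArg (fun φ => (F.map φ).hom (y h)) (h1 h)
        simpa using h'
      rw [this, hy]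
    · intro g _ hg
      have h' := congrArg (fun φ => (F.map φ).hom (y g)) (h2 g h hg)
      simpa using h'
    · intro hh
      exact absurd (Finset.mem_univ h) hh

/-- The same for modules: a finite biproduct decomposition `HM = ⨁ HMg g` in `ModuleCat k`
makes `z ↦ (s g (P g z))_g` bijective, for isomorphisms `s g`. -/
theorem mackey_bijective_of_decomp {k : Type u} [CommRing k] {ι : Type u} [Fintype ι]
    (HM : ModuleCat.{u} k) (HMg Xg : ι → ModuleCat.{u} k)
    (P : ∀ g, HM ⟶ HMg g) (J : ∀ g, HMg g ⟶ HM) (s : ∀ g, HMg g ⟶ Xg g)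
    (hs : ∀ g, IsIso (s g))
    (h1 : ∀ g, J g ≫ P g = 𝟙 _) (h2 : ∀ g h, g ≠ h → J g ≫ P h = 0)
    (h3 : ∑ g, P g ≫ J g = 𝟙 HM) :
    Function.Bijective (fun (z : HM) (g : ι) => (s g).hom ((P g).hom z)) := by
  classical
  have hsum : ∀ z : HM, ∑ g, (J g).hom ((P g).hom z) = z := by
    intro z
    have h := congrArg (fun φ => (ModuleCat.Hom.hom φ) z) h3
    simp only [ModuleCat.hom_id, LinearMap.id_coe, id_eq,
      ModuleCat.hom_sum, LinearMap.sum_apply, ModuleCat.hom_comp, LinearMap.comp_apply] at h
    exact h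
  have hsinj : ∀ g, Function.Injective (s g).hom := fun g =>
    (ConcreteCategory.bijective_of_isIso (s g)).1
  have hssurj : ∀ g, Function.Surjective (s g).hom := fun g =>
    (ConcreteCategory.bijective_of_isIso (s g)).2
  constructor
  · intro z z' h
    have h' : ∀ g, (P g).hom z = (P g).hom z' := fun g => hsinj g (congrFun h g)
    rw [← hsum z, ← hsum z']
    exact Finset.sum_congr rfl fun g _ => by rw [h' g]
  · intro w
    choose y hy using fun g => hssurj g (w g)
    refine ⟨∑ g, (J g).hom (y g), ?_⟩
    funext h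
    show (s h).hom ((P h).hom (∑ g, (J g).hom (y g))) = w h
    rw [map_sum, Finset.sum_eq_single h]
    · have : (P h).hom ((J h).hom (y h)) = y h := by
        have h' := congrArg (fun φ => (ModuleCat.Hom.hom φ) (y h)) (h1 h)
        simpa using h'
      rw [this, hy]
    · intro g _ hg
      have h' := congrArg (fun φ => (ModuleCat.Hom.hom φ) (y g)) (h2 g h hg)
      simpa using h'
    · intro hh
      exact absurd (Finset.mem_univ h) hh

end Fermat.Agent.H39
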