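import Fermat.Agent.H97.Shap.Defs

/-!
# P-CFT / SH-3 (row 608, helper39): the Mackey decomposition of `Res_Γ Coind_U^G A`

For `g : G` let `Γ_g = mackeySubgroup loc U g` and `A_g = Res_{loc_g} A`.
* `mackeyPr g : Res_loc Coind_U A ⟶ Coind_{Γ_g}^Γ A_g`, `f ↦ (γ ↦ f (g loc γ))`;
* `mackeyIn g : Coind_{Γ_g}^Γ A_g ⟶ Res_loc Coind_U A`, extension by zero outside the double coset
  `U g loc(Γ)`: `F ↦ (v g loc γ ↦ v • F γ)`;
* `mackeyIn_comp_mackeyPr`, `mackeyIn_comp_mackeyPr_of_ne`, `sum_mackeyPr_comp_mackeyIn`.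
-/

set_option autoImplicit false

universe u

open CategoryTheory

namespace Fermat.Agent.H39

open Fermat.Agent.H13.Cft Fermat.Agent.H97.Shap

variable {k G Γ : Type u} [CommRing k] [Group G] [Group Γ] (loc : Γ →* G) (U : Subgroup G)
  (g : G) (A : Rep.{u} k U)

/-- `x` lies in the double coset `U g loc(Γ)`. -/
def MackeyDC (x : G) : Prop := ∃ (v : U) (γ : Γ), x = v * g * loc γ

lemma mackeyDC_mul_left {x : G} (u : U) : MackeyDC loc U g ((u : G) * x) ↔ MackeyDC loc U g x := by
  constructor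
  · rintro ⟨v, γ, h⟩
    refine ⟨u⁻¹ * v, γ, ?_⟩
    have : x = (u : G)⁻¹ * ((u : G) * x) := by group
    rw [this, h]
    simp [mul_assoc]
  · rintro ⟨v, γ, h⟩
    refine ⟨u * v, γ, ?_⟩
    rw [h]
    simp [mul_assoc]

lemma mackeyDC_mul_right {x : G} (γ' : Γ) :
    MackeyDC loc U g (x * loc γ') ↔ MackeyDC loc U g x := by
  constructor
  · rintro ⟨v, γ, h⟩
    refine ⟨v, γ * γ'⁻¹, ?_⟩
    have : x = x * loc γ' * (loc γ')⁻¹ := by group
    rw [this, h]
    simp [mul_assoc]
  · rintro ⟨v, γ, h⟩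
    refine ⟨v, γ * γ', ?_⟩
    rw [h]
    simp [mul_assoc]

/-! ### The projection -/

/-- `f ↦ (γ ↦ f (g loc γ))` -/
noncomputable def mackeyPr :
    Rep.res loc (Rep.coind U.subtype A) ⟶
      Rep.coind (mackeySubgroup loc U g).subtype (Rep.res (mackeyLoc loc U g) A) :=
  Rep.ofHom ⟨
    { toFun := fun f => ⟨fun γ => f.1 (g * loc γ), fun δ γ => by
        have h := f.2 (mackeyLoc loc U g δ) (g * loc γ)
        show f.1 (g * loc ((δ : Γ) * γ)) = A.ρ (mackeyLoc loc U g δ) (f.1 (g * loc γ))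
        rw [← h]
        refine congrArg f.1 ?_
        show g * loc ((δ : Γ) * γ) = g * loc (δ : Γ) * g⁻¹ * (g * loc γ)
        rw [map_mul]
        group⟩
      map_add' := fun f f' => rfl
      map_smul' := fun c f => rfl },
    fun γ' => by
      ext f γ
      show f.1 (g * loc γ * loc γ') = f.1 (g * loc (γ * γ'))
      rw [map_mul, mul_assoc]⟩

@[simp] lemma mackeyPr_apply (f : Rep.res loc (Rep.coind U.subtype A)) (γ : Γ) :
    ((mackeyPr loc U g A).hom f).1 γ = f.1 (g * loc γ) := rfl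

/-! ### The extension by zero -/

open Classical in
/-- the extension by zero of `F` to `G` -/
noncomputable def mackeyExt (F : Γ → A) (x : G) : A :=
  if h : MackeyDC loc U g x then A.ρ h.choose (F h.choose_spec.choose) else 0

lemma mackeyExt_of_not {F : Γ → A} {x : G} (h : ¬ MackeyDC loc U g x) :
    mackeyExt loc U g A F x = 0 := dif_neg h

lemma mackeyExt_add (F F' : Γ → A) (x : G) :
    mackeyExt loc U g A (F + F') x = mackeyExt loc U g A F x + mackeyExt loc U g A F' x := by
  unfold mackeyExt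
  split_ifs
  · simp
  · simp

lemma mackeyExt_smul (c : k) (F : Γ → A) (x : G) :
    mackeyExt loc U g A (c • F) x = c • mackeyExt loc U g A F x := by
  unfold mackeyExt
  split_ifs
  · simp
  · simp

/-- independence of the representation `x = v g loc γ` -/
lemma mackeyExt_wd
    (F : Rep.coind (mackeySubgroup loc U g).subtype (Rep.res (mackeyLoc loc U g) A))
    (v v' : U) (γ γ' : Γ) (heq : (v : G) * g * loc γ = v' * g * loc γ') :
    A.ρ v' (F.1 γ') = A.ρ v (F.1 γ) := by
  -- `δ = γ' γ⁻¹ ∈ Γ_g`, `loc_g δ = v'⁻¹ v`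
  have hδ : g * loc (γ' * γ⁻¹) * g⁻¹ = ((v'⁻¹ * v : U) : G) := by
    have h1 : g * loc γ' = (v' : G)⁻¹ * ((v : G) * g * loc γ) := by
      rw [heq]; group
    rw [map_mul, map_inv, ← mul_assoc, h1]
    simp only [Subgroup.coe_mul, Subgroup.coe_inv]
    group
  have hmem : γ' * γ⁻¹ ∈ mackeySubgroup loc U g := by
    rw [mem_mackeySubgroup, hδ]
    exact (v'⁻¹ * v).2
  have hF := F.2 ⟨γ' * γ⁻¹, hmem⟩ γ
  have hloc : mackeyLoc loc U g ⟨γ' * γ⁻¹, hmem⟩ = v'⁻¹ * v := Subtype.ext hδ
  have hF' : F.1 γ' = A.ρ (v'⁻¹ * v) (F.1 γ) := by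
    have h2 : ((mackeySubgroup loc U g).subtype ⟨γ' * γ⁻¹, hmem⟩) * γ = γ' := by
      show γ' * γ⁻¹ * γ = γ'
      group
    rw [h2] at hF
    rw [hF, ← hloc]
    rfl
  rw [hF', ← Module.End.mul_apply, ← map_mul, mul_inv_cancel_left]

/-- the value of the extension on the double coset -/
lemma mackeyExt_apply
    (F : Rep.coind (mackeySubgroup loc U g).subtype (Rep.res (mackeyLoc loc U g) A))
    (v : U) (γ : Γ) :
    mackeyExt loc U g A F.1 ((v : G) * g * loc γ) = A.ρ v (F.1 γ) := by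
  have hdc : MackeyDC loc U g ((v : G) * g * loc γ) := ⟨v, γ, rfl⟩
  unfold mackeyExt
  rw [dif_pos hdc]
  exact mackeyExt_wd loc U g A F v hdc.choose γ hdc.choose_spec.choose
    hdc.choose_spec.choose_spec

/-- the extension by zero is `U`-equivariant -/
lemma mackeyExt_mem
    (F : Rep.coind (mackeySubgroup loc U g).subtype (Rep.res (mackeyLoc loc U g) A)) :
    mackeyExt loc U g A F.1 ∈ A.ρ.coindV U.subtype := by
  intro u x
  show mackeyExt loc U g A F.1 ((u : G) * x) = A.ρ u (mackeyExt loc U g A F.1 x)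
  by_cases hx : MackeyDC loc U g x
  · obtain ⟨v, γ, rfl⟩ := hx
    have : (u : G) * ((v : G) * g * loc γ) = ((u * v : U) : G) * g * loc γ := by
      simp [mul_assoc]
    rw [this, mackeyExt_apply, mackeyExt_apply, map_mul, Module.End.mul_apply]
  · rw [mackeyExt_of_not loc U g A hx,
      mackeyExt_of_not loc U g A (fun h => hx ((mackeyDC_mul_left loc U g u).mp h)), map_zero]

/-- `F ↦ (v g loc γ ↦ v • F γ)`, zero outside `U g loc(Γ)` -/
noncomputable def mackeyIn :
    Rep.coind (mackeySubgroup loc U g).subtype (Rep.res (mackeyLoc loc U g) A) ⟶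
      Rep.res loc (Rep.coind U.subtype A) :=
  Rep.ofHom ⟨
    { toFun := fun F => ⟨mackeyExt loc U g A F.1, mackeyExt_mem loc U g A F⟩
      map_add' := fun F F' => Subtype.ext (funext fun x => mackeyExt_add loc U g A F.1 F'.1 x)
      map_smul' := fun c F => Subtype.ext (funext fun x => mackeyExt_smul loc U g A c F.1 x) },
    fun γ' => by
      ext F x
      show mackeyExt loc U g A (fun γ => F.1 (γ * γ')) x = mackeyExt loc U g A F.1 (x * loc γ')
      by_cases hx : MackeyDC loc U g x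
      · obtain ⟨v, γ, rfl⟩ := hx
        have h1 := mackeyExt_apply loc U g A
          ((Rep.coind (mackeySubgroup loc U g).subtype (Rep.res (mackeyLoc loc U g) A)).ρ γ' F)
          v γ
        have h2 : (v : G) * g * loc γ * loc γ' = (v : G) * g * loc (γ * γ') := by
          rw [map_mul, mul_assoc]
        rw [h2, mackeyExt_apply]
        exact h1
      · rw [mackeyExt_of_not loc U g A hx,
          mackeyExt_of_not loc U g A (fun h => hx ((mackeyDC_mul_right loc U g γ').mp h))]⟩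

@[simp] lemma mackeyIn_apply
    (F : Rep.coind (mackeySubgroup loc U g).subtype (Rep.res (mackeyLoc loc U g) A)) (x : G) :
    ((mackeyIn loc U g A).hom F).1 x = mackeyExt loc U g A F.1 x := rfl

/-! ### The identities -/

lemma mackeyIn_comp_mackeyPr : mackeyIn loc U g A ≫ mackeyPr loc U g A = 𝟙 _ := by
  ext F γ
  show mackeyExt loc U g A F.1 (g * loc γ) = F.1 γ
  have := mackeyExt_apply loc U g A F 1 γ
  simpa using this

lemma mackeyIn_comp_mackeyPr_of_not {g' : G} (h : ¬ MackeyDC loc U g g') :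
    mackeyIn loc U g A ≫ mackeyPr loc U g' A = 0 := by
  ext F γ
  show mackeyExt loc U g A F.1 (g' * loc γ) = 0
  exact mackeyExt_of_not loc U g A (fun hh => h ((mackeyDC_mul_right loc U g γ).mp hh))

/-- on the double coset of `g`, `ι_g π_g f = f` -/
lemma mackeyPr_mackeyIn_apply (f : Rep.res loc (Rep.coind U.subtype A)) {x : G}
    (hx : MackeyDC loc U g x) :
    ((mackeyIn loc U g A).hom ((mackeyPr loc U g A).hom f)).1 x = f.1 x := by
  obtain ⟨v, γ, rfl⟩ := hx
  rw [mackeyIn_apply, mackeyExt_apply, mackeyPr_apply]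
  have h := f.2 v (g * loc γ)
  rw [← h]
  refine congrArg f.1 ?_
  simp [mul_assoc]

/-- outside the double coset of `g`, `ι_g π_g f = 0` -/
lemma mackeyPr_mackeyIn_apply_of_not (f : Rep.res loc (Rep.coind U.subtype A)) {x : G}
    (hx : ¬ MackeyDC loc U g x) :
    ((mackeyIn loc U g A).hom ((mackeyPr loc U g A).hom f)).1 x = 0 :=
  mackeyExt_of_not loc U g A hx

end Fermat.Agent.H39
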