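import Fermat.Agent.H97.Shap.Interfaces
import Fermat.Agent.H39.MackeyAbstract
import Fermat.Agent.H39.MackeyRep

/-!
# P-CFT / SH-3 (row 608, helper39): the local Mackey decomposition

`mackeyStatement : ShapiroStatement → MackeyStatement`.
-/

set_option autoImplicit false

universe u

open CategoryTheory

namespace Fermat.Agent.H39

open Fermat.Agent.H13.Cft Fermat.Agent.H97.Shap

variable {k G Γ : Type u} [CommRing k] [Group G] [Group Γ]

variable (loc : Γ →* G) (U : Subgroup G)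

/-- the Mackey map is the projection followed by the Shapiro map of `(Γ, Γ_g)` -/
lemma mackeyMap_eq {𝒰 : LevelSys G} {𝒱 : LevelSys Γ} (hloc : 𝒱.Compat 𝒰 loc)
    (hU : ∃ N ∈ 𝒰.sets, N ≤ U) (g : G) (A : Rep.{u} k U) :
    mackeyMap loc U g hloc hU A =
      lvlMap 𝒱 (mackeyPr loc U g A) ≫
        shapiroMap 𝒱 (mackeySubgroup loc U g) (mackeySubgroup_open loc U g hloc hU)
          (Rep.res (mackeyLoc loc U g) A) := by
  ext n x : 3
  apply Subtype.ext
  funext γ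
  show (x.1 _).1 g = (x.1 _).1 (g * loc 1)
  rw [map_one, mul_one]
  rfl

/-- `Res_{loc_g} A` is smooth -/
lemma mackey_isSmooth {𝒰 : LevelSys G} {𝒱 : LevelSys Γ} (hloc : 𝒱.Compat 𝒰 loc)
    (hU : ∃ N ∈ 𝒰.sets, N ≤ U) (g : G) (A : Rep.{u} k U) (hA : IsSmooth (𝒰.restrict U hU) A) :
    IsSmooth (𝒱.restrict (mackeySubgroup loc U g) (mackeySubgroup_open loc U g hloc hU))
      (Rep.res (mackeyLoc loc U g) A) := by
  intro a
  obtain ⟨N, hN, ha⟩ := hA a
  obtain ⟨N', hN', hle⟩ := mackeyLoc_compat loc U g hloc hU N hN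
  exact ⟨N', hN', fun s hs => ha _ (hle hs)⟩

/-- a double coset representative represents itself -/
lemma mackeyDC_self (g : G) : MackeyDC loc U g g := ⟨1, 1, by simp⟩

/-- two representatives with `g' ∈ U g loc(Γ)` coincide -/
lemma mackey_rep_eq {R : Set G} (hR : ∀ x : G, ∃! g : G, g ∈ R ∧ MackeyDC loc U g x)
    {g g' : G} (hg : g ∈ R) (hg' : g' ∈ R) (h : MackeyDC loc U g g') : g = g' :=
  (hR g').unique ⟨hg, h⟩ ⟨hg', mackeyDC_self loc U g'⟩

/-- a set of representatives of `U \ G / loc(Γ)` is finite if `U` has finite index -/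
lemma mackey_finite_reps [U.FiniteIndex] {R : Set G}
    (hR : ∀ x : G, ∃! g : G, g ∈ R ∧ MackeyDC loc U g x) : R.Finite := by
  have hfin : Finite (G ⧸ U) := Subgroup.finite_quotient_of_finiteIndex
  have hinj : Function.Injective (fun g : R => ((g.1⁻¹ : G) : G ⧸ U)) := by
    intro g g' h
    have h1 : (g.1⁻¹)⁻¹ * g'.1⁻¹ ∈ U := QuotientGroup.eq.mp h
    apply Subtype.ext
    refine (mackey_rep_eq loc U hR g.2 g'.2 ⟨⟨_, U.inv_mem h1⟩, 1, ?_⟩)
    simp
  have : Finite R := Finite.of_injective _ hinj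
  exact Set.toFinite R

/-- `∑_g ι_g π_g = 1` -/
lemma sum_mackeyPr_comp_mackeyIn (A : Rep.{u} k U) (R : Set G) [Fintype R]
    (hR : ∀ x : G, ∃! g : G, g ∈ R ∧ MackeyDC loc U g x) :
    ∑ g : R, mackeyPr loc U g.1 A ≫ mackeyIn loc U g.1 A = 𝟙 _ := by
  classical
  apply Rep.hom_ext
  rw [Rep.sum_hom]
  ext f x
  obtain ⟨g₀, ⟨hg₀R, hg₀⟩, -⟩ := hR x
  rw [Representation.IntertwiningMap.toLinearMap_sum, LinearMap.sum_apply]
  have hcoe : ((∑ g : R, ((mackeyPr loc U g.1 A ≫ mackeyIn loc U g.1 A).hom.toLinearMap f)).1) x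
      = ∑ g : R, ((mackeyIn loc U g.1 A).hom ((mackeyPr loc U g.1 A).hom f)).1 x := by
    rw [Submodule.coe_sum, Finset.sum_apply]
    rfl
  refine hcoe.trans ?_
  rw [Finset.sum_eq_single ⟨g₀, hg₀R⟩]
  · exact mackeyPr_mackeyIn_apply loc U g₀ A f hg₀
  · intro g _ hg
    refine mackeyPr_mackeyIn_apply_of_not loc U g.1 A f (fun h => hg ?_)
    apply Subtype.ext
    exact (hR x).unique ⟨g.2, h⟩ ⟨hg₀R, hg₀⟩
  · intro h
    exact absurd (Finset.mem_univ _) h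

lemma mackey_lvlMap_add (𝒱 : LevelSys Γ) {B C : Rep.{u} k Γ} (φ ψ : B ⟶ C) :
    lvlMap 𝒱 (φ + ψ) = lvlMap 𝒱 φ + lvlMap 𝒱 ψ := by
  ext n x : 3
  apply Subtype.ext
  funext g
  rfl

lemma mackey_lvlMap_zero (𝒱 : LevelSys Γ) (B C : Rep.{u} k Γ) :
    lvlMap 𝒱 (0 : B ⟶ C) = 0 := by
  ext n x : 3
  apply Subtype.ext
  funext g
  rfl

/-- `φ ↦ Hⁿ(φ)` as an additive map -/
noncomputable def mackeyH (𝒱 : LevelSys Γ) (n : ℕ) (B C : Rep.{u} k Γ) :
    (B ⟶ C) →+ (lvlH 𝒱 B n ⟶ lvlH 𝒱 C n) where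
  toFun φ := HomologicalComplex.homologyMap (lvlMap 𝒱 φ) n
  map_zero' := by rw [mackey_lvlMap_zero, HomologicalComplex.homologyMap_zero]
  map_add' φ ψ := by rw [mackey_lvlMap_add, HomologicalComplex.homologyMap_add]

lemma mackeyH_apply (𝒱 : LevelSys Γ) (n : ℕ) {B C : Rep.{u} k Γ} (φ : B ⟶ C) :
    mackeyH 𝒱 n B C φ = HomologicalComplex.homologyMap (lvlMap 𝒱 φ) n := rfl

lemma mackeyH_comp (𝒱 : LevelSys Γ) (n : ℕ) {B C D : Rep.{u} k Γ} (φ : B ⟶ C) (ψ : C ⟶ D) :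
    mackeyH 𝒱 n B D (φ ≫ ψ) = mackeyH 𝒱 n B C φ ≫ mackeyH 𝒱 n C D ψ := by
  rw [mackeyH_apply, mackeyH_apply, mackeyH_apply, lvlMap_comp,
    HomologicalComplex.homologyMap_comp]

lemma mackeyH_id (𝒱 : LevelSys Γ) (n : ℕ) (B : Rep.{u} k Γ) :
    mackeyH 𝒱 n B B (𝟙 B) = 𝟙 _ := by
  rw [mackeyH_apply, lvlMap_id, HomologicalComplex.homologyMap_id]

/-- **SH-3** The local Mackey decomposition, from Shapiro's lemma. -/
theorem mackeyStatement (hS : ShapiroStatement.{u}) : MackeyStatement.{u} := by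
  intro k G Γ _ _ _ 𝒰 𝒱 loc hloc U hU R hR A hA n
  classical
  have hfi : U.FiniteIndex := by
    obtain ⟨N, hN, hNU⟩ := hU
    have := 𝒰.finiteIndex N hN
    exact Subgroup.finiteIndex_of_le hNU
  have hR' : ∀ x : G, ∃! g : G, g ∈ R ∧ MackeyDC loc U g x := hR
  have hRfin : R.Finite := mackey_finite_reps loc U hR'
  let _ : Fintype R := hRfin.fintype
  have hiso : ∀ g : R, IsIso (HomologicalComplex.homologyMap
      (shapiroMap 𝒱 (mackeySubgroup loc U g.1)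
        (mackeySubgroup_open loc U g.1 hloc hU) (Rep.res (mackeyLoc loc U g.1) A)) n) :=
    fun g => hS 𝒱 _ _ _ (mackey_isSmooth loc U hloc hU g.1 A hA) n
  have h1 : ∀ g : R, mackeyH 𝒱 n _ _ (mackeyIn loc U g.1 A) ≫
      mackeyH 𝒱 n _ _ (mackeyPr loc U g.1 A) = 𝟙 _ := fun g => by
    rw [← mackeyH_comp, mackeyIn_comp_mackeyPr, mackeyH_id]
  have h2 : ∀ g h : R, g ≠ h → mackeyH 𝒱 n _ _ (mackeyIn loc U g.1 A) ≫
      mackeyH 𝒱 n _ _ (mackeyPr loc U h.1 A) = 0 := fun g h hgh => by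
    rw [← mackeyH_comp, mackeyIn_comp_mackeyPr_of_not loc U g.1 A
      (fun hh => hgh (Subtype.ext (mackey_rep_eq loc U hR' g.2 h.2 hh))), map_zero]
  have h3 : ∑ g : R, mackeyH 𝒱 n _ _ (mackeyPr loc U g.1 A) ≫
      mackeyH 𝒱 n _ _ (mackeyIn loc U g.1 A) = 𝟙 _ := by
    have := congrArg (mackeyH 𝒱 n _ _) (sum_mackeyPr_comp_mackeyIn loc U A R hR')
    rw [map_sum, mackeyH_id] at this
    rw [← this]
    exact Finset.sum_congr rfl fun g _ => (mackeyH_comp 𝒱 n _ _).symm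
  have key := mackey_bijective_of_decomp (ι := R)
    (lvlH 𝒱 (Rep.res loc (Rep.coind U.subtype A)) n)
    (fun g => lvlH 𝒱 (Rep.coind (mackeySubgroup loc U g.1).subtype
      (Rep.res (mackeyLoc loc U g.1) A)) n)
    (fun g => lvlH (𝒱.restrict (mackeySubgroup loc U g.1)
      (mackeySubgroup_open loc U g.1 hloc hU)) (Rep.res (mackeyLoc loc U g.1) A) n)
    (fun g => mackeyH 𝒱 n _ _ (mackeyPr loc U g.1 A))
    (fun g => mackeyH 𝒱 n _ _ (mackeyIn loc U g.1 A))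
    (fun g => HomologicalComplex.homologyMap (shapiroMap 𝒱 (mackeySubgroup loc U g.1)
      (mackeySubgroup_open loc U g.1 hloc hU) (Rep.res (mackeyLoc loc U g.1) A)) n)
    hiso h1 h2 h3
  have heq : ∀ (z : lvlH 𝒱 (Rep.res loc (Rep.coind U.subtype A)) n) (g : R),
      (HomologicalComplex.homologyMap (mackeyMap loc U g.1 hloc hU A) n).hom z =
      (HomologicalComplex.homologyMap (shapiroMap 𝒱 (mackeySubgroup loc U g.1)
        (mackeySubgroup_open loc U g.1 hloc hU) (Rep.res (mackeyLoc loc U g.1) A)) n).hom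
        ((HomologicalComplex.homologyMap (lvlMap 𝒱 (mackeyPr loc U g.1 A)) n).hom z) := by
    intro z g
    rw [mackeyMap_eq, HomologicalComplex.homologyMap_comp]
    rfl
  refine ⟨fun z z' h => key.1 ?_, fun w => ?_⟩
  · funext g
    have hh : (HomologicalComplex.homologyMap (mackeyMap loc U g.1 hloc hU A) n).hom z =
        (HomologicalComplex.homologyMap (mackeyMap loc U g.1 hloc hU A) n).hom z' :=
      congrFun h g
    rw [heq, heq] at hh
    exact hh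
  · obtain ⟨z, hz⟩ := key.2 w
    refine ⟨z, ?_⟩
    funext g
    show (HomologicalComplex.homologyMap (mackeyMap loc U g.1 hloc hU A) n).hom z = w g
    rw [heq]
    exact congrFun hz g

end Fermat.Agent.H39
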