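import Fermat.Agent.H53.S14T.Interfaces

/-!
# P-S14, block T: T-G4 (`FixedFieldStatement`) and T-G5 (`LiftAutStatement`)
-/

set_option autoImplicit false

open scoped NumberField

namespace Fermat.Agent.H39

/-- `ℚ̄/ℚ` is Galois, for the `ℚ`-algebra structure used throughout the prelude. -/
theorem isGalois_qbar_rat : IsGalois ℚ (AlgebraicClosure ℚ) :=
  (inferInstance : @IsGalois ℚ _ (AlgebraicClosure ℚ) _ (AlgebraicClosure.instAlgebra ℚ))

/-- `ℚ̄/ℚ` is normal, for the `ℚ`-algebra structure used throughout the prelude. -/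
theorem normal_qbar_rat : Normal ℚ (AlgebraicClosure ℚ) :=
  haveI := isGalois_qbar_rat
  inferInstance

/-- An element of `ℚ̄` fixed by every automorphism fixing `ι K` pointwise lies in `ι K`
(infinite Galois correspondence; no hypothesis on `K` needed). -/
theorem mem_range_of_fixed {K : Type*} [Field K] [Algebra ℚ K]
    (ι : K →ₐ[ℚ] AlgebraicClosure ℚ) (x : AlgebraicClosure ℚ)
    (hx : ∀ τ : AlgebraicClosure ℚ ≃ₐ[ℚ] AlgebraicClosure ℚ, (∀ k : K, τ (ι k) = ι k) → τ x = x) :
    ∃ k : K, ι k = x := by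
  haveI := isGalois_qbar_rat
  have hmem : x ∈ IntermediateField.fixedField (ι.fieldRange).fixingSubgroup := by
    rw [IntermediateField.mem_fixedField_iff]
    intro τ hτ
    refine hx τ (fun k => ?_)
    exact (IntermediateField.mem_fixingSubgroup_iff _ τ).mp hτ (ι k) ⟨k, rfl⟩
  rw [InfiniteGalois.fixedField_fixingSubgroup] at hmem
  exact hmem

/-- **T-G4**. -/
theorem fixedFieldStatement : Fermat.Agent.H53.FixedFieldStatement := by
  intro p _ K _ _ _ ι ζ hζ x hx
  exact mem_range_of_fixed ι x (fun τ hτ => hx τ (hτ ζ))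

/-- Automorphisms of an algebraic extension of `ℚ` embedded in `ℚ̄` lift to `ℚ̄`. -/
theorem exists_lift_aut {K : Type*} [Field K] [Algebra ℚ K]
    (ι : K →ₐ[ℚ] AlgebraicClosure ℚ) (σ : K ≃ₐ[ℚ] K) :
    ∃ σ' : AlgebraicClosure ℚ ≃ₐ[ℚ] AlgebraicClosure ℚ, ∀ k : K, σ' (ι k) = ι (σ k) := by
  haveI := normal_qbar_rat
  letI : Algebra K (AlgebraicClosure ℚ) := ι.toRingHom.toAlgebra
  haveI : IsScalarTower ℚ K (AlgebraicClosure ℚ) :=
    IsScalarTower.of_algebraMap_eq (fun q => (ι.commutes q).symm)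
  refine ⟨σ.liftNormal (AlgebraicClosure ℚ), fun k => ?_⟩
  exact σ.liftNormal_commutes (AlgebraicClosure ℚ) k

/-- **T-G5**. -/
theorem liftAutStatement : Fermat.Agent.H53.LiftAutStatement := by
  intro K _ _ ι σ
  exact exists_lift_aut ι σ

end Fermat.Agent.H39
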