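import Fermat.Agent.H76.ThaineInterfaces

/-!
# P-S14, C3-a: `ThaineFieldStatement` (field set-up and Hilbert 90 for `K(ζ_ℓ)/K`)
-/

set_option autoImplicit false

open scoped NumberField

namespace Fermat.Agent.H39

open Polynomial

section Setup

variable {p ℓ : ℕ} [Fact p.Prime] [Fact ℓ.Prime]
variable {K : Type} [Field K] [NumberField K] [IsCyclotomicExtension {p} ℚ K]
variable {F : Type} [Field F] [NumberField F] [Algebra K F] [IsCyclotomicExtension {ℓ} K F]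

/-- `F = K(ζ_ℓ)` is the `p ℓ`-th cyclotomic extension of `ℚ`. -/
theorem thaine_isCyclotomicExtension_mul (p ℓ : ℕ) [Fact p.Prime] [Fact ℓ.Prime]
    (K : Type) [Field K] [NumberField K] [IsCyclotomicExtension {p} ℚ K]
    (F : Type) [Field F] [NumberField F] [Algebra K F] [IsCyclotomicExtension {ℓ} K F]
    (hℓp : ℓ ≠ p) :
    IsCyclotomicExtension {p * ℓ} ℚ F := by
  have hp : p.Prime := Fact.out
  have hℓ : ℓ.Prime := Fact.out
  haveI : NeZero p := ⟨hp.ne_zero⟩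
  haveI : NeZero ℓ := ⟨hℓ.ne_zero⟩
  haveI : NeZero (p * ℓ) := ⟨Nat.mul_ne_zero hp.ne_zero hℓ.ne_zero⟩
  have h1 : IsCyclotomicExtension ({p} ∪ {ℓ}) ℚ F :=
    IsCyclotomicExtension.trans {p} {ℓ} ℚ K F (algebraMap K F).injective
  obtain ⟨z, hz⟩ := IsCyclotomicExtension.exists_isPrimitiveRoot ℚ F
    (S := ({p} ∪ {ℓ} : Set ℕ)) (n := p) (Or.inl rfl) hp.ne_zero
  obtain ⟨w, hw⟩ := IsCyclotomicExtension.exists_isPrimitiveRoot ℚ F
    (S := ({p} ∪ {ℓ} : Set ℕ)) (n := ℓ) (Or.inr rfl) hℓ.ne_zero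
  have hzw : IsPrimitiveRoot (z * w) (p * ℓ) := by
    rw [IsPrimitiveRoot.iff_orderOf]
    have hoz : orderOf z = p := hz.eq_orderOf.symm
    have how : orderOf w = ℓ := hw.eq_orderOf.symm
    have hco : (orderOf z).Coprime (orderOf w) := by
      rw [hoz, how]
      exact (Nat.coprime_primes hp hℓ).mpr (Ne.symm hℓp)
    rw [(Commute.all z w).orderOf_mul_eq_mul_orderOf_of_coprime hco, hoz, how]
  have h2 : IsCyclotomicExtension (({p} ∪ {ℓ}) ∪ {p * ℓ}) ℚ F :=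
    IsCyclotomicExtension.union_of_isPrimitiveRoot _ ℚ F hzw
  have h3 : IsCyclotomicExtension (({p * ℓ} ∪ {p}) ∪ {ℓ}) ℚ F := by
    have hset : ((({p * ℓ} ∪ {p}) ∪ {ℓ} : Set ℕ)) = (({p} ∪ {ℓ}) ∪ {p * ℓ}) := by
      ext x
      simp only [Set.mem_union, Set.mem_singleton_iff]
      tauto
    rw [hset]
    exact h2
  have h4 : IsCyclotomicExtension ({p * ℓ} ∪ {p}) ℚ F :=
    (IsCyclotomicExtension.iff_union_of_dvd (n := ℓ) (S := ({p * ℓ} ∪ {p} : Set ℕ)) ℚ F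
      ⟨p * ℓ, Or.inl rfl, NeZero.ne _, Dvd.intro_left p rfl⟩).mpr h3
  exact (IsCyclotomicExtension.iff_union_of_dvd (n := p) (S := ({p * ℓ} : Set ℕ)) ℚ F
      ⟨p * ℓ, rfl, NeZero.ne _, Dvd.intro ℓ rfl⟩).mpr h4

/-- `[F : K] = ℓ - 1`. -/
theorem thaine_finrank (hℓp : ℓ ≠ p) : Module.finrank K F = ℓ - 1 := by
  have hp : p.Prime := Fact.out
  have hℓ : ℓ.Prime := Fact.out
  haveI : NeZero p := ⟨hp.ne_zero⟩
  haveI : NeZero ℓ := ⟨hℓ.ne_zero⟩
  haveI : NeZero (p * ℓ) := ⟨Nat.mul_ne_zero hp.ne_zero hℓ.ne_zero⟩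
  haveI := thaine_isCyclotomicExtension_mul p ℓ K F hℓp
  have hF : Module.finrank ℚ F = (p * ℓ).totient :=
    IsCyclotomicExtension.finrank F (cyclotomic.irreducible_rat (Nat.pos_of_neZero _))
  have hK : Module.finrank ℚ K = p.totient :=
    IsCyclotomicExtension.finrank K (cyclotomic.irreducible_rat hp.pos)
  have htower := Module.finrank_mul_finrank ℚ K F
  rw [hF, hK, Nat.totient_mul ((Nat.coprime_primes hp hℓ).mpr (Ne.symm hℓp)),
    Nat.totient_prime hp, Nat.totient_prime hℓ] at htower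
  exact Nat.eq_of_mul_eq_mul_left (Nat.sub_pos_of_lt hp.one_lt) htower

/-- `Gal(F/K)` is cyclic. -/
theorem thaine_isCyclic (ℓ : ℕ) [Fact ℓ.Prime] (K : Type) [Field K]
    (F : Type) [Field F] [Algebra K F] [IsCyclotomicExtension {ℓ} K F] :
    IsCyclic (F ≃ₐ[K] F) := by
  have hℓ : ℓ.Prime := Fact.out
  haveI : NeZero ℓ := ⟨hℓ.ne_zero⟩
  obtain ⟨w, hw⟩ := IsCyclotomicExtension.exists_isPrimitiveRoot K F
    (S := ({ℓ} : Set ℕ)) (n := ℓ) rfl hℓ.ne_zero
  exact isCyclic_of_injective (hw.autToPow K) (hw.autToPow_injective K)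

end Setup

/-- For a prime `ℓ` and `z ≠ 1` with `z ^ ℓ = z`: `∏_μ (1 - μ z) = 1`, the product over the
primitive `ℓ`-th roots of unity. -/
theorem prod_primitiveRoots_one_sub_mul {R : Type*} [CommRing R] [IsDomain R] {ℓ : ℕ}
    (hℓ : ℓ.Prime) {w : R} (hw : IsPrimitiveRoot w ℓ) {z : R} (hz : z ^ ℓ = z) (hz1 : z ≠ 1) :
    ∏ μ ∈ primitiveRoots ℓ R, (1 - μ * z) = 1 := by
  classical
  have h := IsPrimitiveRoot.pow_sub_pow_eq_prod_sub_mul (1 : R) z hℓ.pos hw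
  rw [one_pow, hz, IsPrimitiveRoot.nthRoots_one_eq_biUnion_primitiveRoots, hℓ.divisors] at h
  have hdisj : Disjoint (primitiveRoots 1 R) (primitiveRoots ℓ R) := by
    rw [Finset.disjoint_left]
    intro x hx1 hxℓ
    rw [mem_primitiveRoots one_pos] at hx1
    rw [mem_primitiveRoots hℓ.pos] at hxℓ
    exact hℓ.one_lt.ne (hx1.unique hxℓ)
  have hbi : ({1, ℓ} : Finset ℕ).biUnion (fun i => primitiveRoots i R) =
      (primitiveRoots 1 R) ∪ (primitiveRoots ℓ R) := by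
    ext x
    simp
  rw [hbi, Finset.prod_union hdisj, IsPrimitiveRoot.primitiveRoots_one, Finset.prod_singleton, one_mul] at h
  have h1z : (1 - z) ≠ 0 := sub_ne_zero.mpr (Ne.symm hz1)
  have h' : (1 - z) * 1 = (1 - z) * ∏ μ ∈ primitiveRoots ℓ R, (1 - μ * z) := by
    rw [mul_one]; exact h
  exact (mul_left_cancel₀ h1z h').symm

section Norm

variable {p ℓ : ℕ} [Fact p.Prime] [Fact ℓ.Prime]
variable {K : Type} [Field K] [NumberField K] [IsCyclotomicExtension {p} ℚ K]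
variable {F : Type} [Field F] [NumberField F] [Algebra K F] [IsCyclotomicExtension {ℓ} K F]

/-- The norm from `F = K(ζ_ℓ)` to `K` of `1 - ζ_p ζ_ℓ` is `1` (when `ℓ ≡ 1 mod p`). -/
theorem thaine_norm_eq_one (hℓp : ℓ ≠ p) (hℓ1 : ℓ % p = 1) {ζ : K} (hζ : IsPrimitiveRoot ζ p)
    {w : F} (hw : IsPrimitiveRoot w ℓ) :
    Algebra.norm K (1 - algebraMap K F ζ * w) = 1 := by
  classical
  have hp : p.Prime := Fact.out
  have hℓ : ℓ.Prime := Fact.out
  haveI : NeZero ℓ := ⟨hℓ.ne_zero⟩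
  haveI : FiniteDimensional K F := IsCyclotomicExtension.finiteDimensional {ℓ} K F
  haveI : IsGalois K F := IsCyclotomicExtension.isGalois {ℓ} K F
  set z : F := algebraMap K F ζ with hz_def
  have hzp : z ^ p = 1 := by rw [hz_def, ← map_pow, hζ.pow_eq_one, map_one]
  have hzℓ : z ^ ℓ = z := by
    conv_lhs => rw [← Nat.div_add_mod ℓ p, hℓ1, pow_add, pow_mul, hzp, one_pow, one_mul, pow_one]
  have hz1 : z ≠ 1 := by
    intro h
    have : ζ = 1 := (algebraMap K F).injective (by rw [← hz_def, h, map_one])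
    exact hζ.ne_one hp.one_lt this
  apply (algebraMap K F).injective
  rw [Algebra.norm_eq_prod_automorphisms, map_one]
  have hσ : ∀ σ : F ≃ₐ[K] F, σ (1 - z * w) = 1 - σ w * z := by
    intro σ
    rw [map_sub, map_one, map_mul, hz_def, σ.commutes, mul_comm]
  simp_rw [hσ]
  have hinj : Function.Injective (fun σ : F ≃ₐ[K] F => σ w) := by
    intro σ τ hστ
    refine IsCyclotomicExtension.algEquiv_eq_of_apply_eq {ℓ} K F ?_
    intro n hn _
    rw [Set.mem_singleton_iff] at hn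
    subst hn
    exact ⟨w, hw, hστ⟩
  have himg : (Finset.univ.image (fun σ : F ≃ₐ[K] F => σ w)) = primitiveRoots ℓ F := by
    refine Finset.eq_of_subset_of_card_le ?_ ?_
    · intro x hx
      rw [Finset.mem_image] at hx
      obtain ⟨σ, -, rfl⟩ := hx
      rw [mem_primitiveRoots hℓ.pos]
      exact hw.map_of_injective σ.injective
    · rw [Finset.card_image_of_injective _ hinj, Finset.card_univ, hw.card_primitiveRoots,
        Nat.totient_prime hℓ, Fintype.card_eq_nat_card, IsGalois.card_aut_eq_finrank,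
        thaine_finrank (p := p) hℓp]
  calc ∏ σ : F ≃ₐ[K] F, (1 - σ w * z)
      = ∏ μ ∈ Finset.univ.image (fun σ : F ≃ₐ[K] F => σ w), (1 - μ * z) :=
        (Finset.prod_image (s := Finset.univ) (g := fun σ : F ≃ₐ[K] F => σ w)
          (f := fun μ : F => 1 - μ * z) (fun a _ b _ h => hinj h)).symm
    _ = ∏ μ ∈ primitiveRoots ℓ F, (1 - μ * z) := by rw [himg]
    _ = 1 := prod_primitiveRoots_one_sub_mul hℓ hw hzℓ hz1

end Norm

/-- **C3-a** (field set-up and Hilbert 90). -/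
theorem thaineFieldStatement : Fermat.Agent.H76.ThaineFieldStatement := by
  intro p ℓ _ _ hp5 K _ _ _ F _ _ _ _ hℓp hℓ1 ζ hζ ζℓ hζℓ
  have hp : p.Prime := Fact.out
  have hℓ : ℓ.Prime := Fact.out
  haveI : NeZero ℓ := ⟨hℓ.ne_zero⟩
  haveI : NeZero p := ⟨hp.ne_zero⟩
  haveI : FiniteDimensional K F := IsCyclotomicExtension.finiteDimensional {ℓ} K F
  haveI : IsGalois K F := IsCyclotomicExtension.isGalois {ℓ} K F
  haveI : IsCyclic (F ≃ₐ[K] F) := thaine_isCyclic ℓ K F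
  refine ⟨thaine_finrank (p := p) hℓp, ?_⟩
  obtain ⟨g, hg⟩ := IsCyclic.exists_generator (α := F ≃ₐ[K] F)
  -- primitive roots in the fields
  have hζK : IsPrimitiveRoot (ζ : K) p :=
    hζ.map_of_injective (f := algebraMap (𝓞 K) K) NumberField.RingOfIntegers.coe_injective
  have hwF : IsPrimitiveRoot (ζℓ : F) ℓ :=
    hζℓ.map_of_injective (f := algebraMap (𝓞 F) F) NumberField.RingOfIntegers.coe_injective
  -- the element of norm one
  set η : 𝓞 F := 1 - algebraMap (𝓞 K) (𝓞 F) ζ * ζℓ with hη_def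
  have hηF : algebraMap (𝓞 F) F η = 1 - algebraMap K F (ζ : K) * (ζℓ : F) := by
    rw [hη_def, map_sub, map_one, map_mul]
    rfl
  have hnorm : Algebra.norm K (algebraMap (𝓞 F) F η) = 1 := by
    rw [hηF]
    exact thaine_norm_eq_one hℓp hℓ1 hζK hwF
  obtain ⟨β, hβ0, hβ⟩ := groupCohomology.exists_mul_galRestrict_of_norm_eq_one
    (A := 𝓞 K) (B := 𝓞 F) (K := K) (L := F) hg hnorm
  -- the generator `τ = g⁻¹`
  set G := galRestrict (𝓞 K) K F (𝓞 F) with hG_def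
  have hτg : ∀ x : 𝓞 F, G g⁻¹ (G g x) = x := by
    intro x
    rw [map_inv]
    exact (G g).symm_apply_apply x
  have hroot : (G g⁻¹ ζℓ) ^ ℓ = 1 := by
    rw [← map_pow, hζℓ.pow_eq_one, map_one]
  obtain ⟨s, -, hs⟩ := hζℓ.eq_pow_of_pow_eq_one hroot
  refine ⟨g⁻¹, s, β, G g⁻¹ η, ?_, hs.symm, hβ0, ?_, ?_⟩
  · intro x
    rw [Subgroup.zpowers_inv]
    exact hg x
  · -- `τ β = τ η * β`
    have h1 := congrArg (G g⁻¹) hβ
    rw [map_mul, hτg] at h1
    exact h1.symm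
  · -- the congruence
    have hε : G g⁻¹ η = 1 - algebraMap (𝓞 K) (𝓞 F) ζ * ζℓ ^ s := by
      rw [hη_def, map_sub, map_one, map_mul, AlgEquiv.commutes, hs]
    rw [hε]
    have hdvd : ζℓ - 1 ∣ ζℓ ^ s - 1 := by
      simpa using sub_dvd_pow_sub_pow ζℓ 1 s
    obtain ⟨c, hc⟩ := hdvd
    refine ⟨-(algebraMap (𝓞 K) (𝓞 F) ζ) * c, ?_⟩
    have : ζℓ ^ s = (ζℓ - 1) * c + 1 := by rw [← hc]; ring
    rw [this]
    ring

end Fermat.Agent.H39
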