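import Mathlib
import Fermat.Prelude.Def_CuspForm_HeckeAlgebra
import Fermat.Agent.H30.PeterssonInterfaces

/-!
# PET-ADJ: the Petersson form from an invariant mean

`peterssonForm_of_invariantMean : InvariantMeanStatement → PeterssonFormStatement`, with
`B f g := I (petersson 2 f g)`.
-/

set_option autoImplicit false

open UpperHalfPlane ModularForm Matrix.SpecialLinearGroup

open scoped MatrixGroups ModularForm

namespace Fermat.Agent.H39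

noncomputable section

/-! ### Membership in `Γ(M)` via divisibility -/

lemma pet_gamma_mem_iff (M : ℕ) (γ : SL(2, ℤ)) :
    γ ∈ CongruenceSubgroup.Gamma M ↔
      (M : ℤ) ∣ γ 0 0 - 1 ∧ (M : ℤ) ∣ γ 0 1 ∧ (M : ℤ) ∣ γ 1 0 ∧ (M : ℤ) ∣ γ 1 1 - 1 := by
  rw [CongruenceSubgroup.Gamma_mem]
  simp only [← ZMod.intCast_zmod_eq_zero_iff_dvd, Int.cast_sub, Int.cast_one, sub_eq_zero]

lemma pet_gamma_le_of_dvd {M M' : ℕ} (h : M ∣ M') :
    CongruenceSubgroup.Gamma M' ≤ CongruenceSubgroup.Gamma M := by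
  intro γ hγ
  rw [pet_gamma_mem_iff] at hγ ⊢
  have h' : (M : ℤ) ∣ (M' : ℤ) := Int.natCast_dvd_natCast.mpr h
  exact ⟨h'.trans hγ.1, h'.trans hγ.2.1, h'.trans hγ.2.2.1, h'.trans hγ.2.2.2⟩

lemma pet_gamma_le_gamma0 (N : ℕ) :
    CongruenceSubgroup.Gamma N ≤ CongruenceSubgroup.Gamma0 N := by
  intro γ hγ
  rw [CongruenceSubgroup.Gamma_mem] at hγ
  rw [CongruenceSubgroup.Gamma0_mem]
  exact hγ.2.2.1

/-! ### Nice functions -/

/-- Weight-`2` "nice" functions of level `M`: continuous, with bounded Petersson norm, and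
slash-invariant under `Γ(M)`. -/
def PetNice (M : ℕ) (φ : ℍ → ℂ) : Prop :=
  Continuous φ ∧ (∃ C : ℝ, ∀ z, ‖petersson 2 φ φ z‖ ≤ C) ∧
    ∀ γ ∈ CongruenceSubgroup.Gamma M, φ ∣[(2 : ℤ)] γ = φ

lemma PetNice.mono {M M' : ℕ} {φ : ℍ → ℂ} (h : PetNice M φ) (hd : M ∣ M') : PetNice M' φ :=
  ⟨h.1, h.2.1, fun γ hγ => h.2.2 γ (pet_gamma_le_of_dvd hd hγ)⟩

lemma petNice_cuspForm {N : ℕ} [NeZero N] (f : CuspForm (CongruenceSubgroup.Gamma0 N) 2) :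
    PetNice N f := by
  refine ⟨?_, ?_, ?_⟩
  · exact (CuspFormClass.holo f).continuous
  · exact CuspFormClass.petersson_bounded_left 2 _ f f
  · intro γ hγ
    exact SlashInvariantFormClass.slash_action_eq f _
      (Subgroup.mem_map_of_mem _ (pet_gamma_le_gamma0 N hγ))

/-! ### Slash action in weight `2` -/

lemma pet_petersson_slash_pos (φ ψ : ℍ → ℂ) (g : GL (Fin 2) ℝ) (hg : 0 < g.det.val) (τ : ℍ) :
    petersson 2 (φ ∣[(2 : ℤ)] g) (ψ ∣[(2 : ℤ)] g) τ = petersson 2 φ ψ (g • τ) := by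
  rw [petersson_slash, σ, if_pos hg]
  simp

lemma pet_continuous_slash_diag {φ : ℍ → ℂ} (hφ : Continuous φ) {ℓ : ℕ} (hℓ : ℓ ≠ 0) :
    Continuous (φ ∣[(2 : ℤ)] heckeDiagMatrix ℓ) := by
  have : (φ ∣[(2 : ℤ)] heckeDiagMatrix ℓ) =
      fun τ => (ℓ : ℂ) ^ ((2 : ℤ) - 1) * φ (heckeDiagMatrix ℓ • τ) :=
    funext (slash_heckeDiagMatrix_apply 2 hℓ φ)
  rw [this]
  exact continuous_const.mul (hφ.comp (continuous_const_smul _))

lemma pet_continuous_slash_zero {φ : ℍ → ℂ} (hφ : Continuous φ) {ℓ : ℕ} (hℓ : ℓ ≠ 0) :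
    Continuous (φ ∣[(2 : ℤ)] heckeMatrix ℓ 0) := by
  have : (φ ∣[(2 : ℤ)] heckeMatrix ℓ 0) =
      fun τ => (ℓ : ℂ)⁻¹ * φ (heckeMatrix ℓ 0 • τ) :=
    funext (slash_heckeMatrix_apply 2 hℓ 0 φ)
  rw [this]
  exact continuous_const.mul (hφ.comp (continuous_const_smul _))

lemma pet_det_eq (g : SL(2, ℤ)) : g 0 0 * g 1 1 - g 0 1 * g 1 0 = 1 := by
  have h := g.det_coe
  rwa [Matrix.det_fin_two] at h

lemma pet_exists_SL (a b c d : ℤ) (h : a * d - b * c = 1) :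
    ∃ g : SL(2, ℤ), g 0 0 = a ∧ g 0 1 = b ∧ g 1 0 = c ∧ g 1 1 = d :=
  ⟨⟨!![a, b; c, d], by rw [Matrix.det_fin_two_of]; exact h⟩, rfl, rfl, rfl, rfl⟩

lemma pet_mapGL_apply (g : SL(2, ℤ)) (i j : Fin 2) :
    (mapGL ℝ g : GL (Fin 2) ℝ) i j = ((g i j : ℤ) : ℝ) := by
  simp

lemma pet_diag_conj {M ℓ : ℕ} (hℓ : ℓ ≠ 0) (γ : SL(2, ℤ))
    (hγ : γ ∈ CongruenceSubgroup.Gamma (M * ℓ)) :
    ∃ γ' ∈ CongruenceSubgroup.Gamma M,
      heckeDiagMatrix ℓ * mapGL ℝ γ = mapGL ℝ γ' * heckeDiagMatrix ℓ := by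
  rw [pet_gamma_mem_iff] at hγ
  obtain ⟨⟨a, ha⟩, ⟨b, hb⟩, ⟨e, he⟩, ⟨d, hd⟩⟩ := hγ
  have hdet := pet_det_eq γ
  push_cast at ha hb he hd
  obtain ⟨γ', h00, h01, h10, h11⟩ := pet_exists_SL (γ 0 0) (ℓ * γ 0 1) (M * e) (γ 1 1)
    (by linear_combination hdet + (γ 0 1) * he)
  refine ⟨γ', ?_, ?_⟩
  · rw [pet_gamma_mem_iff, h00, h01, h10, h11]
    refine ⟨⟨ℓ * a, ?_⟩, ⟨ℓ * ℓ * b, ?_⟩, ⟨e, rfl⟩, ⟨ℓ * d, ?_⟩⟩
    · linear_combination ha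
    · linear_combination (ℓ : ℤ) * hb
    · linear_combination hd
  · ext i j
    fin_cases i <;> fin_cases j <;>
      simp [hℓ, Matrix.mul_apply, Fin.sum_univ_two, h00, h01, h10, h11]
    all_goals first
      | (have := congrArg (Int.cast : ℤ → ℝ) he; push_cast at this ⊢; linear_combination this)
      | (have := congrArg (Int.cast : ℤ → ℝ) he; push_cast at this ⊢; linear_combination -this)
      | ring1

lemma pet_zero_conj {M ℓ : ℕ} (hℓ : ℓ ≠ 0) (γ : SL(2, ℤ))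
    (hγ : γ ∈ CongruenceSubgroup.Gamma (M * ℓ)) :
    ∃ γ' ∈ CongruenceSubgroup.Gamma M,
      heckeMatrix ℓ 0 * mapGL ℝ γ = mapGL ℝ γ' * heckeMatrix ℓ 0 := by
  rw [pet_gamma_mem_iff] at hγ
  obtain ⟨⟨a, ha⟩, ⟨b, hb⟩, ⟨e, he⟩, ⟨d, hd⟩⟩ := hγ
  have hdet := pet_det_eq γ
  push_cast at ha hb he hd
  obtain ⟨γ', h00, h01, h10, h11⟩ := pet_exists_SL (γ 0 0) (M * b) (ℓ * γ 1 0) (γ 1 1)
    (by linear_combination hdet + (γ 1 0) * hb)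
  refine ⟨γ', ?_, ?_⟩
  · rw [pet_gamma_mem_iff, h00, h01, h10, h11]
    refine ⟨⟨ℓ * a, ?_⟩, ⟨b, rfl⟩, ⟨ℓ * ℓ * e, ?_⟩, ⟨ℓ * d, ?_⟩⟩
    · linear_combination ha
    · linear_combination (ℓ : ℤ) * he
    · linear_combination hd
  · ext i j
    fin_cases i <;> fin_cases j <;>
      simp [hℓ, Matrix.mul_apply, Fin.sum_univ_two, h00, h01, h10, h11]
    all_goals first
      | (have := congrArg (Int.cast : ℤ → ℝ) hb; push_cast at this ⊢; linear_combination this)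
      | (have := congrArg (Int.cast : ℤ → ℝ) hb; push_cast at this ⊢; linear_combination -this)
      | ring1

lemma PetNice.slash_diag {M : ℕ} {φ : ℍ → ℂ} (h : PetNice M φ) {ℓ : ℕ} (hℓ : ℓ ≠ 0) :
    PetNice (M * ℓ) (φ ∣[(2 : ℤ)] heckeDiagMatrix ℓ) := by
  obtain ⟨hc, ⟨C, hC⟩, hinv⟩ := h
  refine ⟨pet_continuous_slash_diag hc hℓ, ⟨C, fun z => ?_⟩, fun γ hγ => ?_⟩
  · rw [pet_petersson_slash_pos _ _ _ (det_heckeDiagMatrix_pos ℓ)]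
    exact hC _
  · obtain ⟨γ', hγ', hmul⟩ := pet_diag_conj hℓ γ hγ
    rw [ModularForm.SL_slash, ← SlashAction.slash_mul]
    have hmul' : heckeDiagMatrix ℓ * (γ : GL (Fin 2) ℝ) = (γ' : GL (Fin 2) ℝ) * heckeDiagMatrix ℓ :=
      hmul
    rw [hmul', SlashAction.slash_mul, ← ModularForm.SL_slash, hinv γ' hγ']

lemma PetNice.slash_zero {M : ℕ} {φ : ℍ → ℂ} (h : PetNice M φ) {ℓ : ℕ} (hℓ : ℓ ≠ 0) :
    PetNice (M * ℓ) (φ ∣[(2 : ℤ)] heckeMatrix ℓ 0) := by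
  obtain ⟨hc, ⟨C, hC⟩, hinv⟩ := h
  refine ⟨pet_continuous_slash_zero hc hℓ, ⟨C, fun z => ?_⟩, fun γ hγ => ?_⟩
  · rw [pet_petersson_slash_pos _ _ _ (det_heckeMatrix_pos ℓ 0)]
    exact hC _
  · obtain ⟨γ', hγ', hmul⟩ := pet_zero_conj hℓ γ hγ
    rw [ModularForm.SL_slash, ← SlashAction.slash_mul]
    have hmul' : heckeMatrix ℓ 0 * (γ : GL (Fin 2) ℝ) = (γ' : GL (Fin 2) ℝ) * heckeMatrix ℓ 0 :=
      hmul
    rw [hmul', SlashAction.slash_mul, ← ModularForm.SL_slash, hinv γ' hγ']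

/-- In weight `2`, slashing by `diag(ℓ,1)` and then by `diag(1,ℓ)` is the identity. -/
lemma pet_slash_diag_zero (φ : ℍ → ℂ) {ℓ : ℕ} (hℓ : ℓ ≠ 0) :
    (φ ∣[(2 : ℤ)] heckeDiagMatrix ℓ) ∣[(2 : ℤ)] heckeMatrix ℓ 0 = φ := by
  have hℓ' : (ℓ : ℂ) ≠ 0 := by exact_mod_cast hℓ
  funext τ
  rw [slash_heckeMatrix_apply 2 hℓ, slash_heckeDiagMatrix_apply 2 hℓ]
  have hpt : heckeDiagMatrix ℓ • heckeMatrix ℓ 0 • τ = τ := by
    apply UpperHalfPlane.ext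
    rw [coe_heckeDiagMatrix_smul hℓ, coe_heckeMatrix_smul hℓ]
    field_simp
    simp
  rw [hpt]
  norm_num
  field_simp

/-- In weight `2`, slashing by `diag(1,ℓ)` and then by `diag(ℓ,1)` is the identity. -/
lemma pet_slash_zero_diag (φ : ℍ → ℂ) {ℓ : ℕ} (hℓ : ℓ ≠ 0) :
    (φ ∣[(2 : ℤ)] heckeMatrix ℓ 0) ∣[(2 : ℤ)] heckeDiagMatrix ℓ = φ := by
  have hℓ' : (ℓ : ℂ) ≠ 0 := by exact_mod_cast hℓ
  funext τ
  rw [slash_heckeDiagMatrix_apply 2 hℓ, slash_heckeMatrix_apply 2 hℓ]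
  have hpt : heckeMatrix ℓ 0 • heckeDiagMatrix ℓ • τ = τ := by
    apply UpperHalfPlane.ext
    rw [coe_heckeMatrix_smul hℓ, coe_heckeDiagMatrix_smul hℓ]
    field_simp
    simp
  rw [hpt]
  norm_num
  field_simp

/-- The translation `[[1, j], [0, 1]]`. -/
lemma pet_exists_translation (N ℓ j : ℕ) (hℓ : ℓ ≠ 0) :
    ∃ u ∈ CongruenceSubgroup.Gamma0 N, heckeMatrix ℓ j = heckeMatrix ℓ 0 * mapGL ℝ u := by
  obtain ⟨u, h00, h01, h10, h11⟩ := pet_exists_SL 1 j 0 1 (by ring)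
  refine ⟨u, ?_, ?_⟩
  · rw [CongruenceSubgroup.Gamma0_mem, h10]
    simp
  · ext i j
    fin_cases i <;> fin_cases j <;>
      simp [hℓ, Matrix.mul_apply, Fin.sum_univ_two, h00, h01, h10, h11]

/-- The Atkin–Lehner type relation between `diag(ℓ,1)` and `diag(1,ℓ)` modulo `Γ₀(N)`. -/
lemma pet_exists_bezout {N ℓ : ℕ} (hℓ : ℓ.Prime) (hℓN : ¬ ℓ ∣ N) :
    ∃ X ∈ CongruenceSubgroup.Gamma0 N, ∃ c ∈ CongruenceSubgroup.Gamma0 N,
      mapGL ℝ X * heckeDiagMatrix ℓ = heckeMatrix ℓ 0 * mapGL ℝ c := by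
  have hcop : IsCoprime (ℓ : ℤ) (N : ℤ) :=
    Nat.isCoprime_iff_coprime.mpr ((Nat.Prime.coprime_iff_not_dvd hℓ).mpr hℓN)
  obtain ⟨p, q, hpq⟩ := hcop
  -- p * ℓ + q * N = 1
  obtain ⟨X, hX00, hX01, hX10, hX11⟩ := pet_exists_SL p (-q) N ℓ (by linear_combination hpq)
  obtain ⟨c, hc00, hc01, hc10, hc11⟩ := pet_exists_SL (p * ℓ) (-q) N 1
    (by linear_combination hpq)
  refine ⟨X, ?_, c, ?_, ?_⟩
  · rw [CongruenceSubgroup.Gamma0_mem, hX10]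
    simp
  · rw [CongruenceSubgroup.Gamma0_mem, hc10]
    simp
  · ext i j
    fin_cases i <;> fin_cases j <;>
      simp [hℓ.ne_zero, Matrix.mul_apply, Fin.sum_univ_two, hX00, hX01, hX10, hX11,
        hc00, hc01, hc10, hc11]
    all_goals try ring

/-! ### Admissibility -/

open Fermat.Agent.H30

lemma petAdmissible_petersson {M : ℕ} (hM : 0 < M) {φ ψ : ℍ → ℂ} (hφ : PetNice M φ)
    (hψ : PetNice M ψ) : PetAdmissible (petersson 2 φ ψ) := by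
  obtain ⟨hc1, ⟨C1, hC1⟩, hinv1⟩ := hφ
  obtain ⟨hc2, ⟨C2, hC2⟩, hinv2⟩ := hψ
  refine ⟨petersson_continuous 2 hc1 hc2, ⟨C1 + C2, fun z => ?_⟩, M, hM, fun γ hγ z => ?_⟩
  · have h1 := hC1 z
    have h2 := hC2 z
    simp only [petersson, norm_mul, Complex.norm_conj, norm_zpow, Complex.norm_real] at h1 h2 ⊢
    have hx := norm_nonneg (φ z)
    have hy := norm_nonneg (ψ z)
    have ht : 0 ≤ ‖z.im‖ ^ (2 : ℤ) := by positivity
    nlinarith [mul_nonneg (sq_nonneg (‖φ z‖ - ‖ψ z‖)) ht, mul_nonneg (mul_nonneg hx hx) ht,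
      mul_nonneg (mul_nonneg hy hy) ht]
  · rw [← petersson_slash_SL, hinv1 γ hγ, hinv2 γ hγ]

lemma petAdmissible_zero : PetAdmissible (0 : ℍ → ℂ) :=
  ⟨continuous_zero, ⟨0, fun z => by simp⟩, 1, one_pos, fun _ _ _ => rfl⟩

lemma petAdmissible_add {Φ Ψ : ℍ → ℂ} (hΦ : PetAdmissible Φ) (hΨ : PetAdmissible Ψ) :
    PetAdmissible (Φ + Ψ) := by
  obtain ⟨hc1, ⟨C1, hC1⟩, M1, hM1, hinv1⟩ := hΦ
  obtain ⟨hc2, ⟨C2, hC2⟩, M2, hM2, hinv2⟩ := hΨ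
  refine ⟨hc1.add hc2, ⟨C1 + C2, fun z => ?_⟩, M1 * M2, Nat.mul_pos hM1 hM2, fun γ hγ z => ?_⟩
  · exact (norm_add_le _ _).trans (add_le_add (hC1 z) (hC2 z))
  · simp only [Pi.add_apply]
    rw [hinv1 γ (pet_gamma_le_of_dvd (Dvd.intro _ rfl) hγ),
      hinv2 γ (pet_gamma_le_of_dvd (Dvd.intro_left _ rfl) hγ)]

lemma petAdmissible_sum {ι : Type*} (s : Finset ι) (Φ : ι → ℍ → ℂ)
    (h : ∀ i ∈ s, PetAdmissible (Φ i)) : PetAdmissible (∑ i ∈ s, Φ i) := by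
  classical
  induction s using Finset.induction_on with
  | empty => simpa using petAdmissible_zero
  | insert i s hi ih =>
    rw [Finset.sum_insert hi]
    exact petAdmissible_add (h i (Finset.mem_insert_self i s))
      (ih fun j hj => h j (Finset.mem_insert_of_mem hj))

lemma petAdmissible_comp_SL {Φ : ℍ → ℂ} (hΦ : PetAdmissible Φ) (γ : SL(2, ℤ)) :
    PetAdmissible (fun z => Φ (γ • z)) := by
  obtain ⟨hc, ⟨C, hC⟩, M, hM, hinv⟩ := hΦ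
  refine ⟨hc.comp (continuous_const_smul (γ : GL (Fin 2) ℝ)), ⟨C, fun z => hC _⟩, M, hM,
    fun δ hδ z => ?_⟩
  have hconj : γ * δ * γ⁻¹ ∈ CongruenceSubgroup.Gamma M :=
    (CongruenceSubgroup.Gamma_normal M).conj_mem δ hδ γ
  have := hinv _ hconj (γ • z)
  show Φ (γ • δ • z) = Φ (γ • z)
  rw [← this]
  congr 1
  rw [← mul_smul, ← mul_smul]
  simp

/-! ### Additive functionals on admissible functions -/

section Mean

variable (I : (ℍ → ℂ) → ℂ)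
  (hI1 : ∀ Φ Ψ, PetAdmissible Φ → PetAdmissible Ψ → I (Φ + Ψ) = I Φ + I Ψ)

include hI1

lemma pet_mean_zero : I 0 = 0 := by
  have := hI1 0 0 petAdmissible_zero petAdmissible_zero
  rw [add_zero] at this
  exact left_eq_add.mp this

lemma pet_mean_sum {ι : Type*} (s : Finset ι) (Φ : ι → ℍ → ℂ)
    (h : ∀ i ∈ s, PetAdmissible (Φ i)) : I (∑ i ∈ s, Φ i) = ∑ i ∈ s, I (Φ i) := by
  classical
  induction s using Finset.induction_on with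
  | empty => simpa using pet_mean_zero I hI1
  | insert i s hi ih =>
    rw [Finset.sum_insert hi, Finset.sum_insert hi,
      hI1 _ _ (h i (Finset.mem_insert_self i s))
        (petAdmissible_sum s Φ fun j hj => h j (Finset.mem_insert_of_mem hj)),
      ih fun j hj => h j (Finset.mem_insert_of_mem hj)]

end Mean

/-! ### Sesquilinearity of the Petersson integrand -/

lemma pet_add_left (φ φ' ψ : ℍ → ℂ) :
    petersson 2 (φ + φ') ψ = petersson 2 φ ψ + petersson 2 φ' ψ := by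
  funext z
  simp [petersson, add_mul]

lemma pet_add_right (φ ψ ψ' : ℍ → ℂ) :
    petersson 2 φ (ψ + ψ') = petersson 2 φ ψ + petersson 2 φ ψ' := by
  funext z
  simp [petersson, mul_add, add_mul]

lemma pet_sum_left {ι : Type*} (s : Finset ι) (φ : ι → ℍ → ℂ) (ψ : ℍ → ℂ) :
    petersson 2 (∑ i ∈ s, φ i) ψ = ∑ i ∈ s, petersson 2 (φ i) ψ := by
  funext z
  simp [petersson, Finset.sum_apply, map_sum, Finset.sum_mul]

lemma pet_sum_right {ι : Type*} (s : Finset ι) (φ : ℍ → ℂ) (ψ : ι → ℍ → ℂ) :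
    petersson 2 φ (∑ i ∈ s, ψ i) = ∑ i ∈ s, petersson 2 φ (ψ i) := by
  funext z
  simp [petersson, Finset.sum_apply, Finset.mul_sum, Finset.sum_mul]

/-! ### The main computation -/

section Main

variable {N : ℕ} [NeZero N]

omit [NeZero N] in
lemma pet_cusp_slash_eq (f : CuspForm (CongruenceSubgroup.Gamma0 N) 2) {γ : SL(2, ℤ)}
    (hγ : γ ∈ CongruenceSubgroup.Gamma0 N) : (⇑f) ∣[(2 : ℤ)] γ = ⇑f :=
  SlashInvariantFormClass.slash_action_eq f _ (Subgroup.mem_map_of_mem _ hγ)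

variable (I : (ℍ → ℂ) → ℂ)
  (hI2 : ∀ Φ, PetAdmissible Φ → ∀ γ : SL(2, ℤ), I (fun z => Φ (γ • z)) = I Φ)
  (hI3 : ∀ Φ, PetAdmissible Φ → ∀ ℓ : ℕ, 0 < ℓ →
      I (fun z => Φ (ModularForm.heckeDiagMatrix ℓ • z)) = I Φ)
  (hI4 : ∀ Φ, PetAdmissible Φ → ∀ ℓ : ℕ, 0 < ℓ →
      I (fun z => Φ (ModularForm.heckeMatrix ℓ 0 • z)) = I Φ)

include hI2 hI4 in
lemma pet_claim_left (f g : CuspForm (CongruenceSubgroup.Gamma0 N) 2) {ℓ : ℕ} (hℓ : ℓ ≠ 0)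
    (j : ℕ) :
    PetAdmissible (petersson 2 (⇑f ∣[(2 : ℤ)] heckeMatrix ℓ j) ⇑g) ∧
      I (petersson 2 (⇑f ∣[(2 : ℤ)] heckeMatrix ℓ j) ⇑g) =
        I (petersson 2 ⇑f (⇑g ∣[(2 : ℤ)] heckeDiagMatrix ℓ)) := by
  obtain ⟨u, hu, hmul⟩ := pet_exists_translation N ℓ j hℓ
  have hNℓ : 0 < N * ℓ := Nat.mul_pos (NeZero.pos N) (Nat.pos_of_ne_zero hℓ)
  have hf : PetNice (N * ℓ) ⇑f := (petNice_cuspForm f).mono (Dvd.intro _ rfl)
  have hg : PetNice (N * ℓ) ⇑g := (petNice_cuspForm g).mono (Dvd.intro _ rfl)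
  have hf0 : PetNice (N * ℓ) (⇑f ∣[(2 : ℤ)] heckeMatrix ℓ 0) :=
    (petNice_cuspForm f).slash_zero hℓ
  have hgD : PetNice (N * ℓ) (⇑g ∣[(2 : ℤ)] heckeDiagMatrix ℓ) :=
    (petNice_cuspForm g).slash_diag hℓ
  have e1 : petersson 2 (⇑f ∣[(2 : ℤ)] heckeMatrix ℓ j) ⇑g =
      fun z => petersson 2 (⇑f ∣[(2 : ℤ)] heckeMatrix ℓ 0) ⇑g (u • z) := by
    funext z
    rw [← petersson_slash_SL, pet_cusp_slash_eq g hu, hmul, SlashAction.slash_mul]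
    rfl
  have e2 : petersson 2 (⇑f ∣[(2 : ℤ)] heckeMatrix ℓ 0) ⇑g =
      fun z => petersson 2 ⇑f (⇑g ∣[(2 : ℤ)] heckeDiagMatrix ℓ) (heckeMatrix ℓ 0 • z) := by
    funext z
    rw [← pet_petersson_slash_pos _ _ _ (det_heckeMatrix_pos ℓ 0), pet_slash_diag_zero _ hℓ]
  have a1 : PetAdmissible (petersson 2 (⇑f ∣[(2 : ℤ)] heckeMatrix ℓ 0) ⇑g) :=
    petAdmissible_petersson hNℓ hf0 hg
  have a2 : PetAdmissible (petersson 2 ⇑f (⇑g ∣[(2 : ℤ)] heckeDiagMatrix ℓ)) :=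
    petAdmissible_petersson hNℓ hf hgD
  constructor
  · rw [e1]
    exact petAdmissible_comp_SL a1 u
  · rw [e1, hI2 _ a1 u, e2, hI4 _ a2 ℓ (Nat.pos_of_ne_zero hℓ)]

include hI2 in
lemma pet_claim_right (f g : CuspForm (CongruenceSubgroup.Gamma0 N) 2) {ℓ : ℕ} (hℓ : ℓ ≠ 0)
    (j : ℕ) :
    PetAdmissible (petersson 2 ⇑f (⇑g ∣[(2 : ℤ)] heckeMatrix ℓ j)) ∧
      I (petersson 2 ⇑f (⇑g ∣[(2 : ℤ)] heckeMatrix ℓ j)) =
        I (petersson 2 ⇑f (⇑g ∣[(2 : ℤ)] heckeMatrix ℓ 0)) := by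
  obtain ⟨u, hu, hmul⟩ := pet_exists_translation N ℓ j hℓ
  have hNℓ : 0 < N * ℓ := Nat.mul_pos (NeZero.pos N) (Nat.pos_of_ne_zero hℓ)
  have hf : PetNice (N * ℓ) ⇑f := (petNice_cuspForm f).mono (Dvd.intro _ rfl)
  have hg0 : PetNice (N * ℓ) (⇑g ∣[(2 : ℤ)] heckeMatrix ℓ 0) :=
    (petNice_cuspForm g).slash_zero hℓ
  have e1 : petersson 2 ⇑f (⇑g ∣[(2 : ℤ)] heckeMatrix ℓ j) =
      fun z => petersson 2 ⇑f (⇑g ∣[(2 : ℤ)] heckeMatrix ℓ 0) (u • z) := by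
    funext z
    rw [← petersson_slash_SL, pet_cusp_slash_eq f hu, hmul, SlashAction.slash_mul]
    rfl
  have a1 : PetAdmissible (petersson 2 ⇑f (⇑g ∣[(2 : ℤ)] heckeMatrix ℓ 0)) :=
    petAdmissible_petersson hNℓ hf hg0
  constructor
  · rw [e1]
    exact petAdmissible_comp_SL a1 u
  · rw [e1, hI2 _ a1 u]

include hI3 in
lemma pet_claim_left_diag (f g : CuspForm (CongruenceSubgroup.Gamma0 N) 2) {ℓ : ℕ}
    (hℓ : ℓ ≠ 0) :
    PetAdmissible (petersson 2 (⇑f ∣[(2 : ℤ)] heckeDiagMatrix ℓ) ⇑g) ∧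
      I (petersson 2 (⇑f ∣[(2 : ℤ)] heckeDiagMatrix ℓ) ⇑g) =
        I (petersson 2 ⇑f (⇑g ∣[(2 : ℤ)] heckeMatrix ℓ 0)) := by
  have hNℓ : 0 < N * ℓ := Nat.mul_pos (NeZero.pos N) (Nat.pos_of_ne_zero hℓ)
  have hf : PetNice (N * ℓ) ⇑f := (petNice_cuspForm f).mono (Dvd.intro _ rfl)
  have hg : PetNice (N * ℓ) ⇑g := (petNice_cuspForm g).mono (Dvd.intro _ rfl)
  have hfD : PetNice (N * ℓ) (⇑f ∣[(2 : ℤ)] heckeDiagMatrix ℓ) :=
    (petNice_cuspForm f).slash_diag hℓ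
  have hg0 : PetNice (N * ℓ) (⇑g ∣[(2 : ℤ)] heckeMatrix ℓ 0) :=
    (petNice_cuspForm g).slash_zero hℓ
  have e2 : petersson 2 (⇑f ∣[(2 : ℤ)] heckeDiagMatrix ℓ) ⇑g =
      fun z => petersson 2 ⇑f (⇑g ∣[(2 : ℤ)] heckeMatrix ℓ 0) (heckeDiagMatrix ℓ • z) := by
    funext z
    rw [← pet_petersson_slash_pos _ _ _ (det_heckeDiagMatrix_pos ℓ), pet_slash_zero_diag _ hℓ]
  have a2 : PetAdmissible (petersson 2 ⇑f (⇑g ∣[(2 : ℤ)] heckeMatrix ℓ 0)) :=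
    petAdmissible_petersson hNℓ hf hg0
  constructor
  · exact petAdmissible_petersson hNℓ hfD hg
  · rw [e2, hI3 _ a2 ℓ (Nat.pos_of_ne_zero hℓ)]

include hI2 in
lemma pet_claim_swap (f g : CuspForm (CongruenceSubgroup.Gamma0 N) 2) {ℓ : ℕ}
    (hℓ : ℓ.Prime) (hℓN : ¬ ℓ ∣ N) :
    PetAdmissible (petersson 2 ⇑f (⇑g ∣[(2 : ℤ)] heckeDiagMatrix ℓ)) ∧
      I (petersson 2 ⇑f (⇑g ∣[(2 : ℤ)] heckeDiagMatrix ℓ)) =
        I (petersson 2 ⇑f (⇑g ∣[(2 : ℤ)] heckeMatrix ℓ 0)) := by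
  have hℓ0 : ℓ ≠ 0 := hℓ.ne_zero
  obtain ⟨X, hX, c, hc, hmul⟩ := pet_exists_bezout hℓ hℓN
  have hNℓ : 0 < N * ℓ := Nat.mul_pos (NeZero.pos N) (Nat.pos_of_ne_zero hℓ0)
  have hf : PetNice (N * ℓ) ⇑f := (petNice_cuspForm f).mono (Dvd.intro _ rfl)
  have hgD : PetNice (N * ℓ) (⇑g ∣[(2 : ℤ)] heckeDiagMatrix ℓ) :=
    (petNice_cuspForm g).slash_diag hℓ0
  have hg0 : PetNice (N * ℓ) (⇑g ∣[(2 : ℤ)] heckeMatrix ℓ 0) :=
    (petNice_cuspForm g).slash_zero hℓ0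
  have hgD' : ⇑g ∣[(2 : ℤ)] heckeDiagMatrix ℓ =
      (⇑g ∣[(2 : ℤ)] heckeMatrix ℓ 0) ∣[(2 : ℤ)] c := by
    have h1 : ⇑g ∣[(2 : ℤ)] heckeDiagMatrix ℓ =
        (⇑g ∣[(2 : ℤ)] X) ∣[(2 : ℤ)] heckeDiagMatrix ℓ := by
      rw [pet_cusp_slash_eq g hX]
    rw [h1, ModularForm.SL_slash, ← SlashAction.slash_mul]
    have hmul' : (X : GL (Fin 2) ℝ) * heckeDiagMatrix ℓ = heckeMatrix ℓ 0 * (c : GL (Fin 2) ℝ) :=
      hmul
    rw [hmul', SlashAction.slash_mul]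
    rfl
  have e1 : petersson 2 ⇑f (⇑g ∣[(2 : ℤ)] heckeDiagMatrix ℓ) =
      fun z => petersson 2 ⇑f (⇑g ∣[(2 : ℤ)] heckeMatrix ℓ 0) (c • z) := by
    funext z
    rw [← petersson_slash_SL, pet_cusp_slash_eq f hc, ← hgD']
  have a1 : PetAdmissible (petersson 2 ⇑f (⇑g ∣[(2 : ℤ)] heckeMatrix ℓ 0)) :=
    petAdmissible_petersson hNℓ hf hg0
  constructor
  · exact petAdmissible_petersson hNℓ hf hgD
  · rw [e1, hI2 _ a1 c]

end Main

/-- **PET-ADJ**: an invariant mean on admissible functions yields the Petersson form, for which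
the Hecke operators `T_ℓ`, `ℓ ∤ N`, are self-adjoint. -/
theorem peterssonForm_of_invariantMean (h : InvariantMeanStatement) : PeterssonFormStatement := by
  obtain ⟨I, hI1, hI2, hI3, hI4, hI5⟩ := h
  intro N _
  have hN : 0 < N := NeZero.pos N
  have adm : ∀ f g : CuspForm (CongruenceSubgroup.Gamma0 N) 2,
      PetAdmissible (petersson 2 ⇑f ⇑g) := fun f g =>
    petAdmissible_petersson hN (petNice_cuspForm f) (petNice_cuspForm g)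
  refine ⟨fun f g => I (petersson 2 ⇑f ⇑g), ?_, ?_, ?_, ?_⟩
  · intro f g h
    show I (petersson 2 ⇑(f + g) ⇑h) = _
    rw [FunLike.coe_add, pet_add_left]
    exact hI1 _ _ (adm f h) (adm g h)
  · intro f g h
    show I (petersson 2 ⇑f ⇑(g + h)) = _
    rw [FunLike.coe_add, pet_add_right]
    exact hI1 _ _ (adm f g) (adm f h)
  · intro f hf
    have key : ∀ z : ℍ, petersson 2 ⇑f ⇑f z =
        ((Complex.normSq (f z) * z.im ^ 2 : ℝ) : ℂ) := by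
      intro z
      rw [Complex.ofReal_mul, Complex.normSq_eq_conj_mul_self]
      simp only [petersson]
      push_cast
      norm_cast
    have hzero := hI5 _ (adm f f) (fun z => by
      rw [key z, Complex.ofReal_re, Complex.ofReal_im]
      exact ⟨mul_nonneg (Complex.normSq_nonneg _) (sq_nonneg _), rfl⟩) hf
    apply DFunLike.ext
    intro z
    have hz := hzero z
    rw [key z, Complex.ofReal_eq_zero] at hz
    rcases mul_eq_zero.mp hz with h | h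
    · simpa using Complex.normSq_eq_zero.mp h
    · exact absurd (pow_eq_zero_iff (two_ne_zero)|>.mp h) z.im_ne_zero
  · intro ℓ hℓ hℓN f g
    have hℓ0 : ℓ ≠ 0 := hℓ.ne_zero
    show I (petersson 2 ⇑(CuspForm.heckeTLin 2 hℓ hℓN f) ⇑g) =
      I (petersson 2 ⇑f ⇑(CuspForm.heckeTLin 2 hℓ hℓN g))
    rw [CuspForm.coe_heckeTLin_apply, CuspForm.coe_heckeTLin_apply, heckeT_def, heckeT_def,
      pet_add_left, pet_add_right, pet_sum_left, pet_sum_right]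
    have hL := fun j => pet_claim_left I hI2 hI4 f g hℓ0 j
    have hR := fun j => pet_claim_right I hI2 f g hℓ0 j
    have hLD := pet_claim_left_diag I hI3 f g hℓ0
    have hS := pet_claim_swap I hI2 f g hℓ hℓN
    rw [hI1 _ _ (petAdmissible_sum _ _ fun j _ => (hL j).1) hLD.1,
      hI1 _ _ (petAdmissible_sum _ _ fun j _ => (hR j).1) hS.1,
      pet_mean_sum I hI1 _ _ fun j _ => (hL j).1,
      pet_mean_sum I hI1 _ _ fun j _ => (hR j).1]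
    simp only [fun j => (hL j).2, fun j => (hR j).2, hLD.2, hS.2]

end

end Fermat.Agent.H39
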