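import Mathlib

/-!
# P-FF / FF-F4 (row 672, helper39): the determinant trick for a base change (Mathlib only)

`R → T` commutative rings, `M` an `R`-module generated by `s : Fin μ → M`.  If `t : T` kills
`T ⊗[R] M` then `t ^ μ ∈ Ann_R(M) T`.
-/

set_option autoImplicit false

open TensorProduct

namespace Fermat.Agent.H39

section

variable {R T M : Type*} [CommRing R] [CommRing T] [Algebra R T] [AddCommGroup M] [Module R M]
  {μ : ℕ} (s : Fin μ → M)

/-- If every row of `A` is a relation among the `s j`, then `det A` kills every `s i`. -/
lemma detTrick_det_smul (A : Matrix (Fin μ) (Fin μ) R) (hA : ∀ k, ∑ j, A k j • s j = 0)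
    (i : Fin μ) : A.det • s i = 0 := by
  have h1 : A.det • s i = ∑ j, (A.det • (1 : Matrix (Fin μ) (Fin μ) R)) i j • s j := by
    simp [Matrix.smul_apply, Matrix.one_apply, ite_smul]
  rw [h1, ← Matrix.adjugate_mul]
  simp only [Matrix.mul_apply, Finset.sum_smul, mul_smul]
  rw [Finset.sum_comm]
  refine Finset.sum_eq_zero fun k _ => ?_
  rw [← Finset.smul_sum, hA k, smul_zero]

/-- If every row of `A` is a relation among the generators `s j`, then `det A ∈ Ann_R(M)`. -/
lemma detTrick_det_mem (hs : Submodule.span R (Set.range s) = ⊤)
    (A : Matrix (Fin μ) (Fin μ) R) (hA : ∀ k, ∑ j, A k j • s j = 0) :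
    A.det ∈ Module.annihilator R M := by
  rw [Module.mem_annihilator]
  intro m
  have hm : m ∈ Submodule.span R (Set.range s) := by rw [hs]; trivial
  induction hm using Submodule.span_induction with
  | mem x hx =>
    obtain ⟨i, rfl⟩ := hx
    exact detTrick_det_smul s A hA i
  | zero => exact smul_zero _
  | add x y _ _ hx hy => rw [smul_add, hx, hy, add_zero]
  | smul c x _ hx => rw [smul_comm, hx, smul_zero]

variable (R T) in
/-- the `T`-span of the relations among the `s j` -/
def detTrickW : Submodule T (Fin μ → T) :=
  Submodule.span T {w | ∃ r : Fin μ → R, ∑ j, r j • s j = 0 ∧ w = fun j => algebraMap R T (r j)}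

/-- A matrix whose rows indexed by `S` lie in `W` and whose other rows are relations has
determinant in `Ann_R(M) T`. -/
lemma detTrick_claim_aux (hs : Submodule.span R (Set.range s) = ⊤) (S : Finset (Fin μ)) :
    ∀ A : Matrix (Fin μ) (Fin μ) T, (∀ k ∈ S, A k ∈ detTrickW R T s) →
      (∀ k ∉ S, ∃ r : Fin μ → R, ∑ j, r j • s j = 0 ∧ A k = fun j => algebraMap R T (r j)) →
      A.det ∈ Ideal.map (algebraMap R T) (Module.annihilator R M) := by
  classical
  induction S using Finset.induction_on with
  | empty =>
    intro A _ hA
    choose r hr hAr using fun k => hA k (Finset.notMem_empty k)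
    have hAeq : A = (algebraMap R T).mapMatrix (Matrix.of r) := by
      ext k j
      rw [hAr k]
      rfl
    rw [hAeq, ← RingHom.map_det]
    exact Ideal.mem_map_of_mem _ (detTrick_det_mem s hs (Matrix.of r) hr)
  | insert j S hj ih =>
    intro A hAW hArel
    have hrow : A j ∈ detTrickW R T s := hAW j (Finset.mem_insert_self j S)
    have key : ∀ w ∈ detTrickW R T s,
        (A.updateRow j w).det ∈ Ideal.map (algebraMap R T) (Module.annihilator R M) := by
      intro w hw
      induction hw using Submodule.span_induction with
      | mem w hw =>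
        refine ih _ (fun k hk => ?_) (fun k hk => ?_)
        · have hkj : k ≠ j := fun h => hj (h ▸ hk)
          rw [Matrix.updateRow_ne hkj]
          exact hAW k (Finset.mem_insert_of_mem hk)
        · by_cases hkj : k = j
          · subst hkj
            rw [Matrix.updateRow_self]
            exact hw
          · rw [Matrix.updateRow_ne hkj]
            exact hArel k (fun h => (Finset.mem_insert.mp h).elim hkj hk)
      | zero =>
        rw [Matrix.det_eq_zero_of_row_eq_zero j (fun i => by rw [Matrix.updateRow_self]; rfl)]
        exact Ideal.zero_mem _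
      | add u v _ _ hu hv =>
        rw [Matrix.det_updateRow_add]
        exact Ideal.add_mem _ hu hv
      | smul c u _ hu =>
        rw [Matrix.det_updateRow_smul]
        exact Ideal.mul_mem_left _ _ hu
    have := key (A j) hrow
    rwa [Matrix.updateRow_eq_self] at this

/-- A matrix with all rows in `W` has determinant in `Ann_R(M) T`. -/
lemma detTrick_claim (hs : Submodule.span R (Set.range s) = ⊤)
    (A : Matrix (Fin μ) (Fin μ) T) (hA : ∀ k, A k ∈ detTrickW R T s) :
    A.det ∈ Ideal.map (algebraMap R T) (Module.annihilator R M) :=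
  detTrick_claim_aux s hs Finset.univ A (fun k _ => hA k)
    (fun k hk => absurd (Finset.mem_univ k) hk)

/-- The image of `T ⊗ Rel` in `T ^ μ` lies in `W`. -/
lemma detTrick_image_mem
    (w : T ⊗[R] (LinearMap.ker (Fintype.linearCombination R s))) :
    TensorProduct.piScalarRight R T T (Fin μ)
      (LinearMap.lTensor T (LinearMap.ker (Fintype.linearCombination R s)).subtype w)
        ∈ detTrickW R T s := by
  induction w using TensorProduct.induction_on with
  | zero => simp
  | tmul a r =>
    have hr : ∑ j, (r : Fin μ → R) j • s j = 0 := by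
      have := r.2
      rwa [LinearMap.mem_ker, Fintype.linearCombination_apply] at this
    have h1 : TensorProduct.piScalarRight R T T (Fin μ)
        (LinearMap.lTensor T (LinearMap.ker (Fintype.linearCombination R s)).subtype (a ⊗ₜ r))
        = a • (fun j => algebraMap R T ((r : Fin μ → R) j)) := by
      funext j
      simp [Algebra.smul_def, mul_comm]
    rw [h1]
    exact Submodule.smul_mem _ _ (Submodule.subset_span ⟨r, hr, rfl⟩)
  | add x y hx hy =>
    rw [map_add, map_add]
    exact Submodule.add_mem _ hx hy

/-- **The determinant trick for a base change.** -/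
theorem detTrick (hs : Submodule.span R (Set.range s) = ⊤) (t : T)
    (ht : ∀ x : T ⊗[R] M, t • x = 0) :
    t ^ μ ∈ Ideal.map (algebraMap R T) (Module.annihilator R M) := by
  classical
  set φ := Fintype.linearCombination R s with hφ
  have hsurj : Function.Surjective φ := by
    rw [← LinearMap.range_eq_top, hφ, Fintype.range_linearCombination, hs]
  have hex := lTensor_exact T (LinearMap.exact_subtype_ker_map φ) hsurj
  -- the rows
  have hrow : ∀ j : Fin μ, (Pi.single j t : Fin μ → T) ∈ detTrickW R T s := by
    intro j
    have h0 : LinearMap.lTensor T φ (t ⊗ₜ[R] (Pi.single j (1 : R) : Fin μ → R)) = 0 := by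
      rw [LinearMap.lTensor_tmul, hφ, Fintype.linearCombination_apply_single, one_smul]
      have := ht ((1 : T) ⊗ₜ[R] s j)
      rwa [TensorProduct.smul_tmul', smul_eq_mul, mul_one] at this
    obtain ⟨w, hw⟩ := (hex _).mp h0
    have h1 := detTrick_image_mem s w
    rw [hw] at h1
    have h2 : TensorProduct.piScalarRight R T T (Fin μ)
        (t ⊗ₜ[R] (Pi.single j (1 : R) : Fin μ → R)) = Pi.single j t := by
      funext i
      simp [Pi.single_apply]
    rwa [h2] at h1
  have hdet := detTrick_claim s hs (Matrix.of fun j => (Pi.single j t : Fin μ → T))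
    (fun k => hrow k)
  have hmat : (Matrix.of fun j => (Pi.single j t : Fin μ → T)) =
      t • (1 : Matrix (Fin μ) (Fin μ) T) := by
    ext i j
    simp [Matrix.one_apply, Pi.single_apply, eq_comm]
  rw [hmat, Matrix.det_smul, Matrix.det_one, mul_one, Fintype.card_fin] at hdet
  exact hdet

end

end Fermat.Agent.H39
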