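import Fermat.Agent.H14.FFF.Interfaces
import Fermat.Agent.H39.DetTrickCore

/-!
# P-FF / FF-F4 (row 672, helper39): `DetTrickStatement`
-/

set_option autoImplicit false

namespace Fermat.Agent.H39

/-- **FF-F4** the determinant trick for a base change. -/
theorem detTrickStatement : Fermat.Agent.H14.FFF.DetTrickStatement := by
  intro R T M _ _ _ _ _ μ s hs t ht
  exact detTrick s hs t ht

end Fermat.Agent.H39
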