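import Fermat.Agent.H62.Cheb.Interfaces

/-!
# P-CHEB, row CHEB-B: `CountingStatement`

For `K/ℚ` Galois, `D ≤ Gal(K/ℚ)`, `F = K^D` and `p` unramified in `K`:
`|D| · #{𝔮 ⊂ 𝓞 F : N𝔮 = p} = #{(𝔓, g) : 𝔓 ∣ p, g ∈ Z(𝔓), Z(𝔓) ≤ D}`.
-/

set_option autoImplicit false
set_option maxSynthPendingDepth 3

open NumberField Ideal IsDedekindDomain
open scoped Pointwise Classical

namespace Fermat.Agent.H39

open Fermat.Agent.H62.Cheb

section Arithmetic

variable (K : Type) [Field K] [NumberField K] [IsGalois ℚ K] (D : Subgroup (K ≃ₐ[ℚ] K))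

theorem cnt_isGaloisGroup_field : IsGaloisGroup D (IntermediateField.fixedField D) K :=
  IsGaloisGroup.subgroup (K ≃ₐ[ℚ] K) ℚ K D

theorem cnt_isGaloisGroup_int :
    IsGaloisGroup D (𝓞 (IntermediateField.fixedField D)) (𝓞 K) :=
  haveI := cnt_isGaloisGroup_field K D
  IsGaloisGroup.of_isFractionRing D (𝓞 (IntermediateField.fixedField D)) (𝓞 K)
    (IntermediateField.fixedField D) K

variable {K}

omit [IsGalois ℚ K] in
/-- For `p` unramified in `K`, every prime of `𝓞 K` over `p` has ramification index one. -/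
theorem cnt_ramificationIdx_eq_one {p : ℕ} (hp : p.Prime)
    (hdisc : ¬ ((p : ℤ) ∣ NumberField.discr K)) (P : Ideal (𝓞 K)) [P.IsPrime]
    (hP : ((p : ℕ) : 𝓞 K) ∈ P) : P.ramificationIdx ℤ = 1 := by
  have hp' : Prime (p : ℤ) := Nat.prime_iff_prime_int.mp hp
  have h := (NumberField.not_dvd_discr_iff_forall_mem K (𝓞 K) hp').mp hdisc P inferInstance
    (by simpa using hP)
  exact Ideal.ramificationIdx_eq_one P ℤ

/-- Cardinality of the decomposition group of an unramified prime, in the tower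
`ℤ ⊆ 𝓞 F ⊆ 𝓞 K`, `F = K^D`. -/
theorem cnt_card_stabilizer {p : ℕ} (hp : p.Prime)
    (hdisc : ¬ ((p : ℤ) ∣ NumberField.discr K)) (P : Ideal (𝓞 K)) [P.IsPrime]
    (hP : ((p : ℕ) : 𝓞 K) ∈ P) :
    Nat.card (MulAction.stabilizer (K ≃ₐ[ℚ] K) P) =
      (P.under (𝓞 (IntermediateField.fixedField D))).inertiaDeg ℤ *
        Nat.card (MulAction.stabilizer D P) := by
  have hp' : Prime (p : ℤ) := Nat.prime_iff_prime_int.mp hp
  have := cnt_isGaloisGroup_int K D
  have h𝔭max : (Ideal.span {(p : ℤ)}).IsMaximal := hp'.isMaximal_span_singleton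
  have hPover : P.LiesOver (Ideal.span {(p : ℤ)}) :=
    (Ideal.liesOver_span_iff (Ideal.IsPrime.ne_top inferInstance) hp').mpr (by simpa using hP)
  set q : Ideal (𝓞 (IntermediateField.fixedField D)) :=
    P.under (𝓞 (IntermediateField.fixedField D)) with hq
  have hPq : P.LiesOver q := ⟨rfl⟩
  have hqprime : q.IsPrime := Ideal.IsPrime.under _ P
  have he : P.ramificationIdx ℤ = 1 := cnt_ramificationIdx_eq_one hp hdisc P hP
  have hetower : P.ramificationIdx ℤ = q.ramificationIdx ℤ *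
      P.ramificationIdx (𝓞 (IntermediateField.fixedField D)) := Ideal.ramificationIdx_tower q P
  have he2 : P.ramificationIdx (𝓞 (IntermediateField.fixedField D)) = 1 := by
    rw [he] at hetower
    exact Nat.eq_one_of_mul_eq_one_left hetower.symm
  have hftower : P.inertiaDeg ℤ = q.inertiaDeg ℤ *
      P.inertiaDeg (𝓞 (IntermediateField.fixedField D)) := Ideal.inertiaDeg_tower q P
  have h1 : Nat.card (MulAction.stabilizer (K ≃ₐ[ℚ] K) P) = P.inertiaDeg ℤ := by
    rw [Ideal.card_stabilizer_eq (G := (K ≃ₐ[ℚ] K)) (Ideal.span {(p : ℤ)}) P,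
      Ideal.ramificationIdxIn_eq_ramificationIdx _ P (K ≃ₐ[ℚ] K),
      Ideal.inertiaDegIn_eq_inertiaDeg _ P (K ≃ₐ[ℚ] K), he, one_mul]
  have h2 : Nat.card (MulAction.stabilizer D P) =
      P.inertiaDeg (𝓞 (IntermediateField.fixedField D)) := by
    have h2' := Ideal.card_stabilizer_eq (G := D) q P
    rw [Ideal.ramificationIdxIn_eq_ramificationIdx _ P D,
      Ideal.inertiaDegIn_eq_inertiaDeg _ P D, he2, one_mul] at h2'
    exact h2'
  rw [h1, h2, hftower]

omit [IsGalois ℚ K] in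
/-- The prime of `𝓞 F` under a prime of `𝓞 K` over `p` has norm a power of `p`. -/
theorem cnt_absNorm_under {p : ℕ} (hp : p.Prime) (P : Ideal (𝓞 K)) [P.IsPrime]
    (hP : ((p : ℕ) : 𝓞 K) ∈ P) :
    Ideal.absNorm (P.under (𝓞 (IntermediateField.fixedField D))) =
      p ^ (P.under (𝓞 (IntermediateField.fixedField D))).inertiaDeg ℤ := by
  have hp' : Prime (p : ℤ) := Nat.prime_iff_prime_int.mp hp
  have h𝔭max : (Ideal.span {(p : ℤ)}).IsMaximal := hp'.isMaximal_span_singleton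
  have hPover : P.LiesOver (Ideal.span {(p : ℤ)}) :=
    (Ideal.liesOver_span_iff (Ideal.IsPrime.ne_top inferInstance) hp').mpr (by simpa using hP)
  set q : Ideal (𝓞 (IntermediateField.fixedField D)) :=
    P.under (𝓞 (IntermediateField.fixedField D)) with hq
  have hPq : P.LiesOver q := ⟨rfl⟩
  have hqprime : q.IsPrime := Ideal.IsPrime.under _ P
  have hqover : q.LiesOver (Ideal.span {(p : ℤ)}) := Ideal.LiesOver.tower_bot P q _
  have hq0 : q ≠ ⊥ := by
    intro h0
    have h1 : (Ideal.span {(p : ℤ)}) = q.under ℤ := hqover.over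
    rw [h0] at h1
    have h2 : ((p : ℤ)) ∈ (⊥ : Ideal (𝓞 (IntermediateField.fixedField D))).under ℤ := by
      rw [← h1]; exact Ideal.mem_span_singleton_self _
    rw [Ideal.under_def, Ideal.mem_comap, Ideal.mem_bot] at h2
    have h3 : (p : ℤ) = 0 := by
      apply (FaithfulSMul.algebraMap_injective ℤ (𝓞 (IntermediateField.fixedField D)))
      rw [h2, map_zero]
    exact hp.ne_zero (by exact_mod_cast h3)
  have hqmax : q.IsMaximal := hqprime.isMaximal hq0
  rw [Ideal.absNorm_eq_pow_inertiaDeg' q hp, Ideal.inertiaDeg'_eq_inertiaDeg]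

/-- **Claim A**: for `P` over an unramified `p`, the prime of `F = K^D` under `P` has norm `p`
iff the decomposition group of `P` is contained in `D`. -/
theorem cnt_absNorm_under_eq_iff {p : ℕ} (hp : p.Prime)
    (hdisc : ¬ ((p : ℤ) ∣ NumberField.discr K)) (P : Ideal (𝓞 K)) [P.IsPrime]
    (hP : ((p : ℕ) : 𝓞 K) ∈ P) :
    Ideal.absNorm (P.under (𝓞 (IntermediateField.fixedField D))) = p ↔
      MulAction.stabilizer (K ≃ₐ[ℚ] K) P ≤ D := by
  rw [cnt_absNorm_under D hp P hP, Nat.pow_eq_self_iff hp.one_lt]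
  have hcard := cnt_card_stabilizer D hp hdisc P hP
  have hmap : (MulAction.stabilizer D P).map D.subtype =
      MulAction.stabilizer (K ≃ₐ[ℚ] K) P ⊓ D := by
    ext g
    constructor
    · rintro ⟨d, hd, rfl⟩
      exact ⟨hd, d.2⟩
    · rintro ⟨hg, hgD⟩
      exact ⟨⟨g, hgD⟩, hg, rfl⟩
  have hcardD : Nat.card (MulAction.stabilizer D P) =
      Nat.card ↥(MulAction.stabilizer (K ≃ₐ[ℚ] K) P ⊓ D) := by
    rw [← hmap, Subgroup.card_subtype]
  have hpos : 0 < Nat.card (MulAction.stabilizer D P) := Nat.card_pos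
  constructor
  · intro h1
    rw [h1, one_mul, hcardD] at hcard
    have := Subgroup.eq_of_le_of_card_ge (inf_le_left :
      MulAction.stabilizer (K ≃ₐ[ℚ] K) P ⊓ D ≤ MulAction.stabilizer (K ≃ₐ[ℚ] K) P) hcard.le
    exact inf_eq_left.mp this
  · intro hle
    rw [hcardD, inf_eq_left.mpr hle] at hcard hpos
    have : (P.under (𝓞 (IntermediateField.fixedField D))).inertiaDeg ℤ *
        Nat.card (MulAction.stabilizer (K ≃ₐ[ℚ] K) P) =
        1 * Nat.card (MulAction.stabilizer (K ≃ₐ[ℚ] K) P) := by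
      rw [one_mul]; exact hcard.symm
    exact Nat.eq_of_mul_eq_mul_right hpos this

end Arithmetic

section Counting

variable {K : Type} [Field K] [NumberField K] [IsGalois ℚ K] (D : Subgroup (K ≃ₐ[ℚ] K))

omit [IsGalois ℚ K] in
theorem cnt_natCast_mem_of_liesOver {p : ℕ} (P : Ideal (𝓞 K))
    (q : Ideal (𝓞 (IntermediateField.fixedField D))) [hPq : P.LiesOver q]
    (h : ((p : ℕ) : 𝓞 (IntermediateField.fixedField D)) ∈ q) : ((p : ℕ) : 𝓞 K) ∈ P := by
  rw [hPq.over, Ideal.under_def, Ideal.mem_comap, map_natCast] at h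
  exact h

omit [IsGalois ℚ K] in
theorem cnt_natCast_mem_of_absNorm {p : ℕ} (q : Ideal (𝓞 (IntermediateField.fixedField D)))
    (h : Ideal.absNorm q = p) : ((p : ℕ) : 𝓞 (IntermediateField.fixedField D)) ∈ q := by
  rw [← h]
  exact Ideal.absNorm_mem q

omit [IsGalois ℚ K] in
theorem cnt_ne_bot_of_natCast_mem {R : Type} [CommRing R] [CharZero R] {p : ℕ} (hp : p.Prime)
    (I : Ideal R) (h : ((p : ℕ) : R) ∈ I) : I ≠ ⊥ := by
  intro h0
  rw [h0, Ideal.mem_bot] at h
  exact hp.ne_zero (by exact_mod_cast h)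

/-- The type of pairs counted by `pairCount`. -/
abbrev CntPairs (p : ℕ) : Type :=
  {x : HeightOneSpectrum (𝓞 K) × (K ≃ₐ[ℚ] K) //
    ((p : ℕ) : 𝓞 K) ∈ x.1.asIdeal ∧ x.2 ∈ MulAction.stabilizer (K ≃ₐ[ℚ] K) x.1.asIdeal ∧
      MulAction.stabilizer (K ≃ₐ[ℚ] K) x.1.asIdeal ≤ D}

/-- The type of primes counted by `primeCount`. -/
abbrev CntPrimes (p : ℕ) : Type :=
  {v : HeightOneSpectrum (𝓞 (IntermediateField.fixedField D)) // absNorm v.asIdeal = p}

/-- The prime of `F = K^D` below a pair. -/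
noncomputable def cntBelow {p : ℕ} (hp : p.Prime) (hdisc : ¬ ((p : ℤ) ∣ NumberField.discr K))
    (x : CntPairs D p) : CntPrimes D p :=
  ⟨⟨x.1.1.asIdeal.under (𝓞 (IntermediateField.fixedField D)),
      Ideal.IsPrime.under _ x.1.1.asIdeal,
      cnt_ne_bot_of_natCast_mem hp _ (by
        have := x.2.1
        rw [Ideal.under_def, Ideal.mem_comap, map_natCast]
        exact this)⟩,
    (cnt_absNorm_under_eq_iff D hp hdisc x.1.1.asIdeal x.2.1).mpr x.2.2.2⟩

/-- `D` commutes with `𝓞 F` on `𝓞 K`. -/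
theorem cnt_smulCommClass :
    SMulCommClass D (𝓞 (IntermediateField.fixedField D)) (𝓞 K) :=
  (cnt_isGaloisGroup_int K D).commutes

attribute [local instance] cnt_smulCommClass cnt_isGaloisGroup_int

/-- The fibre of `cntBelow` over a prime `v` of `F` is the set of pairs `(d, Q)`, `d ∈ D`,
`Q` a prime of `K` over `v` fixed by `d`. -/
noncomputable def cntFibreEquiv {p : ℕ} (hp : p.Prime)
    (hdisc : ¬ ((p : ℤ) ∣ NumberField.discr K)) (v : CntPrimes D p) :
    {x : CntPairs D p // cntBelow D hp hdisc x = v} ≃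
      Σ d : D, MulAction.fixedBy (v.1.asIdeal.primesOver (𝓞 K)) d where
  toFun x :=
    ⟨⟨x.1.1.2, x.1.2.2.2 x.1.2.2.1⟩,
      ⟨⟨x.1.1.1.asIdeal, x.1.1.1.isPrime,
          ⟨(congrArg (fun w : CntPrimes D p => w.1.asIdeal) x.2).symm⟩⟩,
        Subtype.ext x.1.2.2.1⟩⟩
  invFun y :=
    haveI : y.2.1.1.IsPrime := y.2.1.2.1
    haveI : y.2.1.1.LiesOver v.1.asIdeal := y.2.1.2.2
    have hmem : ((p : ℕ) : 𝓞 K) ∈ y.2.1.1 :=
      cnt_natCast_mem_of_liesOver D y.2.1.1 v.1.asIdeal (cnt_natCast_mem_of_absNorm D _ v.2)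
    have hunder : y.2.1.1.under (𝓞 (IntermediateField.fixedField D)) = v.1.asIdeal :=
      (Ideal.over_def y.2.1.1 v.1.asIdeal).symm
    ⟨⟨(⟨y.2.1.1, y.2.1.2.1, cnt_ne_bot_of_natCast_mem hp _ hmem⟩, y.1.1),
        hmem, congrArg Subtype.val y.2.2,
        (cnt_absNorm_under_eq_iff D hp hdisc y.2.1.1 hmem).mp (by rw [hunder]; exact v.2)⟩,
      Subtype.ext (HeightOneSpectrum.ext hunder)⟩
  left_inv x := rfl
  right_inv y := rfl

/-- Each fibre of `cntBelow` is in bijection with `D` (Burnside for a transitive action). -/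
theorem cnt_nonempty_fibre_equiv {p : ℕ} (hp : p.Prime)
    (hdisc : ¬ ((p : ℤ) ∣ NumberField.discr K)) (v : CntPrimes D p) :
    Nonempty ({x : CntPairs D p // cntBelow D hp hdisc x = v} ≃ D) := by
  have : v.1.asIdeal.IsPrime := v.1.isPrime
  have hne : Nonempty (v.1.asIdeal.primesOver (𝓞 K)) := inferInstance
  have htr : MulAction.IsPretransitive D (v.1.asIdeal.primesOver (𝓞 K)) := inferInstance
  obtain ⟨hU⟩ := (MulAction.pretransitive_iff_unique_quotient_of_nonempty
    (G := D) (α := v.1.asIdeal.primesOver (𝓞 K))).mp htr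
  exact ⟨(cntFibreEquiv D hp hdisc v).trans
    ((MulAction.sigmaFixedByEquivOrbitsProdGroup D (v.1.asIdeal.primesOver (𝓞 K))).trans
      (Equiv.uniqueProd D _))⟩

/-- **CHEB-B**: the counting statement. -/
theorem counting : CountingStatement := by
  intro K _ _ _ D p hp hdisc
  show Nat.card D * Nat.card (CntPrimes D p) = Nat.card (CntPairs D p)
  have e1 : CntPairs D p ≃ Σ v : CntPrimes D p, {x : CntPairs D p // cntBelow D hp hdisc x = v} :=
    (Equiv.sigmaFiberEquiv (cntBelow D hp hdisc)).symm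
  have e2 : (Σ v : CntPrimes D p, {x : CntPairs D p // cntBelow D hp hdisc x = v}) ≃
      Σ _ : CntPrimes D p, D :=
    Equiv.sigmaCongrRight fun v => (cnt_nonempty_fibre_equiv D hp hdisc v).some
  have e3 : (Σ _ : CntPrimes D p, D) ≃ CntPrimes D p × D := Equiv.sigmaEquivProd _ _
  rw [Nat.card_congr ((e1.trans e2).trans e3), Nat.card_prod, mul_comm]

end Counting

end Fermat.Agent.H39
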