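import Fermat.Agent.H94.QEig.Interfaces
import Fermat.Agent.H29.ESB.Interfaces2
import Fermat.Agent.H21.EsC.Interfaces
import Fermat.Prelude.Thm_ModularCurve_coeffMap_qExpand

/-!
# P-ES / Q-EIG-C (helper39): the descent map of ES-B commutes with the Hecke operators

`heckeDescent : HeckeDescentStatement N` from the ES-B statements (`DescentStatement`,
`LaurentInstanceStatement`, `CorrespondenceBCStatement`), the inputs of the prelude Hecke
operator over `ℚ̄` and `ℂ` (`HeckeInputsStatement`) and the finiteness of the torsion of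
`Pic⁰(ℂ(X₀(N)))`.
-/

set_option autoImplicit false

noncomputable section

open AlgebraicCurve ModularCurve IntermediateField

namespace Fermat.Agent.H39

section Abstract

variable {k K Fk FK Fk' FK' : Type} [Field k] [Field K] [Field Fk] [Field FK]
  [Field Fk'] [Field FK'] [Algebra k Fk] [Algebra K FK] [Algebra k Fk'] [Algebra K FK']
  [HasPrincipalDivisors k Fk'] [HasPrincipalDivisors K FK']

/-- A map on `Pic⁰` induced by a base change of divisors which commutes with a correspondence on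
divisors commutes with the induced correspondence on `Pic⁰`. -/
theorem qeigc_commutes_abstract
    (ext : Place k Fk → Place K FK) (φ : Pic0 k Fk →+ Pic0 K FK)
    (hmk : ∀ (D : Divisor k Fk) (hD : D ∈ Divisor.degZero (K := k) (F := Fk))
      (hD' : Fermat.Agent.H29.divisorBC ext D ∈ Divisor.degZero (K := K) (F := FK)),
      φ (Pic0.mk ⟨D, hD⟩) = Pic0.mk ⟨Fermat.Agent.H29.divisorBC ext D, hD'⟩)
    (hdeg : ∀ D : Divisor k Fk,
      Divisor.degree (Fermat.Agent.H29.divisorBC ext D) = Divisor.degree D)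
    (βk αk : Fk →ₐ[k] Fk') (βK αK : FK →ₐ[K] FK')
    (hβk : βk.toRingHom.IsIntegral) (hαk : αk.toRingHom.IsIntegral)
    (hβK : βK.toRingHom.IsIntegral) (hαK : αK.toRingHom.IsIntegral)
    (hFIk : FundamentalIdentityAlong k βk hβk) (hfink : FiniteAlong k αk)
    (hNk : NormFormulaAlong k αk hfink)
    (hFIK : FundamentalIdentityAlong K βK hβK) (hfinK : FiniteAlong K αK)
    (hNK : NormFormulaAlong K αK hfinK)
    (key : ∀ D : Divisor k Fk,
      Fermat.Agent.H29.divisorBC ext (Divisor.correspondence βk αk hβk hαk D)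
        = Divisor.correspondence βK αK hβK hαK (Fermat.Agent.H29.divisorBC ext D))
    (x : Pic0 k Fk) :
    φ (Pic0.correspondence βk αk hβk hαk hFIk hfink hNk x)
      = Pic0.correspondence βK αK hβK hαK hFIK hfinK hNK (φ x) := by
  obtain ⟨D, rfl⟩ := Pic0.mk_surjective x
  have hD' : Fermat.Agent.H29.divisorBC ext (D : Divisor k Fk) ∈
      Divisor.degZero (K := K) (F := FK) := by
    rw [Divisor.mem_degZero, hdeg]
    exact D.2
  have hmemQ : Divisor.correspondence βk αk hβk hαk (D : Divisor k Fk) ∈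
      Divisor.degZero (K := k) (F := Fk) :=
    Divisor.correspondence_mem_degZero _ _ hβk hαk hFIk D.2
  have hmemC : Fermat.Agent.H29.divisorBC ext
      (Divisor.correspondence βk αk hβk hαk (D : Divisor k Fk)) ∈
      Divisor.degZero (K := K) (F := FK) := by
    rw [Divisor.mem_degZero, hdeg]
    exact hmemQ
  have h1 : Pic0.correspondence βk αk hβk hαk hFIk hfink hNk (Pic0.mk D) =
      Pic0.mk ⟨Divisor.correspondence βk αk hβk hαk (D : Divisor k Fk), hmemQ⟩ :=
    Pic0.correspondence_mk _ _ hβk hαk hFIk hfink hNk D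
  have h2 : φ (Pic0.mk D) = Pic0.mk ⟨Fermat.Agent.H29.divisorBC ext (D : Divisor k Fk), hD'⟩ :=
    hmk D.1 D.2 hD'
  have h3 : Pic0.correspondence βK αK hβK hαK hFIK hfinK hNK
      (Pic0.mk ⟨Fermat.Agent.H29.divisorBC ext (D : Divisor k Fk), hD'⟩) =
      Pic0.mk (Pic0.degZeroCorrespondence βK αK hβK hαK
        hFIK ⟨Fermat.Agent.H29.divisorBC ext (D : Divisor k Fk), hD'⟩) :=
    Pic0.correspondence_mk _ _ hβK hαK hFIK hfinK hNK _
  rw [h1, h2, hmk _ hmemQ hmemC, h3]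
  exact congrArg Pic0.mk (Subtype.ext (key D))

end Abstract

open Fermat.Agent.H29 in
/-- **Q-EIG-C**. -/
theorem heckeDescent (N : ℕ) [NeZero N]
    (hDesc : ∀ (M : ℕ) [NeZero M], Fermat.Agent.H29.DescentStatement M)
    (hInst : ∀ (M : ℕ) [NeZero M], Fermat.Agent.H29.LaurentInstanceStatement M)
    (hCorr : Fermat.Agent.H29.CorrespondenceBCStatement)
    (hQ : Fermat.Agent.H21.EsC.HeckeInputsStatement (AlgebraicClosure ℚ))
    (hC : Fermat.Agent.H21.EsC.HeckeInputsStatement ℂ)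
    (hfin : ∀ m : ℕ, 0 < m → Finite (Pic0.torsion ℂ ↥(Fermat.Agent.H94.QEig.FC N) m)) :
    Fermat.Agent.H94.QEig.HeckeDescentStatement N := by
  intro ι
  obtain ⟨bc, ext, φ, hbc, hextinj, hext, hrat, hmk, hdeg, hinj, htors⟩ := hDesc N ι
  refine ⟨φ, hinj, fun m hm z hz => (htors m hm (hfin m hm)).1 z hz, ?_⟩
  intro ℓ _ hℓ hℓN x
  have : NeZero (N * ℓ) := ⟨Nat.mul_ne_zero (NeZero.ne N) (NeZero.ne ℓ)⟩
  obtain ⟨bc', ext', φ', hbc', hextinj', hext', hrat', hmk', hdeg', hinj', htors'⟩ :=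
    hDesc (N * ℓ) ι
  obtain ⟨E, hEι, hEbc, -⟩ := hInst N ι
  obtain ⟨E', hE'ι, hE'bc, -⟩ := hInst (N * ℓ) ι
  have hEbc' : ∀ f, E.bc f = bc f := fun f => Subtype.ext ((hEbc f).trans (hbc f).symm)
  have hE'bc' : ∀ f, E'.bc f = bc' f := fun f => Subtype.ext ((hE'bc f).trans (hbc' f).symm)
  have hPE : IsPlaceExt E ext := fun v f => by rw [hEbc']; exact hext v f
  have hPE' : IsPlaceExt E' ext' := fun v f => by rw [hE'bc']; exact hext' v f
  have hsqα : SquareCompat E E' (heckeAlphaBar (AlgebraicClosure ℚ) N ℓ)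
      (heckeAlphaBar ℂ N ℓ) := by
    refine ⟨hE'ι.trans hEι.symm, fun f => Subtype.ext ?_⟩
    rw [hE'bc, coe_heckeAlphaBar, coe_heckeAlphaBar, hEbc]
  have hsqβ : SquareCompat E E' (heckeBetaBar (AlgebraicClosure ℚ) N ℓ)
      (heckeBetaBar ℂ N ℓ) := by
    refine ⟨hE'ι.trans hEι.symm, fun f => Subtype.ext ?_⟩
    rw [hE'bc, coe_heckeBetaBar, coe_heckeBetaBar, hEbc, coeffMap_qExpand]
  obtain ⟨hαQ, hβQ, hPQ, hfinQ, hFIQ, hNQ⟩ := hQ N ℓ hℓ
  obtain ⟨hαC, hβC, hPC, hfinC, hFIC, hNC⟩ := hC N ℓ hℓ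
  rw [heckeOperatorAlong_eq hαQ hβQ hFIQ hfinQ hNQ, heckeOperatorAlong_eq hαC hβC hFIC hfinC hNC]
  exact qeigc_commutes_abstract ext φ hmk hdeg _ _ _ _ hβQ hαQ hβC hαC hFIQ hfinQ hNQ
    hFIC hfinC hNC
    (fun D => hCorr _ _ _ _ _ _ E E' (heckeBetaBar (AlgebraicClosure ℚ) N ℓ)
      (heckeAlphaBar (AlgebraicClosure ℚ) N ℓ) (heckeBetaBar ℂ N ℓ) (heckeAlphaBar ℂ N ℓ)
      hβQ hβC hαQ hαC hsqβ hsqα ext ext' hPE hPE' D) x

end Fermat.Agent.H39

end
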