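import Mathlib

/-!
# KL-NORM-ABH (helper39): Abhyankar's lemma, abstract form

`A ⊆ B` Dedekind domains containing a field `K₀` of characteristic `0`, `B` finite over `A`,
`G` a finite group with `IsGaloisGroup G A B`; `s ∈ B` with `s ^ e = t ∈ A`, every `g ∈ G`
multiplies `s` by a constant, and `g` is determined by `g • s` (Kummer extension).  For a nonzero
prime `P` of `B` with `p = P ∩ A`:

* `abh_caseA` : if `s ∈ P` and the exact power of `p` containing `t` divides `e`, then
  `s ∉ P ^ 2`;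
* `abh_caseB` : if `s ∉ P` then `P` is unramified over `p`: every `h ∈ p \ p ^ 2` satisfies
  `h ∉ P ^ 2`.

Proof via the inertia group (`Ideal.card_inertia_eq_ramificationIdxIn`).
-/

set_option autoImplicit false

open IsDedekindDomain WithZero

namespace Fermat.Agent.H39

section Basic

variable {K₀ B : Type*} [Field K₀] [CommRing B] [Algebra K₀ B]

/-- A prime ideal contains no nonzero constant. -/
lemma abh_const_mem (P : Ideal B) [hP : P.IsPrime] (c : K₀) (h : algebraMap K₀ B c ∈ P) :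
    c = 0 := by
  by_contra hc
  have hu : IsUnit (algebraMap K₀ B c) := (IsUnit.mk0 c hc).map _
  exact hP.ne_top (Ideal.eq_top_of_isUnit_mem _ h hu)

variable {G : Type*} [Group G] [MulSemiringAction G B]

/-- The inertia group preserves the powers of the ideal. -/
lemma abh_smul_mem_pow (P : Ideal B) {g : G} (hg : g ∈ P.inertia G) (m : ℕ) {z : B}
    (hz : z ∈ P ^ m) : g • z ∈ P ^ m := by
  have h1 : P ≤ Ideal.comap (MulSemiringAction.toRingHom G B g) P := by
    intro y hy
    rw [Ideal.mem_comap]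
    have := hg y
    have h2 : g • y = (g • y - y) + y := by ring
    show g • y ∈ P
    rw [h2]
    exact P.add_mem this hy
  have h2 : P ^ m ≤ Ideal.comap (MulSemiringAction.toRingHom G B g) (P ^ m) :=
    (Ideal.pow_right_mono h1 m).trans (Ideal.le_comap_pow _ m)
  exact h2 hz

end Basic

section Dedekind

variable {B : Type*} [CommRing B] [IsDedekindDomain B]
  {G : Type*} [Group G] [MulSemiringAction G B]

/-- The inertia group acts trivially on `P ^ m / P ^ (m + 1)` as soon as the latter is generated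
by an invariant element. -/
lemma abh_smul_sub_mem (P : Ideal B) [P.IsPrime] (hP : P ≠ ⊥) {g : G} (hg : g ∈ P.inertia G)
    (m : ℕ) {u y : B} (hu : u ∈ P ^ m) (hu' : u ∉ P ^ (m + 1)) (hgu : g • u = u)
    (hy : y ∈ P ^ m) : g • y - y ∈ P ^ (m + 1) := by
  have hI : Ideal.span {u} ⊔ P ^ (m + 1) = P ^ m := by
    apply Ideal.eq_prime_pow_of_succ_lt_of_le hP
    · refine lt_of_le_of_ne le_sup_right ?_
      intro h
      apply hu'
      rw [h]
      exact Ideal.mem_sup_left (Ideal.mem_span_singleton_self u)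
    · refine sup_le ?_ (Ideal.pow_le_pow_right (Nat.le_succ m))
      rwa [Ideal.span_singleton_le_iff_mem]
  rw [← hI, Submodule.mem_sup] at hy
  obtain ⟨y₁, hy₁, z, hz, rfl⟩ := hy
  obtain ⟨a, rfl⟩ := Ideal.mem_span_singleton'.mp hy₁
  have h1 : g • (a * u + z) - (a * u + z) = (g • a - a) * u + (g • z - z) := by
    rw [smul_add, smul_mul', hgu]
    ring
  rw [h1]
  refine Ideal.add_mem _ ?_ (Ideal.sub_mem _ (abh_smul_mem_pow P hg _ hz) hz)
  rw [pow_succ']
  exact Ideal.mul_mem_mul (hg a) hu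

/-- Exact powers via the valuation. -/
lemma abh_intValuation_eq_iff (w : HeightOneSpectrum B) (y : B) (m : ℕ) :
    w.intValuation y = exp (-(m : ℤ)) ↔ y ∈ w.asIdeal ^ m ∧ y ∉ w.asIdeal ^ (m + 1) := by
  rw [← w.intValuation_le_pow_iff_mem, ← w.intValuation_le_pow_iff_mem]
  constructor
  · intro h
    rw [h]
    refine ⟨le_rfl, ?_⟩
    rw [exp_le_exp]
    push_cast
    omega
  · rintro ⟨h1, h2⟩
    rcases eq_or_ne y 0 with rfl | hy
    · exact absurd (by simp) h2
    obtain ⟨k, hk⟩ : ∃ k : ℕ, w.intValuation y = exp (-(k : ℤ)) :=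
      ⟨_, w.intValuation_eq_exp_neg_multiplicity hy⟩
    rw [hk, exp_le_exp] at h1 h2
    rw [hk, exp_inj]
    push_cast at h2
    omega

lemma abh_exists_intValuation (w : HeightOneSpectrum B) {y : B} (hy : y ≠ 0) :
    ∃ k : ℕ, w.intValuation y = exp (-(k : ℤ)) :=
  ⟨_, w.intValuation_eq_exp_neg_multiplicity hy⟩

end Dedekind

section Galois

/-- The residue fields of a `K₀`-algebra have characteristic zero. -/
lemma abh_charZero_residueField (K₀ : Type*) {A : Type*} [Field K₀] [CharZero K₀] [CommRing A]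
    [Algebra K₀ A] (p : Ideal A) [p.IsPrime] : CharZero p.ResidueField :=
  charZero_of_injective_ringHom
    (f := (algebraMap A p.ResidueField).comp (algebraMap K₀ A)) (RingHom.injective _)

variable {A B : Type*}
  [CommRing A] [IsDedekindDomain A] [CommRing B] [IsDedekindDomain B] [Algebra A B]
  [Module.Finite A B] [Module.IsTorsionFree A B]
  {G : Type*} [Group G] [Finite G] [MulSemiringAction G B] [IsGaloisGroup G A B]

/-- The cardinality of the inertia group is the ramification index, and the valuation of `P`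
restricts to the corresponding power of the valuation of `p`. -/
lemma abh_card_inertia (P : Ideal B) [P.IsPrime] (hP : P ≠ ⊥)
    [PerfectField (P.under A).ResidueField] :
    ∃ (v : HeightOneSpectrum A) (w : HeightOneSpectrum B), v.asIdeal = P.under A ∧
      w.asIdeal = P ∧
      ∀ x : A, v.intValuation x ^ Nat.card (P.inertia G) = w.intValuation (algebraMap A B x) := by
  have hp : P.under A ≠ ⊥ := fun h => hP (Ideal.eq_bot_of_comap_eq_bot h)
  let v : HeightOneSpectrum A := ⟨P.under A, inferInstance, hp⟩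
  let w : HeightOneSpectrum B := ⟨P, inferInstance, hP⟩
  have : w.asIdeal.LiesOver v.asIdeal := (inferInstance : P.LiesOver (P.under A))
  refine ⟨v, w, rfl, rfl, fun x => ?_⟩
  have h1 : Nat.card (P.inertia G) = (P.under A).ramificationIdx' P := by
    rw [Ideal.card_inertia_eq_ramificationIdxIn (G := G) (P.under A) P,
      Ideal.ramificationIdxIn_eq_ramificationIdx (P.under A) P G,
      Ideal.ramificationIdx'_eq_ramificationIdx (P.under A) P hp]
  rw [h1]
  exact HeightOneSpectrum.intValuation_liesOver v w x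

end Galois

section Main

variable {K₀ A B : Type*} [Field K₀] [CharZero K₀]
  [CommRing A] [IsDedekindDomain A] [CommRing B] [IsDedekindDomain B]
  [Algebra K₀ A] [Algebra K₀ B] [Algebra A B]
  [Module.Finite A B] [Module.IsTorsionFree A B]
  {G : Type*} [Group G] [Finite G] [MulSemiringAction G B] [IsGaloisGroup G A B]

omit [CharZero K₀] [IsDedekindDomain A] [IsDedekindDomain B] [Algebra K₀ A]
  [Module.Finite A B] [Module.IsTorsionFree A B] [Finite G]
  [IsGaloisGroup G A B] [Algebra A B] in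
/-- If `g` is in the inertia group of `P`, `g • y = c • y` for a constant `c` and `g • y - y`
lies in a power of `P` not containing `y`, then `c = 1`. -/
lemma abh_const_eq_one (P : Ideal B) [P.IsPrime] {g : G} {y : B} {c : K₀} (m : ℕ)
    (hgy : g • y = algebraMap K₀ B c * y) (hsub : g • y - y ∈ P ^ m) (hy : y ∉ P ^ m) :
    c = 1 := by
  by_contra hc
  have hc' : c - 1 ≠ 0 := sub_ne_zero.mpr hc
  have hu : IsUnit (algebraMap K₀ B (c - 1)) := (IsUnit.mk0 _ hc').map _
  have h1 : g • y - y = algebraMap K₀ B (c - 1) * y := by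
    rw [hgy, map_sub, map_one]
    ring
  rw [h1] at hsub
  apply hy
  obtain ⟨b, hb⟩ := hu.exists_left_inv
  have : y = b * (algebraMap K₀ B (c - 1) * y) := by
    rw [← mul_assoc, hb, one_mul]
  rw [this]
  exact Ideal.mul_mem_left _ _ hsub

/-- **Abhyankar, case B**: if `s ∉ P` then the inertia group of `P` is trivial, and `P` is
unramified over `P ∩ A`. -/
theorem abh_caseB (ζ : K₀) (s : B)
    (hG : ∀ g : G, ∃ k : ℕ, g • s = algebraMap K₀ B (ζ ^ k) * s)
    (hGs : ∀ g : G, g • s = s → g = 1)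
    (P : Ideal B) [P.IsPrime] (hP : P ≠ ⊥) (hs : s ∉ P)
    (h : A) (hh : h ∈ P.under A) (hh2 : h ∉ (P.under A) ^ 2) :
    algebraMap A B h ∉ P ^ 2 := by
  have : CharZero (P.under A).ResidueField := abh_charZero_residueField K₀ _
  obtain ⟨v, w, hv, hw, hvw⟩ := abh_card_inertia (A := A) (G := G) P hP
  have htriv : ∀ g : G, g ∈ P.inertia G → g = 1 := by
    intro g hg
    obtain ⟨k, hk⟩ := hG g
    have h1 : ζ ^ k = 1 := by
      refine abh_const_eq_one P 1 hk ?_ (by simpa using hs)
      simpa using hg s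
    rw [h1, map_one, one_mul] at hk
    exact hGs g hk
  have hcard : Nat.card (P.inertia G) = 1 := by
    rw [Nat.card_eq_one_iff_unique]
    exact ⟨⟨fun a b => Subtype.ext ((htriv a a.2).trans (htriv b b.2).symm)⟩, ⟨1⟩⟩
  have h1 := hvw h
  rw [hcard, pow_one] at h1
  have h2 : v.intValuation h = exp (-((1 : ℕ) : ℤ)) := by
    rw [abh_intValuation_eq_iff, hv]
    exact ⟨by simpa using hh, hh2⟩
  rw [h2] at h1
  have h3 := (abh_intValuation_eq_iff w (algebraMap A B h) 1).mp h1.symm
  rw [hw] at h3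
  exact h3.2

/-- **Abhyankar, case A**: if `s ∈ P`, `s ^ e = t ∈ A` and the exact power of `P ∩ A`
containing `t` divides `e`, then `s` is a uniformiser at `P`. -/
theorem abh_caseA (e : ℕ) (he : 0 < e) (ζ : K₀) (s : B) (t : A)
    (hst : s ^ e = algebraMap A B t) (ht : t ≠ 0)
    (hG : ∀ g : G, ∃ k : ℕ, g • s = algebraMap K₀ B (ζ ^ k) * s)
    (hGs : ∀ g : G, g • s = s → g = 1)
    (P : Ideal B) [P.IsPrime] (hP : P ≠ ⊥) (hs : s ∈ P)
    (hn : ∀ n : ℕ, t ∈ (P.under A) ^ n → t ∉ (P.under A) ^ (n + 1) → n ∣ e) :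
    s ∉ P ^ 2 := by
  have : CharZero (P.under A).ResidueField := abh_charZero_residueField K₀ _
  obtain ⟨v, w, hv, hw, hvw⟩ := abh_card_inertia (A := A) (G := G) P hP
  set e₁ := Nat.card (P.inertia G) with he₁
  have hinj : Function.Injective (algebraMap A B) := FaithfulSMul.algebraMap_injective A B
  have hs0 : s ≠ 0 := by
    rintro rfl
    rw [zero_pow he.ne'] at hst
    exact ht (hinj (by rw [← hst, map_zero]))
  -- the valuations of `t` and `s`
  obtain ⟨n, hvn⟩ := abh_exists_intValuation v ht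
  obtain ⟨ε, hwε⟩ := abh_exists_intValuation w hs0
  have hne : n ∣ e := by
    have := (abh_intValuation_eq_iff v t n).mp hvn
    rw [hv] at this
    exact hn n this.1 this.2
  have hrel : e * ε = e₁ * n := by
    have h1 := hvw t
    rw [← hst, map_pow, hvn, hwε, ← exp_nsmul, ← exp_nsmul, exp_inj] at h1
    simp only [nsmul_eq_mul, mul_neg, neg_inj] at h1
    exact_mod_cast h1.symm
  have hε : 1 ≤ ε := by
    by_contra h0
    have hε0 : ε = 0 := by omega
    have h1 := (w.intValuation_lt_one_iff_mem s).mpr (by rw [hw]; exact hs)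
    rw [hwε, hε0] at h1
    simp at h1
  obtain ⟨d, rfl⟩ := hne
  have hn0 : 0 < n := by
    rcases Nat.eq_zero_or_pos n with h0 | h0
    · simp [h0] at he
    · exact h0
  have hd0 : 0 < d := by
    rcases Nat.eq_zero_or_pos d with h0 | h0
    · simp [h0] at he
    · exact h0
  have hdε : d * ε = e₁ := by
    have : n * (d * ε) = n * e₁ := by rw [← mul_assoc, hrel, mul_comm]
    exact Nat.eq_of_mul_eq_mul_left hn0 this
  -- a uniformiser of `A`
  obtain ⟨u, hu⟩ := v.intValuation_exists_uniformizer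
  have hwu : w.intValuation (algebraMap A B u) = exp (-(e₁ : ℤ)) := by
    rw [← hvw u, hu, ← exp_nsmul]
    simp
  have hwy : w.intValuation (s ^ d) = exp (-(e₁ : ℤ)) := by
    rw [map_pow, hwε, ← exp_nsmul, ← hdε]
    simp
  obtain ⟨hu1, hu2⟩ := (abh_intValuation_eq_iff w _ e₁).mp hwu
  obtain ⟨hy1, hy2⟩ := (abh_intValuation_eq_iff w _ e₁).mp hwy
  rw [hw] at hu1 hu2 hy1 hy2
  -- the character of the inertia group
  have hchar : ∀ g : G, g ∈ P.inertia G → ∃ c : K₀, c ^ d = 1 ∧ g • s = algebraMap K₀ B c * s := by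
    intro g hg
    obtain ⟨k, hk⟩ := hG g
    refine ⟨ζ ^ k, ?_, hk⟩
    have hgu : g • algebraMap A B u = algebraMap A B u := smul_algebraMap g u
    have hsub := abh_smul_sub_mem P hP hg e₁ hu1 hu2 hgu hy1
    refine abh_const_eq_one P (e₁ + 1) ?_ hsub hy2
    rw [smul_pow', hk, mul_pow, map_pow, map_pow, map_pow]
  choose! χ hχ1 hχ2 using hchar
  have hχinj : Set.InjOn χ (P.inertia G : Set G) := by
    intro g hg g' hg' hgg'
    have h1 : g • s = g' • s := by rw [hχ2 g hg, hχ2 g' hg', hgg']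
    have h2 : (g'⁻¹ * g) • s = s := by rw [mul_smul, h1, inv_smul_smul]
    have h3 := hGs _ h2
    rw [inv_mul_eq_one] at h3
    exact h3.symm
  have hle : e₁ ≤ d := by
    have hmaps : Set.MapsTo χ (P.inertia G : Set G)
        (Polynomial.nthRootsFinset d (1 : K₀) : Set K₀) := by
      intro g hg
      rw [Finset.mem_coe, Polynomial.mem_nthRootsFinset hd0]
      exact hχ1 g hg
    have h1 : Nat.card (P.inertia G) ≤ Nat.card (Polynomial.nthRootsFinset d (1 : K₀)) :=
      Nat.card_le_card_of_injective (fun g => ⟨χ g.1, hmaps g.2⟩) (by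
        intro g g' hgg'
        exact Subtype.ext (hχinj g.2 g'.2 (congrArg Subtype.val hgg')))
    have h2 : Nat.card (Polynomial.nthRootsFinset d (1 : K₀)) =
        (Polynomial.nthRootsFinset d (1 : K₀)).card := by
      rw [Nat.card_eq_fintype_card, Fintype.card_coe]
    rw [h2] at h1
    refine h1.trans ?_
    classical
    rw [Polynomial.nthRootsFinset_def]
    exact (Multiset.toFinset_card_le _).trans (Polynomial.card_nthRoots d 1)
  have hε1 : ε = 1 := by
    have : d * ε ≤ d * 1 := by rw [hdε, mul_one]; exact hle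
    have := Nat.le_of_mul_le_mul_left this hd0
    omega
  rw [hε1] at hwε
  have := (abh_intValuation_eq_iff w s 1).mp hwε
  rw [hw] at this
  exact this.2

end Main

/-! ### The `AKLB` form -/

section AKLB

variable {K₀ A B E E₁ : Type*} [Field K₀] [CharZero K₀]
  [CommRing A] [IsDedekindDomain A] [CommRing B]
  [Field E] [Field E₁] [Algebra A E] [IsFractionRing A E] [Algebra E E₁]
  [FiniteDimensional E E₁] [IsGalois E E₁]
  [Algebra A B] [Algebra B E₁] [Algebra A E₁] [IsScalarTower A E E₁] [IsScalarTower A B E₁]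
  [IsIntegralClosure B A E₁] [Algebra K₀ A] [Algebra K₀ B]
  [MulSemiringAction Gal(E₁/E) B] [SMulDistribClass Gal(E₁/E) B E₁]

include E E₁ in
omit [Algebra K₀ A] [Algebra K₀ B] [CharZero K₀] [Field K₀] in
theorem abh_AKLB_instances :
    ∃ (_ : IsDedekindDomain B) (_ : Module.Finite A B) (_ : Module.IsTorsionFree A B),
      IsGaloisGroup Gal(E₁/E) A B := by
  have h0 : IsDomain B :=
    Function.Injective.isDomain (algebraMap B E₁) (IsIntegralClosure.algebraMap_injective B A E₁)
  have h1 : IsDedekindDomain B := IsIntegralClosure.isDedekindDomain A E E₁ B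
  have h2 : Module.Finite A B := IsIntegralClosure.finite A E E₁ B
  have : Module.IsTorsionFree A E₁ := by
    rw [Module.isTorsionFree_iff_algebraMap_injective, IsScalarTower.algebraMap_eq A E E₁]
    exact (algebraMap E E₁).injective.comp (IsFractionRing.injective A E)
  have h3 : Module.IsTorsionFree A B := IsIntegralClosure.isTorsionFree A E₁
  have h4 : IsFractionRing B E₁ := IsIntegralClosure.isFractionRing_of_finite_extension A E E₁ B
  have h5 : Algebra.IsIntegral A B := IsIntegralClosure.isIntegral_algebra A E₁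
  have h6 : IsGaloisGroup Gal(E₁/E) A B := IsGaloisGroup.of_isFractionRing Gal(E₁/E) A B E E₁
  exact ⟨h1, h2, h3, h6⟩

/-- **Abhyankar, case A**, `AKLB` form. -/
theorem abh_AKLB_caseA (e : ℕ) (he : 0 < e) (ζ : K₀) (s : B) (t : A)
    (hst : s ^ e = algebraMap A B t) (ht : t ≠ 0)
    (hG : ∀ g : Gal(E₁/E), ∃ k : ℕ, g • s = algebraMap K₀ B (ζ ^ k) * s)
    (hGs : ∀ g : Gal(E₁/E), g • s = s → g = 1)
    (P : Ideal B) [P.IsPrime] (hP : P ≠ ⊥) (hs : s ∈ P)
    (hn : ∀ n : ℕ, t ∈ (P.under A) ^ n → t ∉ (P.under A) ^ (n + 1) → n ∣ e) :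
    s ∉ P ^ 2 := by
  obtain ⟨h1, h2, h3, h4⟩ := abh_AKLB_instances (A := A) (B := B) (E := E) (E₁ := E₁)
  exact abh_caseA (G := Gal(E₁/E)) e he ζ s t hst ht hG hGs P hP hs hn

/-- **Abhyankar, case B**, `AKLB` form. -/
theorem abh_AKLB_caseB (ζ : K₀) (s : B)
    (hG : ∀ g : Gal(E₁/E), ∃ k : ℕ, g • s = algebraMap K₀ B (ζ ^ k) * s)
    (hGs : ∀ g : Gal(E₁/E), g • s = s → g = 1)
    (P : Ideal B) [P.IsPrime] (hP : P ≠ ⊥) (hs : s ∉ P)
    (h : A) (hh : h ∈ P.under A) (hh2 : h ∉ (P.under A) ^ 2) :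
    algebraMap A B h ∉ P ^ 2 := by
  obtain ⟨h1, h2, h3, h4⟩ := abh_AKLB_instances (A := A) (B := B) (E := E) (E₁ := E₁)
  exact abh_caseB (G := Gal(E₁/E)) ζ s hG hGs P hP hs h hh hh2

end AKLB

/-! ### Transport to a ring isomorphic to the integral closure -/

section Transport

variable {K₀ A D₁ E E₁ : Type*} [Field K₀] [CharZero K₀]
  [CommRing A] [IsDedekindDomain A] [CommRing D₁]
  [Field E] [Field E₁] [Algebra A E] [IsFractionRing A E] [Algebra E E₁]
  [FiniteDimensional E E₁] [IsGalois E E₁]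
  [Algebra A E₁] [IsScalarTower A E E₁]
  [Algebra K₀ A] [Algebra K₀ E₁] [IsScalarTower K₀ A E₁]

omit [CharZero K₀] [IsDedekindDomain A] [IsFractionRing A E] [FiniteDimensional E E₁]
  [IsGalois E E₁] [Algebra A E₁] [IsScalarTower A E E₁] [Algebra K₀ A] [IsScalarTower K₀ A E₁]
  [Algebra A E] [CommRing A] in
/-- Every automorphism multiplies a Kummer generator by a root of unity. -/
lemma abh_kummer_smul {e : ℕ} (he : 0 < e) {ζ : K₀} (hζ : IsPrimitiveRoot ζ e) {s : E₁}
    (hs0 : s ≠ 0) (hse : s ^ e ∈ Set.range (algebraMap E E₁)) (g : Gal(E₁/E)) :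
    ∃ k : ℕ, g s = algebraMap K₀ E₁ (ζ ^ k) * s := by
  obtain ⟨a, ha⟩ := hse
  have h1 : (g s / s) ^ e = 1 := by
    rw [div_pow, ← map_pow, ← ha, AlgEquiv.commutes, div_self]
    rw [ha]
    exact pow_ne_zero _ hs0
  have hζ' : IsPrimitiveRoot (algebraMap K₀ E₁ ζ) e :=
    hζ.map_of_injective (algebraMap K₀ E₁).injective
  have : NeZero e := ⟨he.ne'⟩
  obtain ⟨k, -, hk⟩ := hζ'.eq_pow_of_pow_eq_one h1
  refine ⟨k, ?_⟩
  rw [map_pow, hk, div_mul_cancel₀ _ hs0]

/-- **Abhyankar's lemma** for a ring `D₁` identified with the integral closure of `A` in a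
finite Galois extension `E₁` of `E = Frac A`, generated by `s` with `s ^ e = t ∈ A`. -/
theorem abh_transport (ψ : D₁ ≃+* integralClosure A E₁) (e : ℕ) (he : 0 < e) (ζ : K₀)
    (hζ : IsPrimitiveRoot ζ e) (s : E₁) (t : A) (hst : s ^ e = algebraMap A E₁ t) (ht : t ≠ 0)
    (hGs : ∀ g : Gal(E₁/E), g s = s → g = 1)
    (q₁ : Ideal D₁) [q₁.IsPrime] (hq₁ : q₁ ≠ ⊥)
    (sD : D₁) (hsD : ((ψ sD : integralClosure A E₁) : E₁) = s) :
    Ideal.comap (ψ.symm.toRingHom.comp (algebraMap A (integralClosure A E₁))) q₁ ≠ ⊥ ∧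
    (sD ∈ q₁ →
      (∀ n : ℕ,
        t ∈ (Ideal.comap (ψ.symm.toRingHom.comp (algebraMap A (integralClosure A E₁))) q₁) ^ n →
        t ∉ (Ideal.comap (ψ.symm.toRingHom.comp (algebraMap A (integralClosure A E₁))) q₁)
          ^ (n + 1) → n ∣ e) →
      sD ∉ q₁ ^ 2) ∧
    (sD ∉ q₁ → ∀ h : A,
      h ∈ Ideal.comap (ψ.symm.toRingHom.comp (algebraMap A (integralClosure A E₁))) q₁ →
      h ∉ (Ideal.comap (ψ.symm.toRingHom.comp (algebraMap A (integralClosure A E₁))) q₁) ^ 2 →
      ψ.symm (algebraMap A (integralClosure A E₁) h) ∉ q₁ ^ 2) := by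
  -- the prime of `B`
  set P : Ideal (integralClosure A E₁) := Ideal.comap (ψ.symm : integralClosure A E₁ →+* D₁) q₁
    with hPdef
  have hPprime : P.IsPrime := Ideal.comap_isPrime _ _
  have hmemP : ∀ b : integralClosure A E₁, b ∈ P ↔ ψ.symm b ∈ q₁ := fun b => Iff.rfl
  have hq₁P : ∀ z : D₁, z ∈ q₁ ↔ ψ z ∈ P := fun z => by
    rw [hmemP, RingEquiv.symm_apply_apply]
  have hP : P ≠ ⊥ := by
    intro h
    apply hq₁
    rw [eq_bot_iff]
    intro z hz
    have : ψ z ∈ P := (hq₁P z).mp hz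
    rw [h, Ideal.mem_bot] at this
    rw [Ideal.mem_bot]
    exact ψ.injective (by rw [this, map_zero])
  have hq₁sq : ∀ z : D₁, z ∈ q₁ ^ 2 → ψ z ∈ P ^ 2 := by
    intro z hz
    have h1 : q₁ = Ideal.comap (ψ : D₁ →+* integralClosure A E₁) P := by
      ext y
      exact hq₁P y
    rw [h1] at hz
    exact Ideal.le_comap_pow _ 2 hz
  have hunder : Ideal.comap (ψ.symm.toRingHom.comp (algebraMap A (integralClosure A E₁))) q₁ =
      P.under A := rfl
  rw [hunder]
  have hAE : IsIntegralClosure (integralClosure A E₁) A E₁ := inferInstance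
  have hint : Algebra.IsIntegral A (integralClosure A E₁) :=
    IsIntegralClosure.isIntegral_algebra A E₁
  have hdom : IsDomain (integralClosure A E₁) := inferInstance
  -- the element `s` of `B`
  set sB : integralClosure A E₁ := ψ sD with hsB
  have hstB : sB ^ e = algebraMap A (integralClosure A E₁) t := Subtype.ext (by
    rw [SubmonoidClass.coe_pow, hsD, hst]
    rfl)
  have hs0 : s ≠ 0 := by
    rintro rfl
    rw [zero_pow he.ne'] at hst
    have hinj : Function.Injective (algebraMap A E₁) := by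
      rw [IsScalarTower.algebraMap_eq A E E₁]
      exact (algebraMap E E₁).injective.comp (IsFractionRing.injective A E)
    exact ht (hinj (by rw [← hst, map_zero]))
  have hse : s ^ e ∈ Set.range (algebraMap E E₁) :=
    ⟨algebraMap A E t, by rw [hst, IsScalarTower.algebraMap_apply A E E₁]⟩
  have hG : ∀ g : Gal(E₁/E), ∃ k : ℕ,
      g • sB = algebraMap K₀ (integralClosure A E₁) (ζ ^ k) * sB := by
    intro g
    obtain ⟨k, hk⟩ := abh_kummer_smul he hζ hs0 hse g
    refine ⟨k, Subtype.ext ?_⟩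
    show g (sB : E₁) = algebraMap K₀ E₁ (ζ ^ k) * (sB : E₁)
    rw [hsD, hk]
  have hGsB : ∀ g : Gal(E₁/E), g • sB = sB → g = 1 := by
    intro g hg
    apply hGs g
    have := congrArg Subtype.val hg
    rw [← hsD]
    exact this
  refine ⟨fun h => hP (Ideal.eq_bot_of_comap_eq_bot h), ?_, ?_⟩
  · intro hsq hn hsq2
    have h1 : sB ∈ P := (hq₁P sD).mp hsq
    exact abh_AKLB_caseA (E := E) (E₁ := E₁) e he ζ sB t hstB ht hG hGsB P hP h1 hn
      (hq₁sq sD hsq2)
  · intro hsq h hh hh2 hsq2
    have h1 : sB ∉ P := fun h => hsq ((hq₁P sD).mpr h)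
    have h2 := hq₁sq _ hsq2
    rw [RingEquiv.apply_symm_apply] at h2
    exact abh_AKLB_caseB (E := E) (E₁ := E₁) ζ sB hG hGsB P hP h1 h hh hh2 h2

end Transport

end Fermat.Agent.H39
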