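import Fermat.Agent.H39.AbhAbstract

/-!
# KL-NORM-ABH (helper39): Abhyankar's lemma for integral closures in function fields

`K₀` a field of characteristic `0`, `E ∋ x` with `E` finite over `K₀(x)`, `E₁ / E` a finite Galois
extension, `s ∈ E₁` with `s ^ e = x - c₀`.  `A` := integral closure of `K₀[x]` in `E`,
`D₁` := integral closure of `K₀[s]` in `E₁`.
-/

set_option autoImplicit false

open IntermediateField Polynomial IsDedekindDomain
open scoped IntermediateField.algebraAdjoinAdjoin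

namespace Fermat.Agent.H39

section OneField

variable (K₀ : Type) {E : Type} [Field K₀] [Field E] [Algebra K₀ E]

/-- `K₀[x]` -/
abbrev AbhR (x : E) : Subalgebra K₀ E := Algebra.adjoin K₀ ({x} : Set E)

/-- the integral closure of `K₀[x]` in `E` -/
abbrev AbhD (x : E) : Subalgebra (AbhR K₀ x) E := integralClosure (AbhR K₀ x) E

theorem abh_isPrincipalIdealRing (x : E) : IsPrincipalIdealRing (AbhR K₀ x) := by
  let f : K₀[X] →+* (AbhR K₀ x) :=
    ((Polynomial.aeval (⟨x, Algebra.self_mem_adjoin_singleton K₀ x⟩ : AbhR K₀ x)) :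
      K₀[X] →ₐ[K₀] (AbhR K₀ x)).toRingHom
  refine IsPrincipalIdealRing.of_surjective f ?_
  rintro ⟨y, hy⟩
  have hy' : y ∈ Algebra.adjoin K₀ ({x} : Set E) := hy
  rw [Algebra.adjoin_singleton_eq_range_aeval] at hy'
  obtain ⟨p, rfl⟩ := hy'
  refine ⟨p, Subtype.ext ?_⟩
  show ((Polynomial.aeval _ p : AbhR K₀ x) : E) = _
  have := Polynomial.aeval_algHom_apply (AbhR K₀ x).val
    (⟨x, Algebra.self_mem_adjoin_singleton K₀ x⟩ : AbhR K₀ x) p
  exact this.symm

theorem abh_isDedekindDomain [CharZero K₀] (x : E) [FiniteDimensional K₀⟮x⟯ E] :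
    IsDedekindDomain (AbhD K₀ x) := by
  have := abh_isPrincipalIdealRing K₀ x
  exact integralClosure.isDedekindDomain (AbhR K₀ x) K₀⟮x⟯ E

theorem abh_isFractionRing (x : E) [FiniteDimensional K₀⟮x⟯ E] :
    IsFractionRing (AbhD K₀ x) E :=
  integralClosure.isFractionRing_of_finite_extension K₀⟮x⟯ E

end OneField

section TwoFields

variable (K₀ : Type) {E E₁ : Type} [Field K₀] [Field E] [Field E₁] [Algebra K₀ E]
  [Algebra K₀ E₁] [Algebra E E₁] [IsScalarTower K₀ E E₁]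

/-- The image of `K₀[x]` lies in `K₀[s]` as soon as the image of `x` does. -/
theorem abh_map_mem_adjoin {x : E} {s : E₁}
    (hxs : algebraMap E E₁ x ∈ Algebra.adjoin K₀ ({s} : Set E₁)) {h : E}
    (hh : h ∈ Algebra.adjoin K₀ ({x} : Set E)) :
    algebraMap E E₁ h ∈ Algebra.adjoin K₀ ({s} : Set E₁) := by
  have h1 : (Algebra.adjoin K₀ ({x} : Set E)).map (IsScalarTower.toAlgHom K₀ E E₁) ≤
      Algebra.adjoin K₀ ({s} : Set E₁) := by
    rw [AlgHom.map_adjoin, Set.image_singleton]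
    exact Algebra.adjoin_le (by simpa using hxs)
  exact h1 ⟨h, hh, rfl⟩

/-- the ring homomorphism `K₀[x] → K₀[s]` -/
def abhRho {x : E} {s : E₁} (hxs : algebraMap E E₁ x ∈ Algebra.adjoin K₀ ({s} : Set E₁)) :
    AbhR K₀ x →+* AbhR K₀ s :=
  ((algebraMap E E₁).comp (AbhR K₀ x).val.toRingHom).codRestrict (AbhR K₀ s).toSubring
    (fun h => abh_map_mem_adjoin K₀ hxs h.2)

omit [Algebra K₀ E₁] [IsScalarTower K₀ E E₁] in
theorem abh_isScalarTower (x : E) : IsScalarTower (AbhR K₀ x) (AbhD K₀ x) E₁ :=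
  IsScalarTower.of_algebraMap_eq (fun _ => rfl)

/-- Every element of `K₀[s]` is integral over the integral closure `A` of `K₀[x]` as soon as
`s` is. -/
theorem abh_isIntegral_of_mem_adjoin (x : E) {s : E₁} (hs : IsIntegral (AbhD K₀ x) s) {r : E₁}
    (hr : r ∈ Algebra.adjoin K₀ ({s} : Set E₁)) : IsIntegral (AbhD K₀ x) r := by
  induction hr using Algebra.adjoin_induction with
  | mem y hy =>
    rw [Set.mem_singleton_iff] at hy
    rw [hy]
    exact hs
  | algebraMap a =>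
    have : algebraMap K₀ E₁ a = algebraMap (AbhD K₀ x) E₁ (algebraMap K₀ (AbhD K₀ x) a) := by
      rw [IsScalarTower.algebraMap_apply K₀ E E₁]
      rfl
    rw [this]
    exact isIntegral_algebraMap
  | add y z _ _ hy hz => exact hy.add hz
  | mul y z _ _ hy hz => exact hy.mul hz

/-- The integral closure of `A` in `E₁` is the integral closure of `K₀[s]` in `E₁`. -/
theorem abh_isIntegral_iff {x : E} {s : E₁}
    (hxs : algebraMap E E₁ x ∈ Algebra.adjoin K₀ ({s} : Set E₁))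
    (hs : IsIntegral (AbhD K₀ x) s) (z : E₁) :
    IsIntegral (AbhD K₀ x) z ↔ IsIntegral (AbhR K₀ s) z := by
  constructor
  · intro hz
    have := abh_isScalarTower K₀ (E₁ := E₁) x
    have h1 : IsIntegral (AbhR K₀ x) z := isIntegral_trans (R := AbhR K₀ x) (A := AbhD K₀ x) z hz
    exact IsIntegral.map_of_comp_eq (abhRho K₀ hxs) (RingHom.id E₁) (by ext r; rfl) h1
  · intro hz
    let ρ₁ : AbhR K₀ s →+* integralClosure (AbhD K₀ x) E₁ :=
      ((AbhR K₀ s).val.toRingHom).codRestrict (integralClosure (AbhD K₀ x) E₁).toSubring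
        (fun r => abh_isIntegral_of_mem_adjoin K₀ x hs r.2)
    have h1 : IsIntegral (integralClosure (AbhD K₀ x) E₁) z :=
      IsIntegral.map_of_comp_eq ρ₁ (RingHom.id E₁) (by ext r; rfl) hz
    exact isIntegral_trans (R := AbhD K₀ x) (A := integralClosure (AbhD K₀ x) E₁) z h1

/-- The identification of the integral closure of `K₀[s]` in `E₁` with the integral closure of
`A` in `E₁`. -/
def abhPsi {x : E} {s : E₁}
    (hxs : algebraMap E E₁ x ∈ Algebra.adjoin K₀ ({s} : Set E₁))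
    (hs : IsIntegral (AbhD K₀ x) s) :
    AbhD K₀ s ≃+* integralClosure (AbhD K₀ x) E₁ where
  toFun z := ⟨z.1, (abh_isIntegral_iff K₀ hxs hs z.1).mpr z.2⟩
  invFun z := ⟨z.1, (abh_isIntegral_iff K₀ hxs hs z.1).mp z.2⟩
  left_inv _ := rfl
  right_inv _ := rfl
  map_mul' _ _ := rfl
  map_add' _ _ := rfl

@[simp]
theorem coe_abhPsi {x : E} {s : E₁}
    (hxs : algebraMap E E₁ x ∈ Algebra.adjoin K₀ ({s} : Set E₁))
    (hs : IsIntegral (AbhD K₀ x) s) (z : AbhD K₀ s) :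
    ((abhPsi K₀ hxs hs z : integralClosure (AbhD K₀ x) E₁) : E₁) = (z : E₁) := rfl

@[simp]
theorem coe_abhPsi_symm {x : E} {s : E₁}
    (hxs : algebraMap E E₁ x ∈ Algebra.adjoin K₀ ({s} : Set E₁))
    (hs : IsIntegral (AbhD K₀ x) s) (z : integralClosure (AbhD K₀ x) E₁) :
    (((abhPsi K₀ hxs hs).symm z : AbhD K₀ s) : E₁) = (z : E₁) := rfl

end TwoFields

section KummerField

variable (K₀ : Type) {E E₁ : Type} [Field K₀] [Field E] [Field E₁] [Algebra K₀ E]
  [Algebra K₀ E₁] [Algebra E E₁] [IsScalarTower K₀ E E₁]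

/-- the ring homomorphism `A → D₁` -/
def abhIota {x : E} {s : E₁}
    (hxs : algebraMap E E₁ x ∈ Algebra.adjoin K₀ ({s} : Set E₁))
    (hs : IsIntegral (AbhD K₀ x) s) : AbhD K₀ x →+* AbhD K₀ s :=
  (abhPsi K₀ hxs hs).symm.toRingHom.comp
    (algebraMap (AbhD K₀ x) (integralClosure (AbhD K₀ x) E₁))

@[simp]
theorem coe_abhIota {x : E} {s : E₁}
    (hxs : algebraMap E E₁ x ∈ Algebra.adjoin K₀ ({s} : Set E₁))
    (hs : IsIntegral (AbhD K₀ x) s) (a : AbhD K₀ x) :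
    ((abhIota K₀ hxs hs a : AbhD K₀ s) : E₁) = algebraMap E E₁ (a : E) := rfl

theorem abh_hxs {x : E} {s : E₁} (c₀ : K₀) (e : ℕ)
    (hse : s ^ e = algebraMap E E₁ (x - algebraMap K₀ E c₀)) :
    algebraMap E E₁ x ∈ Algebra.adjoin K₀ ({s} : Set E₁) := by
  have : algebraMap E E₁ x = s ^ e + algebraMap K₀ E₁ c₀ := by
    rw [hse, map_sub, ← IsScalarTower.algebraMap_apply]
    ring
  rw [this]
  exact Subalgebra.add_mem _ (Subalgebra.pow_mem _ (Algebra.self_mem_adjoin_singleton _ _) _)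
    (Subalgebra.algebraMap_mem _ _)

theorem abh_sub_mem (x : E) (c₀ : K₀) : x - algebraMap K₀ E c₀ ∈ AbhD K₀ x := by
  have h1 : x - algebraMap K₀ E c₀ ∈ AbhR K₀ x :=
    Subalgebra.sub_mem _ (Algebra.self_mem_adjoin_singleton _ _) (Subalgebra.algebraMap_mem _ _)
  exact (AbhD K₀ x).algebraMap_mem ⟨_, h1⟩

omit [Algebra K₀ E₁] [IsScalarTower K₀ E E₁] in
theorem abh_hs {x : E} {s : E₁} (c₀ : K₀) (e : ℕ) (he : 0 < e)
    (hse : s ^ e = algebraMap E E₁ (x - algebraMap K₀ E c₀)) :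
    IsIntegral (AbhD K₀ x) s := by
  refine IsIntegral.of_pow he ?_
  rw [hse]
  exact isIntegral_algebraMap (R := AbhD K₀ x) (A := E₁)
    (x := (⟨_, abh_sub_mem K₀ x c₀⟩ : AbhD K₀ x))

set_option synthInstance.maxHeartbeats 400000 in
set_option maxHeartbeats 1600000 in
/-- **Abhyankar's lemma** for the integral closures of `K₀[x]` in `E` and of `K₀[s]` in the
Galois extension `E₁ = E(s)`, `s ^ e = t`. -/
theorem abh_field [CharZero K₀] [FiniteDimensional E E₁] [IsGalois E E₁]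
    (x : E) [FiniteDimensional K₀⟮x⟯ E] (e : ℕ) (he : 0 < e) (ζ : K₀)
    (hζ : IsPrimitiveRoot ζ e) (s : E₁)
    (hxs : algebraMap E E₁ x ∈ Algebra.adjoin K₀ ({s} : Set E₁))
    (hs : IsIntegral (AbhD K₀ x) s)
    (tA : AbhD K₀ x) (htA : tA ≠ 0) (hse : s ^ e = algebraMap E E₁ (tA : E))
    (hGs : ∀ g : Gal(E₁/E), g s = s → g = 1)
    (q₁ : Ideal (AbhD K₀ s)) [q₁.IsPrime] (hq₁ : q₁ ≠ ⊥)
    (sD : AbhD K₀ s) (hsD : (sD : E₁) = s) :
    Ideal.comap (abhIota K₀ hxs hs) q₁ ≠ ⊥ ∧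
    (sD ∈ q₁ →
      (∀ n : ℕ, tA ∈ (Ideal.comap (abhIota K₀ hxs hs) q₁) ^ n →
        tA ∉ (Ideal.comap (abhIota K₀ hxs hs) q₁) ^ (n + 1) → n ∣ e) →
      sD ∉ q₁ ^ 2) ∧
    (sD ∉ q₁ → ∀ h : AbhD K₀ x,
      h ∈ Ideal.comap (abhIota K₀ hxs hs) q₁ →
      h ∉ (Ideal.comap (abhIota K₀ hxs hs) q₁) ^ 2 →
      abhIota K₀ hxs hs h ∉ q₁ ^ 2) := by
  have : IsDedekindDomain (AbhD K₀ x) := abh_isDedekindDomain K₀ x
  have : IsFractionRing (AbhD K₀ x) E := abh_isFractionRing K₀ x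
  have : IsScalarTower K₀ (AbhD K₀ x) E₁ := IsScalarTower.of_algebraMap_eq (fun a => by
    rw [IsScalarTower.algebraMap_apply K₀ E E₁]
    rfl)
  exact abh_transport (K₀ := K₀) (A := AbhD K₀ x) (D₁ := AbhD K₀ s) (E := E) (E₁ := E₁)
    (abhPsi K₀ hxs hs) e he ζ hζ s tA hse htA hGs q₁ hq₁ sD hsD

end KummerField

end Fermat.Agent.H39
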