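import Fermat.Agent.H91.KLNorm.Interfaces2
import Fermat.Agent.H39.AbhField

/-!
# KL-NORM-ABH (helper39): Abhyankar's lemma in the generic fibre

`abhyankarStatement : Fermat.Agent.H91.KLNorm.AbhyankarStatement`.
-/

set_option autoImplicit false

open Polynomial IntermediateField

namespace Fermat.Agent.H39

open Fermat.Agent.H91.KLNorm

section KumInst

variable {E : Type} [Field E]

/-- the Kummer field is Galois over `E` -/
theorem abh_kum_isGalois {n : ℕ} {a : E} {ζ : E} (hn : 0 < n) (hζ : IsPrimitiveRoot ζ n)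
    [Fact (Irreducible (X ^ n - C a : E[X]))] :
    IsGalois E (AdjoinRoot (X ^ n - C a : E[X])) := by
  have H : Irreducible (X ^ n - C a : E[X]) := Fact.out
  have hζ' : (primitiveRoots n E).Nonempty := ⟨ζ, (mem_primitiveRoots hn).mpr hζ⟩
  have := isSplittingField_AdjoinRoot_X_pow_sub_C hζ' H
  exact isGalois_of_isSplittingField_X_pow_sub_C hζ' H _

/-- the Kummer field is finite over `E` -/
theorem abh_kum_finite {n : ℕ} {a : E} {ζ : E} (hn : 0 < n) (hζ : IsPrimitiveRoot ζ n)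
    [Fact (Irreducible (X ^ n - C a : E[X]))] :
    FiniteDimensional E (AdjoinRoot (X ^ n - C a : E[X])) := by
  have H : Irreducible (X ^ n - C a : E[X]) := Fact.out
  have hζ' : (primitiveRoots n E).Nonempty := ⟨ζ, (mem_primitiveRoots hn).mpr hζ⟩
  have := isSplittingField_AdjoinRoot_X_pow_sub_C hζ' H
  exact Polynomial.IsSplittingField.finiteDimensional _ (X ^ n - C a : E[X])

/-- an automorphism of the Kummer field fixing the root is trivial -/
theorem abh_kum_eq_one {n : ℕ} {a : E} [Fact (Irreducible (X ^ n - C a : E[X]))]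
    (g : Gal(AdjoinRoot (X ^ n - C a : E[X])/E))
    (hg : g (AdjoinRoot.root (X ^ n - C a : E[X])) = AdjoinRoot.root (X ^ n - C a : E[X])) :
    g = 1 := by
  have h1 : (g : AdjoinRoot (X ^ n - C a : E[X]) →ₐ[E] AdjoinRoot (X ^ n - C a : E[X])) =
      AlgHom.id E _ := AdjoinRoot.algHom_ext (by simpa using hg)
  ext y
  exact DFunLike.congr_fun h1 y

theorem abh_kum_root_pow {n : ℕ} {a : E} :
    (AdjoinRoot.root (X ^ n - C a : E[X])) ^ n =
      algebraMap E (AdjoinRoot (X ^ n - C a : E[X])) a := by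
  have := AdjoinRoot.eval₂_root (X ^ n - C a : E[X])
  simp only [eval₂_sub, eval₂_pow, eval₂_X, eval₂_C] at this
  rw [sub_eq_zero] at this
  rw [this]
  rfl

end KumInst

set_option synthInstance.maxHeartbeats 400000 in
set_option maxHeartbeats 1600000 in
/-- **KL-NORM-ABH.**  Abhyankar's lemma in the generic fibre. -/
theorem abhyankarStatement : AbhyankarStatement := by
  intro A₀ _ _ _ K₀ _ _ _ _ E _ _ _ _ ϖ x Cbr e hS c hc hirr q₁ hq₁prime hq₁ hno
  obtain ⟨hB1, -, hB3, hB4⟩ := hS.branch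
  obtain ⟨he, -, ⟨ζ, hζ⟩, -⟩ := hB1 c hc
  have hfin := hS.finite
  have hζK : IsPrimitiveRoot (algebraMap A₀ K₀ ζ) (e c) :=
    hζ.map_of_injective (IsFractionRing.injective A₀ K₀)
  have hζE : IsPrimitiveRoot (algebraMap A₀ E ζ) (e c) := by
    rw [IsScalarTower.algebraMap_apply A₀ K₀ E]
    exact hζK.map_of_injective (algebraMap K₀ E).injective
  have hGal : IsGalois E (KumField A₀ x c (e c)) := abh_kum_isGalois he hζE
  have hfin₁ : FiniteDimensional E (KumField A₀ x c (e c)) := abh_kum_finite he hζE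
  have hcc : algebraMap A₀ E c = algebraMap K₀ E (algebraMap A₀ K₀ c) :=
    IsScalarTower.algebraMap_apply A₀ K₀ E c
  have hse : (kumRoot A₀ x c (e c)) ^ (e c) =
      algebraMap E (KumField A₀ x c (e c)) (x - algebraMap K₀ E (algebraMap A₀ K₀ c)) := by
    rw [← hcc]
    exact abh_kum_root_pow
  have hxs := abh_hxs K₀ (algebraMap A₀ K₀ c) (e c) hse
  have hs := abh_hs K₀ (algebraMap A₀ K₀ c) (e c) he hse
  -- the element `x - c` of `A`
  set tA : AbhD K₀ x := ⟨x - algebraMap K₀ E (algebraMap A₀ K₀ c),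
    abh_sub_mem K₀ x (algebraMap A₀ K₀ c)⟩ with htAdef
  have htA : tA ≠ 0 := by
    intro h
    have h1 : x - algebraMap K₀ E (algebraMap A₀ K₀ c) = 0 := congrArg Subtype.val h
    apply hS.transcendental
    rw [sub_eq_zero] at h1
    rw [h1]
    exact isAlgebraic_algebraMap _
  -- the element `s` of `D₁`
  have hsmem : kumRoot A₀ x c (e c) ∈ AbhD K₀ (kumRoot A₀ x c (e c)) :=
    (AbhD K₀ (kumRoot A₀ x c (e c))).algebraMap_mem
      ⟨_, Algebra.self_mem_adjoin_singleton K₀ (kumRoot A₀ x c (e c))⟩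
  set sD : AbhD K₀ (kumRoot A₀ x c (e c)) := ⟨kumRoot A₀ x c (e c), hsmem⟩ with hsDdef
  obtain ⟨hq_ne, hA, hB⟩ := abh_field K₀ x (e c) he (algebraMap A₀ K₀ ζ) hζK
    (kumRoot A₀ x c (e c)) hxs hs tA htA hse (fun g hg => abh_kum_eq_one g hg) q₁ hq₁ sD rfl
  have hqprime : (Ideal.comap (abhIota K₀ hxs hs) q₁).IsPrime := Ideal.comap_isPrime _ _
  have hιt : abhIota K₀ hxs hs tA = sD ^ (e c) := Subtype.ext (by
    rw [coe_abhIota, SubmonoidClass.coe_pow]
    exact hse.symm)
  by_cases hsq : sD ∈ q₁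
  · -- case A
    refine ⟨⟨kumRoot A₀ x c (e c),
      Algebra.self_mem_adjoin_singleton K₀ (kumRoot A₀ x c (e c))⟩, hsq, ?_⟩
    refine hA hsq ?_
    intro n hn1 hn2
    have htq : tA ∈ Ideal.comap (abhIota K₀ hxs hs) q₁ := by
      rw [Ideal.mem_comap, hιt]
      exact Ideal.pow_mem_of_mem _ hsq _ he
    have htc : ((tA : Sg K₀ x) : E) = x - algebraMap A₀ E c := by rw [hcc]
    exact hB4 c hc (Ideal.comap (abhIota K₀ hxs hs) q₁) hqprime tA htq htc n hn1 hn2
  · -- case B
    have hno' : ∀ c' ∈ Cbr, ¬ ∃ s' ∈ Ideal.comap (abhIota K₀ hxs hs) q₁,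
        ((s' : Sg K₀ x) : E) = x - algebraMap A₀ E c' := by
      rintro c' hc' ⟨s', hs', hs'c⟩
      by_cases hcc' : c' = c
      · subst hcc'
        apply hsq
        have h1 : s' = tA := Subtype.ext (by rw [hs'c, hcc])
        rw [h1, Ideal.mem_comap, hιt] at hs'
        exact Ideal.IsPrime.mem_of_pow_mem hq₁prime _ hs'
      · refine hno c' hc' hcc' ⟨abhIota K₀ hxs hs s', hs', ?_⟩
        rw [coe_abhIota, hs'c]
    obtain ⟨h, hh, hh2⟩ := hB3 (Ideal.comap (abhIota K₀ hxs hs) q₁) hqprime hq_ne hno'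
    refine ⟨abhRho K₀ hxs h, ?_, ?_⟩
    · exact hh
    · exact hB hsq _ hh hh2

end Fermat.Agent.H39
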