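import Fermat.Agent.H24.Tate.SplitInterfaces
import Fermat.Agent.H24.Tate.Assembly2

/-!
# P-CFT / TATE-SPLIT-B1 (row 589, helper39): `H²(S, I_G) = 0`
-/

set_option autoImplicit false

noncomputable section

open CategoryTheory groupCohomology

namespace Fermat.Agent.H39

open Fermat.Agent.H24

attribute [local instance 10000] Rep.hV2

/-- **SPLIT-B1** `H²(S, I_G) = 0` for every subgroup `S` of the finite group `G`. -/
theorem augH2Statement : AugH2Statement := by
  intro G _ _ S
  have : Fintype S := Fintype.ofFinite S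
  have hex := augSeqRes_shortExact G S
  have hexact := groupCohomology.mapShortComplex₁_exact hex (i := 1) (j := 2) rfl
  -- `H¹(S, ℤ) = 0`
  have h1 : Limits.IsZero (groupCohomology (augSeqRes G S).X₃ 1) := by
    have e0 : groupCohomology (Rep.trivial ℤ S ℤ) 1 ≅ ModuleCat.of ℤ (Additive S →+ ℤ) :=
      groupCohomology.H1IsoOfIsTrivial _
    have : Subsingleton (Additive S →+ ℤ) :=
      Fermat.Agent.H47.TateFin.subsingleton_addHom_int S
    have hz : Limits.IsZero (ModuleCat.of ℤ (Additive S →+ ℤ)) :=
      ModuleCat.isZero_of_subsingleton _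
    exact hz.of_iso e0
  -- `H²(S, ℤ[G]) = 0`
  have h2 : Limits.IsZero (groupCohomology (augSeqRes G S).X₂ 2) := by
    have hz := leftRegularTrivialStatement G 2 S
    have e := (TateCohomology.isoGroupCohomology (R := ℤ) (G := ↥S) 2).app
      (Rep.res S.subtype (Rep.leftRegular ℤ G))
    exact hz.of_iso e.symm
  exact hexact.isZero_of_both_zeros (h1.eq_of_src _ _) (h2.eq_of_tgt _ _)

end Fermat.Agent.H39

end
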