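import Fermat.Agent.H87.Cheb.Interfaces
import Fermat.Agent.H53.S14T.Profinite
import Fermat.Agent.H49.S14.PlaceOverPrime
import Fermat.Agent.H8.InertiaBasic

/-!
# P-CHEB, row CHEB-A: `ChebotarevNFStatement → ChebotarevStatement`

Prelude glue: the number-field form of Chebotarev's theorem (existence form) implies the form in
the language of valuation subrings of `ℚ̄` and `ValuationSubring.IsFrobeniusAt`.
-/

set_option autoImplicit false

open scoped NumberField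

namespace Fermat.Agent.H39

open Fermat.Agent.H53 Fermat.Agent.H87.Cheb

/-- Elementwise criterion for `IsFrobeniusAt`. -/
theorem cheb_isFrobeniusAt_of (A : ValuationSubring (AlgebraicClosure ℚ)) (φ : GQ) (ℓ : ℕ)
    (hφ : φ ∈ A.decompositionSubgroup ℚ) (h : ∀ x ∈ A, φ x - x ^ ℓ ∈ A.nonunits) :
    A.IsFrobeniusAt φ ℓ := by
  refine ⟨hφ, fun x => ?_⟩
  obtain ⟨a, rfl⟩ := IsLocalRing.residue_surjective x
  rw [← IsLocalRing.ResidueField.residue_smul, ← map_pow, ← sub_eq_zero, ← map_sub,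
    IsLocalRing.residue_eq_zero_iff, ← ValuationSubring.coe_mem_nonunits_iff]
  exact h a a.2

/-- Elementwise consequence of `IsFrobeniusAt`. -/
theorem cheb_sub_pow_mem_of_isFrobeniusAt {A : ValuationSubring (AlgebraicClosure ℚ)} {φ : GQ}
    {ℓ : ℕ} (h : A.IsFrobeniusAt φ ℓ) {x : AlgebraicClosure ℚ} (hx : x ∈ A) :
    φ x - x ^ ℓ ∈ A.nonunits := by
  obtain ⟨hφ, hF⟩ := h
  have := hF (IsLocalRing.residue A ⟨x, hx⟩)
  rw [← IsLocalRing.ResidueField.residue_smul, ← map_pow, ← sub_eq_zero, ← map_sub,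
    IsLocalRing.residue_eq_zero_iff, ← ValuationSubring.coe_mem_nonunits_iff] at this
  exact this

/-- Integral elements of `ℚ̄` lie in every valuation subring. -/
theorem cheb_mem_of_isIntegral (A : ValuationSubring (AlgebraicClosure ℚ))
    {x : AlgebraicClosure ℚ} (hx : IsIntegral ℤ x) : x ∈ A :=
  intRing_le A (show x ∈ intRing (AlgebraicClosure ℚ) from hx)

/-- Fractions inside an intermediate field: an element of `A ∩ L₀` is a quotient of integral
elements of `L₀` with denominator a unit of `A`. -/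
theorem cheb_exists_fraction (L0 : IntermediateField ℚ (AlgebraicClosure ℚ))
    (A : ValuationSubring (AlgebraicClosure ℚ)) {ℓ : ℕ} (hℓ : ℓ.Prime)
    (hA : ((ℓ : ℕ) : AlgebraicClosure ℚ) ∈ A.nonunits) {x : AlgebraicClosure ℚ} (hxL : x ∈ L0)
    (hx : x ∈ A) :
    ∃ s b : AlgebraicClosure ℚ, s ∈ L0 ∧ b ∈ L0 ∧ IsIntegral ℤ s ∧ IsIntegral ℤ b ∧
      s ∉ A.nonunits ∧ b = s * x := by
  let AL : ValuationSubring L0 := A.comap (algebraMap L0 (AlgebraicClosure ℚ))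
  have hnon : ∀ y : L0, y ∈ AL.nonunits ↔ (y : AlgebraicClosure ℚ) ∈ A.nonunits := by
    intro y
    rw [ValuationSubring.mem_nonunits_iff_or, ValuationSubring.mem_nonunits_iff_or]
    constructor
    · rintro (h | h)
      · left; rw [h]; rfl
      · right; intro h'; apply h
        show algebraMap L0 (AlgebraicClosure ℚ) y⁻¹ ∈ A
        rw [map_inv₀]; exact h'
    · rintro (h | h)
      · left; exact Subtype.ext h
      · right; intro h'; apply h
        have : algebraMap L0 (AlgebraicClosure ℚ) y⁻¹ ∈ A := h'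
        rwa [map_inv₀] at this
  have hAL : ((ℓ : ℕ) : L0) ∈ AL.nonunits := by
    rw [hnon]
    simpa using hA
  have hxAL : (⟨x, hxL⟩ : L0) ∈ AL := hx
  have := isGalois_algebraicClosure_rat
  have : Algebra.IsAlgebraic ℚ (AlgebraicClosure ℚ) := inferInstance
  have : Algebra.IsAlgebraic ℚ L0 := Algebra.IsAlgebraic.of_injective
    (IsScalarTower.toAlgHom ℚ L0 (AlgebraicClosure ℚ)) (algebraMap L0 _).injective
  obtain ⟨s, b, hs, hb⟩ := exists_intRing_fraction hℓ AL hAL hxAL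
  refine ⟨((s : L0) : AlgebraicClosure ℚ), ((b : L0) : AlgebraicClosure ℚ), (s : L0).2,
    (b : L0).2, ?_, ?_, ?_, ?_⟩
  · exact map_isIntegral_int (algebraMap L0 (AlgebraicClosure ℚ)) s.2
  · exact map_isIntegral_int (algebraMap L0 (AlgebraicClosure ℚ)) b.2
  · rwa [← hnon]
  · have := congrArg (fun z : L0 => (z : AlgebraicClosure ℚ)) hb
    simpa using this

/-- An automorphism which is congruent to the identity on the integers of `L₀` modulo the centre
of `A` preserves `A ∩ L₀` and is congruent to the identity on it. -/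
theorem cheb_congr_on_field (L0 : IntermediateField ℚ (AlgebraicClosure ℚ))
    (A : ValuationSubring (AlgebraicClosure ℚ)) {ℓ : ℕ} (hℓ : ℓ.Prime)
    (hA : ((ℓ : ℕ) : AlgebraicClosure ℚ) ∈ A.nonunits) (δ : GQ)
    (hδ : ∀ y ∈ L0, IsIntegral ℤ y → δ y - y ∈ A.nonunits)
    {x : AlgebraicClosure ℚ} (hxL : x ∈ L0) (hx : x ∈ A) :
    δ x ∈ A ∧ δ x - x ∈ A.nonunits := by
  obtain ⟨s, b, hsL, hbL, hsI, hbI, hs, hb⟩ := cheb_exists_fraction L0 A hℓ hA hxL hx
  have hδs : δ s ∉ A.nonunits := by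
    have : δ s = s + (δ s - s) := by ring
    rw [this]
    exact not_mem_nonunits_add A hs (hδ s hsL hsI)
  obtain ⟨hδs0, hδsinv⟩ := inv_mem_of_not_mem_nonunits A hδs
  have hδb : δ b ∈ A := cheb_mem_of_isIntegral A
    (map_isIntegral_int ((δ : GQ) : AlgebraicClosure ℚ →+* AlgebraicClosure ℚ) hbI)
  have hδx : δ x = (δ s)⁻¹ * δ b := by
    rw [hb, map_mul]
    field_simp
  have hδxA : δ x ∈ A := by
    rw [hδx]; exact mul_mem hδsinv hδb
  refine ⟨hδxA, ?_⟩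
  apply mem_nonunits_of_mul_mem_nonunits A hδs
  have : δ s * (δ x - x) = (δ b - b) - (δ s - s) * x := by
    rw [hb, map_mul]; ring
  rw [this]
  exact sub_mem (hδ b hbL hbI) (nonunits_mul_mem A (hδ s hsL hsI) hx)

theorem cheb_inv_apply (σ : GQ) (x : AlgebraicClosure ℚ) : σ⁻¹ (σ x) = x := by
  rw [← AlgEquiv.mul_apply, inv_mul_cancel, AlgEquiv.one_apply]

theorem cheb_apply_inv (σ : GQ) (x : AlgebraicClosure ℚ) : σ (σ⁻¹ x) = x := by
  rw [← AlgEquiv.mul_apply, mul_inv_cancel, AlgEquiv.one_apply]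

/-- A normal intermediate field is stable under the absolute Galois group. -/
theorem cheb_apply_mem_of_normal (L0 : IntermediateField ℚ (AlgebraicClosure ℚ)) [Normal ℚ L0]
    (σ : GQ) {y : AlgebraicClosure ℚ} (hy : y ∈ L0) : σ y ∈ L0 := by
  have h := AlgEquiv.restrictNormal_commutes σ L0 ⟨y, hy⟩
  have h2 : σ y = algebraMap L0 (AlgebraicClosure ℚ) (σ.restrictNormal L0 ⟨y, hy⟩) := h.symm
  rw [h2]
  exact (σ.restrictNormal L0 ⟨y, hy⟩).2

/-- **Lifting a finite-level Frobenius.**  If `g` is congruent to the `ℓ`-power map on the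
integers of a normal intermediate field `L₀` modulo the centre of `A`, then some Frobenius
element at `A` agrees with `g` on `L₀`. -/
theorem cheb_exists_frobenius_eq_on (L0 : IntermediateField ℚ (AlgebraicClosure ℚ))
    [Normal ℚ L0] (A : ValuationSubring (AlgebraicClosure ℚ)) {ℓ : ℕ} (hℓ : ℓ.Prime)
    (hA : A.LiesOverPrime ℓ) (g : GQ)
    (hg : ∀ y ∈ L0, IsIntegral ℤ y → g y - y ^ ℓ ∈ A.nonunits) :
    ∃ φ : GQ, A.IsFrobeniusAt φ ℓ ∧ ∀ x ∈ L0, φ x = g x := by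
  have hA0 : ((ℓ : ℕ) : AlgebraicClosure ℚ) ∈ A.nonunits := hA
  obtain ⟨φ0, hφ0⟩ := exists_isFrobeniusAt_algebraicClosure hℓ A hA
  have hφ0D : φ0 ∈ A.decompositionSubgroup ℚ := hφ0.mem_decompositionSubgroup
  -- `g ≡ φ0` on the integers of `L0`
  have hgφ : ∀ w ∈ L0, IsIntegral ℤ w → g w - φ0 w ∈ A.nonunits := by
    intro w hwL hwI
    have h1 := hg w hwL hwI
    have h2 := cheb_sub_pow_mem_of_isFrobeniusAt hφ0 (cheb_mem_of_isIntegral A hwI)
    have : g w - φ0 w = (g w - w ^ ℓ) - (φ0 w - w ^ ℓ) := by ring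
    rw [this]
    exact sub_mem h1 h2
  set δ : GQ := g⁻¹ * φ0 with hδdef
  have hint : ∀ (σ : GQ) {y : AlgebraicClosure ℚ}, IsIntegral ℤ y → IsIntegral ℤ (σ y) :=
    fun σ y hy => map_isIntegral_int ((σ : GQ) : AlgebraicClosure ℚ →+* AlgebraicClosure ℚ) hy
  have hδ : ∀ y ∈ L0, IsIntegral ℤ y → δ y - y ∈ A.nonunits := by
    intro y hyL hyI
    have h1 := hgφ (δ y) (cheb_apply_mem_of_normal L0 δ hyL) (hint δ hyI)
    have h2 : g (δ y) = φ0 y := by
      rw [hδdef, AlgEquiv.mul_apply, cheb_apply_inv]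
    rw [h2, ← map_sub] at h1
    have h3 := apply_mem_nonunits_of_mem_decompositionSubgroup A (inv_mem hφ0D) h1
    rw [cheb_inv_apply] at h3
    have : δ y - y = -(y - δ y) := by ring
    rw [this]
    exact neg_mem h3
  have hδinv : ∀ y ∈ L0, IsIntegral ℤ y → δ⁻¹ y - y ∈ A.nonunits := by
    intro y hyL hyI
    have h1 := hδ (δ⁻¹ y) (cheb_apply_mem_of_normal L0 δ⁻¹ hyL) (hint δ⁻¹ hyI)
    rw [cheb_apply_inv] at h1
    have : δ⁻¹ y - y = -(y - δ⁻¹ y) := by ring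
    rw [this]
    exact neg_mem h1
  -- transitivity: move `δ` into the decomposition group
  let A' : ValuationSubring (AlgebraicClosure ℚ) :=
    A.comap ((δ : GQ) : AlgebraicClosure ℚ →+* AlgebraicClosure ℚ)
  have hA'mem : ∀ x : AlgebraicClosure ℚ, x ∈ A' ↔ δ x ∈ A := fun x => Iff.rfl
  have hAA' : ∀ y ∈ L0, y ∈ A' ↔ y ∈ A := by
    intro y hyL
    rw [hA'mem]
    constructor
    · intro h
      have := (cheb_congr_on_field L0 A hℓ hA0 δ⁻¹ hδinv
        (cheb_apply_mem_of_normal L0 δ hyL) h).1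
      rwa [cheb_inv_apply] at this
    · intro h
      exact (cheb_congr_on_field L0 A hℓ hA0 δ hδ hyL h).1
  obtain ⟨ρ, hρL, hρ⟩ := transitiveStatement L0 A A' ℓ hℓ hA hAA'
  have hρinvL : ∀ y ∈ L0, ρ⁻¹ y = y := by
    intro y hy
    conv_lhs => rw [← hρL y hy]
    exact cheb_inv_apply ρ y
  set δ' : GQ := δ * ρ⁻¹ with hδ'def
  have hδ'D : δ' ∈ A.decompositionSubgroup ℚ := by
    apply mem_decompositionSubgroup_of
    · intro x hx
      rw [hδ'def, AlgEquiv.mul_apply, ← hA'mem, hρ, cheb_apply_inv]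
      exact hx
    · intro x hx
      have : δ'⁻¹ = ρ * δ⁻¹ := by
        rw [hδ'def, mul_inv_rev, inv_inv]
      rw [this, AlgEquiv.mul_apply, ← hρ, hA'mem, cheb_apply_inv]
      exact hx
  have hδ'L : ∀ y ∈ L0, δ' y = δ y := by
    intro y hy
    rw [hδ'def, AlgEquiv.mul_apply, hρinvL y hy]
  have hres : ∀ y ∈ L0, y ∈ A → δ' y - y ∈ A.nonunits := by
    intro y hyL hyA
    rw [hδ'L y hyL]
    exact (cheb_congr_on_field L0 A hℓ hA0 δ hδ hyL hyA).2
  obtain ⟨ρ', hρ'L, hρ'D, hι⟩ := inertiaCorrectionStatement L0 A ℓ hℓ hA δ' hδ'D hres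
  have hρ'invL : ∀ y ∈ L0, ρ'⁻¹ y = y := by
    intro y hy
    conv_lhs => rw [← hρ'L y hy]
    exact cheb_inv_apply ρ' y
  set ι : GQ := ρ'⁻¹ * δ' with hιdef
  have hιD : ι ∈ A.decompositionSubgroup ℚ :=
    Fermat.Agent.H8.mem_decomposition_of_mem_inertiaSubgroupIn A hι
  have hιinv : ι⁻¹ ∈ A.inertiaSubgroupIn ℚ := inv_mem hι
  have hιL : ∀ y ∈ L0, ι y = δ y := by
    intro y hy
    rw [hιdef, AlgEquiv.mul_apply, hδ'L y hy,
      hρ'invL _ (cheb_apply_mem_of_normal L0 δ hy)]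
  refine ⟨φ0 * ι⁻¹, ?_, ?_⟩
  · apply cheb_isFrobeniusAt_of A _ ℓ (mul_mem hφ0D (inv_mem hιD))
    intro x hx
    have h1 : ι⁻¹ x - x ∈ A.nonunits :=
      Fermat.Agent.H8.apply_sub_mem_nonunits_of_mem_inertia A hιinv hx
    have h2 : φ0 (ι⁻¹ x - x) ∈ A.nonunits :=
      apply_mem_nonunits_of_mem_decompositionSubgroup A hφ0D h1
    have h3 := cheb_sub_pow_mem_of_isFrobeniusAt hφ0 hx
    have : (φ0 * ι⁻¹) x - x ^ ℓ = φ0 (ι⁻¹ x - x) + (φ0 x - x ^ ℓ) := by
      rw [AlgEquiv.mul_apply, map_sub]; ring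
    rw [this]
    exact add_mem h2 h3
  · intro x hx
    have h1 : ι (δ⁻¹ x) = x := by
      rw [hιL _ (cheb_apply_mem_of_normal L0 δ⁻¹ hx), cheb_apply_inv]
    have h2 : ι⁻¹ x = δ⁻¹ x := by
      conv_lhs => rw [← h1]
      exact cheb_inv_apply ι _
    have h3 : δ⁻¹ = φ0⁻¹ * g := by
      rw [hδdef, mul_inv_rev, inv_inv]
    rw [AlgEquiv.mul_apply, h2, h3, AlgEquiv.mul_apply, cheb_apply_inv]

/-- **CHEB-A**: the number-field form of Chebotarev's theorem implies the prelude form. -/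
theorem chebotarev_of_nf : ChebotarevNFStatement → ChebotarevStatement := by
  intro hNF F hF g S
  have hgal := isGalois_algebraicClosure_rat
  have hnorm : Normal ℚ (AlgebraicClosure ℚ) := hgal.to_normal
  have : FiniteDimensional ℚ F := hF
  have hL0n' : Normal ℚ (IntermediateField.normalClosure ℚ F (AlgebraicClosure ℚ)) :=
    @normalClosure.normal ℚ F (AlgebraicClosure ℚ) _ _ _ _ _ hnorm
  have hL0f' : FiniteDimensional ℚ (IntermediateField.normalClosure ℚ F (AlgebraicClosure ℚ)) :=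
    inferInstance
  have hFL0 : F ≤ IntermediateField.normalClosure ℚ F (AlgebraicClosure ℚ) :=
    IntermediateField.le_normalClosure F
  generalize IntermediateField.normalClosure ℚ F (AlgebraicClosure ℚ) = L0 at hL0n' hL0f' hFL0
  have hL0n : Normal ℚ L0 := hL0n'
  have hL0f : FiniteDimensional ℚ L0 := hL0f'
  have hL0nf : NumberField L0 := { to_charZero := inferInstance, to_finiteDimensional := hL0f }
  have hL0g : IsGalois ℚ L0 := { }
  let σ : L0 ≃ₐ[ℚ] L0 := g.restrictNormal L0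
  obtain ⟨ℓ, 𝔏, hℓ, hℓS, h𝔏, hℓ𝔏, hσ⟩ := hNF L0 σ S
  have h𝔏ne : 𝔏 ≠ ⊥ := by
    intro h
    rw [h, Ideal.mem_bot] at hℓ𝔏
    exact hℓ.ne_zero (by exact_mod_cast hℓ𝔏)
  obtain ⟨A, ℓ', -, -, hAint, hAnon⟩ :=
    Fermat.Agent.H49.placeOverPrime L0 L0.val 𝔏 h𝔏 h𝔏ne
  have hA : A.LiesOverPrime ℓ := by
    show ((ℓ : ℕ) : AlgebraicClosure ℚ) ∈ A.nonunits
    have h := (hAnon ((ℓ : ℕ) : 𝓞 L0)).mpr hℓ𝔏
    have e : L0.val (algebraMap (𝓞 L0) L0 ((ℓ : ℕ) : 𝓞 L0)) = ((ℓ : ℕ) : AlgebraicClosure ℚ) := by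
      rw [map_natCast, map_natCast]
    have h' : L0.val (algebraMap (𝓞 L0) L0 ((ℓ : ℕ) : 𝓞 L0)) ∈ A.nonunits := h
    rwa [e] at h'
  have hg : ∀ y ∈ L0, IsIntegral ℤ y → g y - y ^ ℓ ∈ A.nonunits := by
    intro y hyL hyI
    have hyI' : IsIntegral ℤ (⟨y, hyL⟩ : L0) :=
      (isIntegral_algebraMap_iff (algebraMap L0 (AlgebraicClosure ℚ)).injective).mp hyI
    let x : 𝓞 L0 := ⟨⟨y, hyL⟩, hyI'⟩
    have h1 := (hAnon _).mpr (hσ x)
    have h4 : L0.val (σ ⟨y, hyL⟩) = g y := AlgEquiv.restrictNormal_commutes g L0 ⟨y, hyL⟩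
    have h5 : g y - y ^ ℓ = L0.val (σ ⟨y, hyL⟩ - (⟨y, hyL⟩ : L0) ^ ℓ) := by
      rw [map_sub, map_pow, h4]
      rfl
    rw [h5]
    exact h1
  obtain ⟨φ, hφF, hφL⟩ := cheb_exists_frobenius_eq_on L0 A hℓ hA g hg
  exact ⟨ℓ, A, φ, hℓ, hℓS, hA, hφF,
    fun x hx => hφL x (hFL0 hx)⟩

end Fermat.Agent.H39
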