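import Fermat.Agent.H48.S14UnitInterfaces

/-!
# P-S14 / C6-CYC: `CyclicCharpolyStatement`
-/

set_option autoImplicit false

namespace Fermat.Agent.H39

open Polynomial

/-- Diagonal dominance, real-number core: if `a i < 0` for all `i ≤ n`, `i ≠ k`, the `a i` sum
to zero over `i ≤ n`, and `c i ≤ c k` for `i < n` with `c k > 0`, then `∑_{i<n} c i * a i > 0`. -/
theorem cyc_sum_pos {n k : ℕ} (a c : ℕ → ℝ)
    (ha : ∀ i, i < n + 1 → i ≠ k → a i < 0)
    (hsum : ∑ i ∈ Finset.range (n + 1), a i = 0)
    (hc : ∀ i, i < n → c i ≤ c k) (hck : 0 < c k) (hkn : k < n) :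
    0 < ∑ i ∈ Finset.range n, c i * a i := by
  have han : a n < 0 := ha n (Nat.lt_succ_self n) (Nat.ne_of_gt hkn)
  have hsum' : ∑ i ∈ Finset.range n, a i = - a n := by
    rw [Finset.sum_range_succ] at hsum
    linarith
  have hle : ∑ i ∈ Finset.range n, c k * a i ≤ ∑ i ∈ Finset.range n, c i * a i := by
    refine Finset.sum_le_sum (fun i hi => ?_)
    rw [Finset.mem_range] at hi
    by_cases hik : i = k
    · rw [hik]
    · have h1 : a i < 0 := ha i (Nat.lt_succ_of_lt hi) hik
      have h2 : c i ≤ c k := hc i hi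
      nlinarith
  rw [← Finset.mul_sum, hsum'] at hle
  have : 0 < c k * (- a n) := mul_pos hck (by linarith)
  linarith

/-- **U-CYC** (characteristic polynomial of a "cyclic" lattice endomorphism). -/
theorem cyclicCharpoly : Fermat.Agent.H48.CyclicCharpolyStatement := by
  intro Λ _ _ _ P _ T τ ℓ hcard htrans hT hsumℓ hsep w₁ x₀ hx₀
  classical
  set n := Module.finrank ℤ Λ with hn
  -- (0) iterates
  have hpow : ∀ (i : ℕ) (w : P) (x : Λ), ℓ w ((T ^ i) x) = ℓ ((τ ^ i) w) x := by
    intro i
    induction i with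
    | zero => intro w x; simp
    | succ i ih =>
      intro w x
      rw [pow_succ, Module.End.mul_apply, ih, hT, pow_succ', Equiv.Perm.mul_apply]
  -- (1) the orbit map is a bijection `Fin (n+1) → P`
  have hcyc : τ.IsCycleOn ((Finset.univ : Finset P) : Set P) := by
    refine ⟨?_, ?_⟩
    · rw [Finset.coe_univ]
      exact Set.bijOn_univ.mpr τ.bijective
    · intro x _ y _
      obtain ⟨m, hm⟩ := htrans x y
      exact ⟨(m : ℤ), by simpa using hm⟩
  have hbij : ∀ w : P, Function.Bijective (fun i : Fin (n + 1) => (τ ^ (i : ℕ)) w) := by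
    intro w
    rw [Fintype.bijective_iff_surjective_and_card]
    refine ⟨?_, by rw [Fintype.card_fin, hcard]⟩
    intro w'
    obtain ⟨m, hm, hmw⟩ := hcyc.exists_pow_eq (Finset.mem_univ w) (Finset.mem_univ w')
    rw [Finset.card_univ, ← hcard] at hm
    exact ⟨⟨m, hm⟩, hmw⟩
  have hsum_orbit : ∀ (w : P) (x : Λ), ∑ i ∈ Finset.range (n + 1), ℓ ((τ ^ i) w) x = 0 := by
    intro w x
    rw [Finset.sum_range (fun i => ℓ ((τ ^ i) w) x)]
    rw [(hbij w).sum_comp (fun w' => ℓ w' x)]
    exact hsumℓ x
  -- (3) key claim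
  have key : ∀ h : ℤ[X], h.natDegree < n → aeval T h = 0 → h = 0 := by
    intro h hdeg hh
    by_contra hne
    -- index of maximal absolute value
    have hnonempty : (Finset.range n).Nonempty := ⟨0, Finset.mem_range.mpr (by omega)⟩
    obtain ⟨k, hk, hkmax⟩ := Finset.exists_max_image (Finset.range n)
      (fun i => |h.coeff i|) hnonempty
    rw [Finset.mem_range] at hk
    have hkpos : 0 < |h.coeff k| := by
      have h1 : |h.coeff h.natDegree| ≤ |h.coeff k| :=
        hkmax h.natDegree (Finset.mem_range.mpr hdeg)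
      have h2 : 0 < |h.coeff h.natDegree| := by
        rw [abs_pos]
        exact Polynomial.leadingCoeff_ne_zero.mpr hne
      exact lt_of_lt_of_le h2 h1
    -- the point `v` with `τ^k v = w₁`
    set v : P := (τ ^ k)⁻¹ w₁ with hv
    have hvk : (τ ^ k) v = w₁ := by rw [hv]; exact (τ ^ k).apply_symm_apply w₁
    set a : ℕ → ℝ := fun i => ℓ ((τ ^ i) v) x₀ with ha_def
    have ha : ∀ i, i < n + 1 → i ≠ k → a i < 0 := by
      intro i hi hik
      apply hx₀
      intro heq
      rw [← hvk] at heq
      have := (hbij v).injective (a₁ := ⟨i, hi⟩) (a₂ := ⟨k, Nat.lt_succ_of_lt hk⟩) heq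
      exact hik (by simpa using congrArg Fin.val this)
    have hsum_a : ∑ i ∈ Finset.range (n + 1), a i = 0 := hsum_orbit v x₀
    -- evaluate `ℓ v (h(T) x₀) = 0`
    have heval : ∑ i ∈ Finset.range n, ((h.coeff i : ℤ) : ℝ) * a i = 0 := by
      have h1 : ℓ v ((aeval T h) x₀) = 0 := by rw [hh]; simp
      rw [Polynomial.aeval_eq_sum_range' hdeg, LinearMap.sum_apply, map_sum] at h1
      rw [← h1]
      refine Finset.sum_congr rfl (fun i _ => ?_)
      rw [LinearMap.smul_apply, map_zsmul, hpow, zsmul_eq_mul]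
    rcases lt_or_gt_of_ne (abs_pos.mp hkpos) with hneg | hpos
    · -- `h.coeff k < 0`: use `c = - coeff`
      have hpos' := cyc_sum_pos (n := n) (k := k) a (fun i => -((h.coeff i : ℤ) : ℝ)) ha hsum_a
        (fun i hi => by
          have this : |h.coeff i| ≤ |h.coeff k| := hkmax i (Finset.mem_range.mpr hi)
          have h3 : |h.coeff k| = - h.coeff k := abs_of_neg hneg
          have h4 : - h.coeff i ≤ |h.coeff i| := neg_le_abs _
          have h5 : - h.coeff i ≤ - h.coeff k := by
            omega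
          have h6 : ((- h.coeff i : ℤ) : ℝ) ≤ ((- h.coeff k : ℤ) : ℝ) := by exact_mod_cast h5
          simpa using h6)
        (by
          have : (0 : ℝ) < ((- h.coeff k : ℤ) : ℝ) := by exact_mod_cast (neg_pos.mpr hneg)
          simpa using this) hk
      have hzero : ∑ i ∈ Finset.range n, (-((h.coeff i : ℤ) : ℝ)) * a i = 0 := by
        simp only [neg_mul, Finset.sum_neg_distrib, heval, neg_zero]
      linarith
    · have hpos' := cyc_sum_pos (n := n) (k := k) a (fun i => ((h.coeff i : ℤ) : ℝ)) ha hsum_a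
        (fun i hi => by
          have this : |h.coeff i| ≤ |h.coeff k| := hkmax i (Finset.mem_range.mpr hi)
          have h3 : |h.coeff k| = h.coeff k := abs_of_pos hpos
          have h4 : h.coeff i ≤ |h.coeff i| := le_abs_self _
          have h5 : h.coeff i ≤ h.coeff k := by
            omega
          exact_mod_cast h5)
        (by exact_mod_cast hpos) hk
      linarith
  -- (2) the geometric sum kills `T`
  have hgeom : aeval T (∑ i ∈ Finset.range (n + 1), (X : ℤ[X]) ^ i) = 0 := by
    apply LinearMap.ext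
    intro x
    apply hsep
    intro w
    rw [map_sum, LinearMap.sum_apply, map_sum]
    simp only [map_pow, aeval_X]
    rw [← hsum_orbit w x]
    exact Finset.sum_congr rfl (fun i _ => hpow i w x)
  -- (4) conclusion
  rw [← hcard]
  have hχm : T.charpoly.Monic := LinearMap.charpoly_monic T
  have hχd : T.charpoly.natDegree = n := LinearMap.charpoly_natDegree T
  have hfm : (∑ i ∈ Finset.range (n + 1), (X : ℤ[X]) ^ i).Monic :=
    Polynomial.monic_geom_sum_X (Nat.succ_ne_zero n)
  have hfd : (∑ i ∈ Finset.range (n + 1), (X : ℤ[X]) ^ i).natDegree = n := by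
    apply le_antisymm
    · refine Polynomial.natDegree_sum_le_of_forall_le _ _ (fun i hi => ?_)
      rw [natDegree_X_pow]
      exact Nat.lt_succ_iff.mp (Finset.mem_range.mp hi)
    · apply Polynomial.le_natDegree_of_ne_zero
      rw [Polynomial.finsetSum_coeff]
      simp [coeff_X_pow]
  by_contra hne
  have hsub_ne : T.charpoly - ∑ i ∈ Finset.range (n + 1), (X : ℤ[X]) ^ i ≠ 0 :=
    sub_ne_zero.mpr hne
  have hdeg_eq : T.charpoly.degree =
      (∑ i ∈ Finset.range (n + 1), (X : ℤ[X]) ^ i).degree := by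
    rw [Polynomial.degree_eq_natDegree hχm.ne_zero, Polynomial.degree_eq_natDegree hfm.ne_zero,
      hχd, hfd]
  have hlt := Polynomial.degree_sub_lt_left hdeg_eq hχm.ne_zero
    (by rw [hχm.leadingCoeff, hfm.leadingCoeff])
  rw [Polynomial.degree_eq_natDegree hχm.ne_zero, hχd] at hlt
  have hnat := (Polynomial.natDegree_lt_iff_degree_lt hsub_ne).mpr hlt
  refine hsub_ne (key _ hnat ?_)
  rw [map_sub, LinearMap.aeval_self_charpoly, hgeom, sub_zero]

end Fermat.Agent.H39
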