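import Mathlib

/-!
# A logarithmic derivative on the units of `ℤ[ζ_p]`

We construct a ring homomorphism `Φ : 𝓞 K → B := (F_p[X]/(X^(p-2)))[ε]` with `ζ ↦ 1 + X + ε`
and the induced group homomorphism `L : (𝓞 K)ˣ → (F_p[X]/(X^(p-2)), +)`,
`u ↦ snd (Φ u) / fst (Φ u)`.
It kills `p`-th powers and units congruent to a rational integer modulo `p`.
-/

open Polynomial NumberField

namespace Fermat.Agent.H39

variable (p : ℕ) [hp : Fact p.Prime]

/-- The truncated polynomial ring `F_p[X]/(X^(p-2))`. -/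
def TruncPoly : Type := (ZMod p)[X] ⧸ Ideal.span {(X : (ZMod p)[X]) ^ (p - 2)}

noncomputable instance TruncPoly.instCommRing : CommRing (TruncPoly p) :=
  inferInstanceAs (CommRing ((ZMod p)[X] ⧸ Ideal.span {(X : (ZMod p)[X]) ^ (p - 2)}))

/-- The dual numbers over the truncated polynomial ring. -/
abbrev DTarget : Type := DualNumber (TruncPoly p)

/-- The class of a polynomial in the truncated polynomial ring. -/
noncomputable def tmk : (ZMod p)[X] →+* TruncPoly p :=
  Ideal.Quotient.mk (Ideal.span {(X : (ZMod p)[X]) ^ (p - 2)})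

theorem tmk_surjective : Function.Surjective (tmk p) :=
  Ideal.Quotient.mk_surjective

theorem tmk_eq_zero_iff (f : (ZMod p)[X]) : tmk p f = 0 ↔ X ^ (p - 2) ∣ f := by
  have h : (Ideal.Quotient.mk (Ideal.span {(X : (ZMod p)[X]) ^ (p - 2)}) f = 0) ↔
      X ^ (p - 2) ∣ f := by
    rw [Ideal.Quotient.eq_zero_iff_mem, Ideal.mem_span_singleton]
  exact h

theorem tmk_X_pow : tmk p X ^ (p - 2) = 0 := by
  rw [← map_pow, tmk_eq_zero_iff]

theorem truncPoly_natCast_self : ((p : ℕ) : TruncPoly p) = 0 := by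
  have : ((p : ℕ) : (ZMod p)[X]) = 0 := by
    rw [← Polynomial.C_eq_natCast, ZMod.natCast_self, map_zero]
  rw [← map_natCast (tmk p), this, map_zero]

theorem truncPoly_nsmul_self (v : TruncPoly p) : p • v = 0 := by
  rw [nsmul_eq_mul, truncPoly_natCast_self, zero_mul]

theorem dTarget_natCast_self : ((p : ℕ) : DTarget p) = 0 := by
  apply TrivSqZeroExt.ext
  · rw [TrivSqZeroExt.fst_natCast, TrivSqZeroExt.fst_zero, truncPoly_natCast_self]
  · rw [TrivSqZeroExt.snd_natCast, TrivSqZeroExt.snd_zero]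

theorem truncPoly_nontrivial (h3 : 3 ≤ p) : Nontrivial (TruncPoly p) := by
  refine ⟨⟨0, 1, fun h => ?_⟩⟩
  have h1 : tmk p 1 = 0 := by rw [map_one]; exact h.symm
  rw [tmk_eq_zero_iff] at h1
  have h2 := Polynomial.natDegree_le_of_dvd h1 one_ne_zero
  rw [natDegree_X_pow, natDegree_one] at h2
  omega

/-- The image of `ζ`: the element `1 + X + ε`. -/
noncomputable def yElt : DTarget p := TrivSqZeroExt.inl (tmk p (1 + X)) + TrivSqZeroExt.inr 1

theorem yElt_sub_one_pow : (yElt p - 1) ^ (p - 1) = 0 := by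
  have h2 : 2 ≤ p := hp.out.two_le
  have hy : yElt p - 1 = TrivSqZeroExt.inl (tmk p X) + TrivSqZeroExt.inr 1 := by
    rw [yElt, map_add, map_one, TrivSqZeroExt.inl_add, TrivSqZeroExt.inl_one]
    abel
  rw [hy]
  apply TrivSqZeroExt.ext
  · rw [TrivSqZeroExt.fst_pow, TrivSqZeroExt.fst_add, TrivSqZeroExt.fst_inl, TrivSqZeroExt.fst_inr,
      add_zero, TrivSqZeroExt.fst_zero]
    have : p - 1 = (p - 2) + 1 := by omega
    rw [this, pow_succ, tmk_X_pow, zero_mul]
  · rw [TrivSqZeroExt.snd_pow, TrivSqZeroExt.fst_add, TrivSqZeroExt.fst_inl, TrivSqZeroExt.fst_inr,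
      add_zero, TrivSqZeroExt.snd_zero]
    have : (p - 1).pred = p - 2 := by
      rw [Nat.pred_eq_sub_one]; omega
    rw [this, tmk_X_pow]
    simp

theorem dTarget_charP (h3 : 3 ≤ p) : CharP (DTarget p) p := by
  have := truncPoly_nontrivial p h3
  exact (CharP.charP_iff_prime_eq_zero hp.out).mpr (dTarget_natCast_self p)

theorem aeval_yElt_cyclotomic (h3 : 3 ≤ p) : aeval (yElt p) (cyclotomic p ℤ) = 0 := by
  have := dTarget_charP p h3
  have h1 : cyclotomic p (DTarget p) = (X - 1) ^ (p - 1) := by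
    have := cyclotomic_mul_prime_pow_eq (DTarget p) (p := p) (m := 1)
      (by simpa using hp.out.one_lt.ne') (k := 1) one_pos
    simpa [cyclotomic_one] using this
  rw [aeval_def, eval₂_eq_eval_map, map_cyclotomic, h1]
  simp only [eval_pow, eval_sub, eval_X, eval_one]
  exact yElt_sub_one_pow p

section field

variable {K : Type*} [Field K] [NumberField K] [IsCyclotomicExtension {p} ℚ K]

omit [IsCyclotomicExtension {p} ℚ K] in
theorem minpoly_toInteger {ζ : K} (hζ : IsPrimitiveRoot ζ p) :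
    minpoly ℤ hζ.toInteger = cyclotomic p ℤ := by
  rw [cyclotomic_eq_minpoly hζ hp.out.pos, ← NumberField.RingOfIntegers.minpoly_coe]
  rfl

/-- The ring homomorphism `𝓞 K → B` sending `ζ` to `1 + X + ε`. -/
noncomputable def phiHom (h3 : 3 ≤ p) {ζ : K} (hζ : IsPrimitiveRoot ζ p) : 𝓞 K →ₐ[ℤ] DTarget p :=
  haveI : NeZero p := ⟨hp.out.ne_zero⟩
  (hζ.integralPowerBasis).lift (yElt p) (by
    rw [hζ.integralPowerBasis_gen, minpoly_toInteger p hζ]
    exact aeval_yElt_cyclotomic p h3)

theorem phiHom_zeta (h3 : 3 ≤ p) {ζ : K} (hζ : IsPrimitiveRoot ζ p) :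
    phiHom p h3 hζ hζ.toInteger = yElt p := by
  have : NeZero p := ⟨hp.out.ne_zero⟩
  have := (hζ.integralPowerBasis).lift_gen (yElt p) (by
    rw [hζ.integralPowerBasis_gen, minpoly_toInteger p hζ]
    exact aeval_yElt_cyclotomic p h3)
  rw [phiHom]
  convert this using 2
  exact (hζ.integralPowerBasis_gen).symm

end field

/-- The logarithmic derivative on the units of the dual numbers. -/
noncomputable def dlog : (DTarget p)ˣ →* Multiplicative (TruncPoly p) where
  toFun u := Multiplicative.ofAdd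
    (TrivSqZeroExt.snd (u : DTarget p) * TrivSqZeroExt.fst ((u⁻¹ : (DTarget p)ˣ) : DTarget p))
  map_one' := by simp
  map_mul' u v := by
    rw [← ofAdd_add]
    congr 1
    have h1 : TrivSqZeroExt.fst (u : DTarget p) *
        TrivSqZeroExt.fst ((u⁻¹ : (DTarget p)ˣ) : DTarget p) = 1 := by
      rw [← TrivSqZeroExt.fst_mul, Units.mul_inv, TrivSqZeroExt.fst_one]
    have h2 : TrivSqZeroExt.fst (v : DTarget p) *
        TrivSqZeroExt.fst ((v⁻¹ : (DTarget p)ˣ) : DTarget p) = 1 := by
      rw [← TrivSqZeroExt.fst_mul, Units.mul_inv, TrivSqZeroExt.fst_one]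
    have h3 : (u * v)⁻¹ = u⁻¹ * v⁻¹ := mul_inv u v
    rw [h3, Units.val_mul, Units.val_mul, TrivSqZeroExt.snd_mul, TrivSqZeroExt.fst_mul]
    simp only [smul_eq_mul, MulOpposite.smul_eq_mul_unop, MulOpposite.unop_op]
    linear_combination
      (TrivSqZeroExt.snd (v : DTarget p) *
        TrivSqZeroExt.fst ((v⁻¹ : (DTarget p)ˣ) : DTarget p)) * h1 +
      (TrivSqZeroExt.snd (u : DTarget p) *
        TrivSqZeroExt.fst ((u⁻¹ : (DTarget p)ˣ) : DTarget p)) * h2

theorem toAdd_dlog (u : (DTarget p)ˣ) : Multiplicative.toAdd (dlog p u) =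
    TrivSqZeroExt.snd (u : DTarget p) * TrivSqZeroExt.fst ((u⁻¹ : (DTarget p)ˣ) : DTarget p) :=
  rfl

/-- If `fst u = a`, `snd u = b` and `l * a = b`, then `dlog u = l`. -/
theorem toAdd_dlog_eq (u : (DTarget p)ˣ) (l : TruncPoly p)
    (h : l * TrivSqZeroExt.fst (u : DTarget p) = TrivSqZeroExt.snd (u : DTarget p)) :
    Multiplicative.toAdd (dlog p u) = l := by
  have h1 : TrivSqZeroExt.fst (u : DTarget p) *
      TrivSqZeroExt.fst ((u⁻¹ : (DTarget p)ˣ) : DTarget p) = 1 := by
    rw [← TrivSqZeroExt.fst_mul, Units.mul_inv, TrivSqZeroExt.fst_one]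
  rw [toAdd_dlog, ← h, mul_assoc, h1, mul_one]

/-- Taylor expansion: the image of an integer polynomial in `y = 1 + X + ε`. -/
theorem aeval_yElt (F : ℤ[X]) : aeval (yElt p) F =
    TrivSqZeroExt.inl (tmk p ((F.map (Int.castRingHom (ZMod p))).comp (1 + X))) +
      TrivSqZeroExt.inr (tmk p (((derivative F).map (Int.castRingHom (ZMod p))).comp (1 + X))) := by
  induction F using Polynomial.induction_on' with
  | add f g hf hg =>
    rw [map_add, hf, hg]
    simp only [Polynomial.map_add, add_comp, map_add, TrivSqZeroExt.inl_add,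
      TrivSqZeroExt.inr_add]
    abel
  | monomial n a =>
    have hC : ∀ b : ℤ, tmk p (C (b : ZMod p)) = (b : TruncPoly p) := fun b => by
      rw [map_intCast (C : ZMod p →+* (ZMod p)[X]), map_intCast]
    apply TrivSqZeroExt.ext
    · simp only [aeval_monomial, TrivSqZeroExt.fst_mul, TrivSqZeroExt.fst_pow,
        TrivSqZeroExt.fst_add, TrivSqZeroExt.fst_inl, TrivSqZeroExt.fst_inr, add_zero, yElt,
        eq_intCast, TrivSqZeroExt.fst_intCast, Polynomial.map_monomial, monomial_comp,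
        map_mul, map_pow]
      rw [hC]
    · simp only [aeval_monomial, TrivSqZeroExt.snd_mul, TrivSqZeroExt.snd_pow,
        TrivSqZeroExt.fst_pow, TrivSqZeroExt.snd_add, TrivSqZeroExt.snd_inl,
        TrivSqZeroExt.snd_inr, TrivSqZeroExt.fst_add, TrivSqZeroExt.fst_inl,
        TrivSqZeroExt.fst_inr, add_zero, zero_add, yElt,
        eq_intCast, TrivSqZeroExt.fst_intCast, TrivSqZeroExt.snd_intCast,
        derivative_monomial, Polynomial.map_monomial, monomial_comp,
        map_mul, map_pow, smul_eq_mul, MulOpposite.smul_eq_mul_unop, MulOpposite.unop_op,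
        zero_mul, nsmul_eq_mul, mul_one]
      rw [hC, hC, Int.cast_natCast, Nat.pred_eq_sub_one]
      ring

end Fermat.Agent.H39
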