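import Fermat.Agent.H39.KummerCert

/-!
# Kummer's lemma for `p = 11`

Generated certificate: logarithmic derivatives of `ζ` and of the cyclotomic units
`1 + ζ + ⋯ + ζ ^ (a - 1)`, `2 ≤ a ≤ 5`, modulo `(11, X ^ 9)`.
-/

open Polynomial NumberField

namespace Fermat.Agent.H39

/-- The logarithmic derivatives modulo `(11, X ^ 9)`. -/
noncomputable def kl11 : Fin 5 → ℤ[X] :=
  ![1 - X + X ^ 2 - X ^ 3 + X ^ 4 - X ^ 5 + X ^ 6 - X ^ 7 + X ^ 8,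
    -5 - 3 * X - 4 * X ^ 2 + 2 * X ^ 3 - X ^ 4 - 5 * X ^ 5 - 3 * X ^ 6 - 4 * X ^ 7 + 2 * X ^ 8,
    1 - 4 * X + 5 * X ^ 3 - 5 * X ^ 4 - 4 * X ^ 5 + 2 * X ^ 6 + 3 * X ^ 7,
    -4 - 3 * X + X ^ 2 - 3 * X ^ 3 - 4 * X ^ 4 - 5 * X ^ 5 + 4 * X ^ 6,
    2 - X ^ 2 + 3 * X ^ 3 - 5 * X ^ 5 + 5 * X ^ 6 - 5 * X ^ 7 + 5 * X ^ 8]

/-- Quotients in the certificate. -/
noncomputable def kQ11 : Fin 5 → ℤ[X] :=
  ![1,
    2,
    3,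
    4,
    20 + 30 * X + 20 * X ^ 2 + 5 * X ^ 3]

/-- Remainders in the certificate. -/
noncomputable def kR11 : Fin 5 → ℤ[X] :=
  ![0,
    -1 - X - X ^ 2 - X ^ 5 - X ^ 6 - X ^ 7,
    -X - X ^ 2 + X ^ 3 - 2 * X ^ 5 - X ^ 6 + X ^ 7 + X ^ 8,
    -2 - 4 * X - 3 * X ^ 2 - 2 * X ^ 3 - 3 * X ^ 4 - 5 * X ^ 5 - 3 * X ^ 6 + X ^ 8,
    X ^ 3 + 2 * X ^ 4 - X ^ 6 - 2 * X ^ 7]

set_option maxHeartbeats 1000000 in
theorem kcert11 (i : Fin 5) :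
    kl11 i * (stdPoly (i : ℕ)).comp (1 + X) - (derivative (stdPoly (i : ℕ))).comp (1 + X) =
      X ^ (11 - 2) * kQ11 i + ((11 : ℕ) : ℤ[X]) * kR11 i := by
  fin_cases i <;>
  · simp [kl11, kQ11, kR11, stdPoly, Finset.sum_range_succ]
    ring

set_option maxHeartbeats 1000000 in
theorem ksolve11 (c : Fin 5 → ℤ)
    (h : ∀ k < 11 - 2, ((11 : ℕ) : ℤ) ∣ ∑ i, c i * (kl11 i).coeff k) :
    ∀ i, ((11 : ℕ) : ℤ) ∣ c i := by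
  have h0 := h 0 (by norm_num)
  have h1 := h 1 (by norm_num)
  have h3 := h 3 (by norm_num)
  have h5 := h 5 (by norm_num)
  have h7 := h 7 (by norm_num)
  simp [Fin.sum_univ_succ, kl11, coeff_X, coeff_one] at h0 h1 h3 h5 h7
  obtain ⟨t0, ht0⟩ := h0
  obtain ⟨t1, ht1⟩ := h1
  obtain ⟨t3, ht3⟩ := h3
  obtain ⟨t5, ht5⟩ := h5
  obtain ⟨t7, ht7⟩ := h7
  have e0 : ((11 : ℕ) : ℤ) ∣ c 0 :=
    ⟨(-2) * t0 + (1) * t1 + (-2) * t3 + (-2) * t7 - ((1) * c 1 + (-2) * c 2 + (1) * c 3), by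
      push_cast
      linear_combination (-2) * ht0 + (1) * ht1 + (-2) * ht3 + (-2) * ht7⟩
  have e1 : ((11 : ℕ) : ℤ) ∣ c 1 :=
    ⟨(-5) * t0 + (-3) * t1 + (-3) * t5 + (1) * t7 - ((4) * c 1 + (2) * c 2 + (4) * c 3), by
      push_cast
      linear_combination (-5) * ht0 + (-3) * ht1 + (-3) * ht5 + (1) * ht7⟩
  have e2 : ((11 : ℕ) : ℤ) ∣ c 2 :=
    ⟨(-4) * t0 + (-4) * t1 + (1) * t3 + (5) * t5 + (5) * t7 - ((-1) * c 0 + (-1) * c 1 + (1) * c 2 + (-5) * c 4), by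
      push_cast
      linear_combination (-4) * ht0 + (-4) * ht1 + (1) * ht3 + (5) * ht5 + (5) * ht7⟩
  have e3 : ((11 : ℕ) : ℤ) ∣ c 3 :=
    ⟨(4) * t1 + (3) * t3 + (4) * t7 - ((-1) * c 0 + (-2) * c 1 + (1) * c 2 + (-2) * c 3 + (-1) * c 4), by
      push_cast
      linear_combination (4) * ht1 + (3) * ht3 + (4) * ht7⟩
  have e4 : ((11 : ℕ) : ℤ) ∣ c 4 :=
    ⟨(2) * t0 + (2) * t1 + (1) * t3 + (1) * t5 + (-2) * t7 - ((-1) * c 1 + (-1) * c 2 + (-2) * c 3 + (1) * c 4), by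
      push_cast
      linear_combination (2) * ht0 + (2) * ht1 + (1) * ht3 + (1) * ht5 + (-2) * ht7⟩
  intro i
  fin_cases i
  · exact e0
  · exact e1
  · exact e2
  · exact e3
  · exact e4

/-- **Kummer's lemma** for `p = 11`. -/
theorem kummer_eleven (K : Type*) [Field K] [NumberField K] [IsCyclotomicExtension {11} ℚ K]
    (u : (𝓞 K)ˣ) (n : ℤ) (h : (11 : 𝓞 K) ∣ (u : 𝓞 K) - n) : ∃ v : (𝓞 K)ˣ, u = v ^ 11 := by
  have : Fact (Nat.Prime 11) := ⟨by norm_num⟩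
  have hζ := IsCyclotomicExtension.zeta_spec 11 ℚ K
  exact kummer_of_stdCert 11 (by norm_num) hζ 5 (by norm_num) kl11 kQ11 kR11 kcert11 ksolve11 u n
    (by exact_mod_cast h)

end Fermat.Agent.H39
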