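import Fermat.Agent.H39.KummerCert

/-!
# Kummer's lemma for `p = 13`

Generated certificate: logarithmic derivatives of `ζ` and of the cyclotomic units
`1 + ζ + ⋯ + ζ ^ (a - 1)`, `2 ≤ a ≤ 6`, modulo `(13, X ^ 11)`.
-/

open Polynomial NumberField

namespace Fermat.Agent.H39

/-- The logarithmic derivatives modulo `(13, X ^ 11)`. -/
noncomputable def kl13 : Fin 6 → ℤ[X] :=
  ![1 - X + X ^ 2 - X ^ 3 + X ^ 4 - X ^ 5 + X ^ 6 - X ^ 7 + X ^ 8 - X ^ 9 + X ^ 10,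
    -6 + 3 * X + 5 * X ^ 2 + 4 * X ^ 3 - 2 * X ^ 4 + X ^ 5 + 6 * X ^ 6 - 3 * X ^ 7 - 5 * X ^ 8 - 4 * X ^ 9 + 2 * X ^ 10,
    1 + 4 * X + 3 * X ^ 3 - 3 * X ^ 4 + 2 * X ^ 5 - X ^ 6 - 4 * X ^ 7 - 3 * X ^ 9 + 3 * X ^ 10,
    -5 + 3 * X - 2 * X ^ 2 - 2 * X ^ 3 + X ^ 4 + X ^ 5 - 2 * X ^ 6 + 5 * X ^ 7 + 4 * X ^ 8 - 4 * X ^ 9 + 4 * X ^ 10,
    2 - X ^ 2 + 6 * X ^ 3 + 2 * X ^ 5 - 2 * X ^ 6 + 4 * X ^ 7 - 6 * X ^ 8 + 3 * X ^ 9 + 5 * X ^ 10,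
    -4 - 5 * X + 3 * X ^ 2 - 5 * X ^ 3 - 4 * X ^ 4 + X ^ 5 + 6 * X ^ 6 - 6 * X ^ 7 + 6 * X ^ 8 - 6 * X ^ 9 + 6 * X ^ 10]

/-- Quotients in the certificate. -/
noncomputable def kQ13 : Fin 6 → ℤ[X] :=
  ![1,
    2,
    6 + 3 * X,
    12 + 12 * X + 4 * X ^ 2,
    54 + 59 * X + 28 * X ^ 2 + 5 * X ^ 3,
    30 + 60 * X + 60 * X ^ 2 + 30 * X ^ 3 + 6 * X ^ 4]

/-- Remainders in the certificate. -/
noncomputable def kR13 : Fin 6 → ℤ[X] :=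
  ![0,
    -1 + X ^ 2 + X ^ 3 + X ^ 6 - X ^ 8 - X ^ 9,
    X + X ^ 2 + X ^ 3 - X ^ 7 - X ^ 8 - X ^ 9,
    -2 - 2 * X - X ^ 2 - X ^ 3 - X ^ 4 + X ^ 7 + 3 * X ^ 8 + 2 * X ^ 9 + X ^ 10,
    2 * X ^ 3 + 4 * X ^ 4 + 5 * X ^ 5 + 3 * X ^ 6 + 2 * X ^ 7 - X ^ 9 + X ^ 10,
    -3 - 10 * X - 14 * X ^ 2 - 13 * X ^ 3 - 11 * X ^ 4 - 11 * X ^ 5 - 7 * X ^ 6 - X ^ 7 + 4 * X ^ 8 + 2 * X ^ 9 + X ^ 10]

set_option maxHeartbeats 1000000 in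
theorem kcert13 (i : Fin 6) :
    kl13 i * (stdPoly (i : ℕ)).comp (1 + X) - (derivative (stdPoly (i : ℕ))).comp (1 + X) =
      X ^ (13 - 2) * kQ13 i + ((13 : ℕ) : ℤ[X]) * kR13 i := by
  fin_cases i <;>
  · simp [kl13, kQ13, kR13, stdPoly, Finset.sum_range_succ]
    ring

set_option maxHeartbeats 1000000 in
theorem ksolve13 (c : Fin 6 → ℤ)
    (h : ∀ k < 13 - 2, ((13 : ℕ) : ℤ) ∣ ∑ i, c i * (kl13 i).coeff k) :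
    ∀ i, ((13 : ℕ) : ℤ) ∣ c i := by
  have h0 := h 0 (by norm_num)
  have h1 := h 1 (by norm_num)
  have h3 := h 3 (by norm_num)
  have h5 := h 5 (by norm_num)
  have h7 := h 7 (by norm_num)
  have h9 := h 9 (by norm_num)
  simp [Fin.sum_univ_succ, kl13, coeff_X, coeff_one] at h0 h1 h3 h5 h7 h9
  obtain ⟨t0, ht0⟩ := h0
  obtain ⟨t1, ht1⟩ := h1
  obtain ⟨t3, ht3⟩ := h3
  obtain ⟨t5, ht5⟩ := h5
  obtain ⟨t7, ht7⟩ := h7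
  obtain ⟨t9, ht9⟩ := h9
  have e0 : ((13 : ℕ) : ℤ) ∣ c 0 :=
    ⟨(1) * t0 + (3) * t1 + (3) * t3 + (-4) * t5 + (-6) * t7 + (4) * t9 - ((1) * c 1 + (2) * c 2 + (-4) * c 3 + (-2) * c 5), by
      push_cast
      linear_combination (1) * ht0 + (3) * ht1 + (3) * ht3 + (-4) * ht5 + (-6) * ht7 + (4) * ht9⟩
  have e1 : ((13 : ℕ) : ℤ) ∣ c 1 :=
    ⟨(-3) * t0 + (2) * t1 + (-3) * t3 + (-6) * t5 + (-2) * t7 + (6) * t9 - ((-1) * c 1 + (-2) * c 2 + (-1) * c 3 + (-2) * c 4 + (-1) * c 5), by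
      push_cast
      linear_combination (-3) * ht0 + (2) * ht1 + (-3) * ht3 + (-6) * ht5 + (-2) * ht7 + (6) * ht9⟩
  have e2 : ((13 : ℕ) : ℤ) ∣ c 2 :=
    ⟨(-1) * t0 + (-1) * t1 + (2) * t3 + (4) * t5 + (-6) * t9 - ((3) * c 1 + (2) * c 2 + (2) * c 3 + (3) * c 5), by
      push_cast
      linear_combination (-1) * ht0 + (-1) * ht1 + (2) * ht3 + (4) * ht5 + (-6) * ht9⟩
  have e3 : ((13 : ℕ) : ℤ) ∣ c 3 :=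
    ⟨(-6) * t0 + (-2) * t1 + (-4) * t3 + (-4) * t5 + (6) * t7 + (-2) * t9 - ((-4) * c 2 + (5) * c 3 + (-2) * c 4 + (2) * c 5), by
      push_cast
      linear_combination (-6) * ht0 + (-2) * ht1 + (-4) * ht3 + (-4) * ht5 + (6) * ht7 + (-2) * ht9⟩
  have e4 : ((13 : ℕ) : ℤ) ∣ c 4 :=
    ⟨(4) * t0 + (2) * t1 + (2) * t3 + (-6) * t5 + (1) * t7 + (5) * t9 - ((-3) * c 1 + (-1) * c 2 + (-3) * c 3 + (2) * c 4 + (-6) * c 5), by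
      push_cast
      linear_combination (4) * ht0 + (2) * ht1 + (2) * ht3 + (-6) * ht5 + (1) * ht7 + (5) * ht9⟩
  have e5 : ((13 : ℕ) : ℤ) ∣ c 5 :=
    ⟨(4) * t0 + (1) * t1 + (2) * t3 + (-2) * t5 + (1) * t7 + (2) * t9 - ((-2) * c 1 + (-2) * c 3 + (2) * c 4 + (-4) * c 5), by
      push_cast
      linear_combination (4) * ht0 + (1) * ht1 + (2) * ht3 + (-2) * ht5 + (1) * ht7 + (2) * ht9⟩
  intro i
  fin_cases i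
  · exact e0
  · exact e1
  · exact e2
  · exact e3
  · exact e4
  · exact e5

/-- **Kummer's lemma** for `p = 13`. -/
theorem kummer_thirteen (K : Type*) [Field K] [NumberField K] [IsCyclotomicExtension {13} ℚ K]
    (u : (𝓞 K)ˣ) (n : ℤ) (h : (13 : 𝓞 K) ∣ (u : 𝓞 K) - n) : ∃ v : (𝓞 K)ˣ, u = v ^ 13 := by
  have : Fact (Nat.Prime 13) := ⟨by norm_num⟩
  have hζ := IsCyclotomicExtension.zeta_spec 13 ℚ K
  exact kummer_of_stdCert 13 (by norm_num) hζ 6 (by norm_num) kl13 kQ13 kR13 kcert13 ksolve13 u n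
    (by exact_mod_cast h)

end Fermat.Agent.H39
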