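import Fermat.Agent.H39.KummerCert

/-!
# Kummer's lemma for `p = 5`

Generated certificate: logarithmic derivatives of `ζ` and of the cyclotomic units
`1 + ζ + ⋯ + ζ ^ (a - 1)`, `2 ≤ a ≤ 2`, modulo `(5, X ^ 3)`.
-/

open Polynomial NumberField

namespace Fermat.Agent.H39

/-- The logarithmic derivatives modulo `(5, X ^ 3)`. -/
noncomputable def kl5 : Fin 2 → ℤ[X] :=
  ![1 - X + X ^ 2,
    -2 + X + 2 * X ^ 2]

/-- Quotients in the certificate. -/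
noncomputable def kQ5 : Fin 2 → ℤ[X] :=
  ![1,
    2]

/-- Remainders in the certificate. -/
noncomputable def kR5 : Fin 2 → ℤ[X] :=
  ![0,
    -1 + X ^ 2]

set_option maxHeartbeats 1000000 in
theorem kcert5 (i : Fin 2) :
    kl5 i * (stdPoly (i : ℕ)).comp (1 + X) - (derivative (stdPoly (i : ℕ))).comp (1 + X) =
      X ^ (5 - 2) * kQ5 i + ((5 : ℕ) : ℤ[X]) * kR5 i := by
  fin_cases i <;>
  · simp [kl5, kQ5, kR5, stdPoly, Finset.sum_range_succ]
    ring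

set_option maxHeartbeats 1000000 in
theorem ksolve5 (c : Fin 2 → ℤ)
    (h : ∀ k < 5 - 2, ((5 : ℕ) : ℤ) ∣ ∑ i, c i * (kl5 i).coeff k) :
    ∀ i, ((5 : ℕ) : ℤ) ∣ c i := by
  have h0 := h 0 (by norm_num)
  have h1 := h 1 (by norm_num)
  simp [Fin.sum_univ_succ, kl5, coeff_X, coeff_one] at h0 h1
  obtain ⟨t0, ht0⟩ := h0
  obtain ⟨t1, ht1⟩ := h1
  have e0 : ((5 : ℕ) : ℤ) ∣ c 0 :=
    ⟨(-1) * t0 + (-2) * t1 - (0), by
      push_cast
      linear_combination (-1) * ht0 + (-2) * ht1⟩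
  have e1 : ((5 : ℕ) : ℤ) ∣ c 1 :=
    ⟨(-1) * t0 + (-1) * t1 - (0), by
      push_cast
      linear_combination (-1) * ht0 + (-1) * ht1⟩
  intro i
  fin_cases i
  · exact e0
  · exact e1

/-- **Kummer's lemma** for `p = 5`. -/
theorem kummer_five (K : Type*) [Field K] [NumberField K] [IsCyclotomicExtension {5} ℚ K]
    (u : (𝓞 K)ˣ) (n : ℤ) (h : (5 : 𝓞 K) ∣ (u : 𝓞 K) - n) : ∃ v : (𝓞 K)ˣ, u = v ^ 5 := by
  have : Fact (Nat.Prime 5) := ⟨by norm_num⟩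
  have hζ := IsCyclotomicExtension.zeta_spec 5 ℚ K
  exact kummer_of_stdCert 5 (by norm_num) hζ 2 (by norm_num) kl5 kQ5 kR5 kcert5 ksolve5 u n
    (by exact_mod_cast h)

end Fermat.Agent.H39
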