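import Fermat.Agent.H39.KummerCert

/-!
# Kummer's lemma for `p = 7`

Generated certificate: logarithmic derivatives of `ζ` and of the cyclotomic units
`1 + ζ + ⋯ + ζ ^ (a - 1)`, `2 ≤ a ≤ 3`, modulo `(7, X ^ 5)`.
-/

open Polynomial NumberField

namespace Fermat.Agent.H39

/-- The logarithmic derivatives modulo `(7, X ^ 5)`. -/
noncomputable def kl7 : Fin 3 → ℤ[X] :=
  ![1 - X + X ^ 2 - X ^ 3 + X ^ 4,
    -3 - 2 * X + X ^ 2 + 3 * X ^ 3 + 2 * X ^ 4,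
    1 + 2 * X - 3 * X ^ 3 + 3 * X ^ 4]

/-- Quotients in the certificate. -/
noncomputable def kQ7 : Fin 3 → ℤ[X] :=
  ![1,
    2,
    6 + 3 * X]

/-- Remainders in the certificate. -/
noncomputable def kR7 : Fin 3 → ℤ[X] :=
  ![0,
    -1 - X + X ^ 3 + X ^ 4,
    X + X ^ 2 - X ^ 3]

set_option maxHeartbeats 1000000 in
theorem kcert7 (i : Fin 3) :
    kl7 i * (stdPoly (i : ℕ)).comp (1 + X) - (derivative (stdPoly (i : ℕ))).comp (1 + X) =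
      X ^ (7 - 2) * kQ7 i + ((7 : ℕ) : ℤ[X]) * kR7 i := by
  fin_cases i <;>
  · simp [kl7, kQ7, kR7, stdPoly, Finset.sum_range_succ]
    ring

set_option maxHeartbeats 1000000 in
theorem ksolve7 (c : Fin 3 → ℤ)
    (h : ∀ k < 7 - 2, ((7 : ℕ) : ℤ) ∣ ∑ i, c i * (kl7 i).coeff k) :
    ∀ i, ((7 : ℕ) : ℤ) ∣ c i := by
  have h0 := h 0 (by norm_num)
  have h1 := h 1 (by norm_num)
  have h3 := h 3 (by norm_num)
  simp [Fin.sum_univ_succ, kl7, coeff_X, coeff_one] at h0 h1 h3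
  obtain ⟨t0, ht0⟩ := h0
  obtain ⟨t1, ht1⟩ := h1
  obtain ⟨t3, ht3⟩ := h3
  have e0 : ((7 : ℕ) : ℤ) ∣ c 0 :=
    ⟨(-2) * t1 + (1) * t3 - ((1) * c 1 + (-1) * c 2), by
      push_cast
      linear_combination (-2) * ht1 + (1) * ht3⟩
  have e1 : ((7 : ℕ) : ℤ) ∣ c 1 :=
    ⟨(3) * t0 + (-3) * t1 + (-1) * t3 - ((1) * c 0 + (-1) * c 1), by
      push_cast
      linear_combination (3) * ht0 + (-3) * ht1 + (-1) * ht3⟩
  have e2 : ((7 : ℕ) : ℤ) ∣ c 2 :=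
    ⟨(3) * t0 + (3) * t3 - ((-1) * c 2), by
      push_cast
      linear_combination (3) * ht0 + (3) * ht3⟩
  intro i
  fin_cases i
  · exact e0
  · exact e1
  · exact e2

/-- **Kummer's lemma** for `p = 7`. -/
theorem kummer_seven (K : Type*) [Field K] [NumberField K] [IsCyclotomicExtension {7} ℚ K]
    (u : (𝓞 K)ˣ) (n : ℤ) (h : (7 : 𝓞 K) ∣ (u : 𝓞 K) - n) : ∃ v : (𝓞 K)ˣ, u = v ^ 7 := by
  have : Fact (Nat.Prime 7) := ⟨by norm_num⟩
  have hζ := IsCyclotomicExtension.zeta_spec 7 ℚ K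
  exact kummer_of_stdCert 7 (by norm_num) hζ 3 (by norm_num) kl7 kQ7 kR7 kcert7 ksolve7 u n
    (by exact_mod_cast h)

end Fermat.Agent.H39
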