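import Mathlib

/-!
# An index-counting criterion for being a `p`-th power

Let `E` be a commutative group in which the `p`-th powers have index `p ^ m`, and let
`L : E → V` be a homomorphism to an additive group killed by `p`. If there are `m` elements
`g i` of `E` whose images under `L` are independent modulo `p`, then the kernel of `L` consists
exactly of the `p`-th powers.
-/

namespace Fermat.Agent.H39

open Finset

theorem mem_pow_range_of_map_eq_zero {E : Type*} [CommGroup E] {V : Type*} [AddCommGroup V]
    (p m : ℕ) [hp : Fact p.Prime]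
    (hidx : (powMonoidHom p : E →* E).range.index = p ^ m)
    (L : E →* Multiplicative V)
    (hV : ∀ v : V, p • v = 0)
    (g : Fin m → E)
    (hind : ∀ c : Fin m → ℕ, ∑ i, c i • Multiplicative.toAdd (L (g i)) = 0 →
      ∀ i, p ∣ c i)
    (u : E) (hu : L u = 1) : ∃ v : E, u = v ^ p := by
  classical
  set H : Subgroup E := (powMonoidHom p : E →* E).range with hH
  have hle : H ≤ L.ker := by
    rintro _ ⟨v, rfl⟩
    rw [MonoidHom.mem_ker, powMonoidHom_apply, map_pow]
    apply Multiplicative.toAdd.injective
    rw [toAdd_pow, toAdd_one]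
    exact hV _
  have hpm : p ^ m ≠ 0 := pow_ne_zero _ hp.out.ne_zero
  have hdvd : L.ker.index ∣ p ^ m := hidx ▸ Subgroup.index_dvd_of_le hle
  have hne : L.ker.index ≠ 0 := fun h => hpm (Nat.eq_zero_of_zero_dvd (h ▸ hdvd))
  have hcard : L.ker.index = Nat.card L.range := Subgroup.index_ker L
  have hfin : Finite L.range := Nat.finite_of_card_ne_zero (hcard ▸ hne)
  -- the injection `(Fin m → ZMod p) → L.range`
  let F : (Fin m → ZMod p) → L.range := fun c =>
    ⟨L (∏ i, g i ^ (c i).val), ⟨_, rfl⟩⟩
  have hF : Function.Injective F := by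
    intro c c' hcc'
    have h1 : L (∏ i, g i ^ (c i).val) = L (∏ i, g i ^ (c' i).val) := congrArg Subtype.val hcc'
    have h2 : ∀ d : Fin m → ZMod p, Multiplicative.toAdd (L (∏ i, g i ^ (d i).val)) =
        ∑ i, (d i).val • Multiplicative.toAdd (L (g i)) := by
      intro d
      rw [map_prod, toAdd_prod]
      exact Finset.sum_congr rfl fun i _ => by rw [map_pow, toAdd_pow]
    have h3 := congrArg Multiplicative.toAdd h1
    rw [h2, h2] at h3
    -- use `c i + (p - 1) * c' i`
    have h4 : ∑ i, ((c i).val + (p - 1) * (c' i).val) • Multiplicative.toAdd (L (g i)) = 0 := by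
      have : ∀ i, ((c i).val + (p - 1) * (c' i).val) • Multiplicative.toAdd (L (g i)) =
          (c i).val • Multiplicative.toAdd (L (g i)) +
            (p - 1) • ((c' i).val • Multiplicative.toAdd (L (g i))) := by
        intro i
        rw [add_smul, mul_smul]
      rw [Finset.sum_congr rfl fun i _ => this i, Finset.sum_add_distrib, ← Finset.smul_sum,
        h3, ← succ_nsmul']
      have hp1 : p - 1 + 1 = p := Nat.sub_add_cancel hp.out.one_le
      rw [hp1]
      exact hV _
    have h5 := hind _ h4
    funext i
    have h6 := h5 i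
    have h7 : (((c i).val + (p - 1) * (c' i).val : ℕ) : ZMod p) = 0 :=
      (ZMod.natCast_eq_zero_iff _ _).mpr h6
    have hp1 : ((p - 1 : ℕ) : ZMod p) = -1 := by
      rw [Nat.cast_sub hp.out.one_le]
      simp
    have : NeZero p := ⟨hp.out.ne_zero⟩
    rw [Nat.cast_add, Nat.cast_mul, ZMod.natCast_zmod_val, ZMod.natCast_zmod_val, hp1] at h7
    linear_combination h7
  have hge : p ^ m ≤ Nat.card L.range := by
    have := Nat.card_le_card_of_injective F hF
    rwa [Nat.card_fun, Nat.card_zmod, Nat.card_fin] at this
  have heq : L.ker.index = p ^ m :=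
    le_antisymm (Nat.le_of_dvd (Nat.pos_of_ne_zero hpm) hdvd) (hcard ▸ hge)
  have hrel : H.relIndex L.ker = 1 := by
    have := Subgroup.relIndex_mul_index hle
    rw [heq, hidx] at this
    exact Nat.eq_of_mul_eq_mul_right (Nat.pos_of_ne_zero hpm) (by rw [this, one_mul])
  have hker : L.ker ≤ H := Subgroup.relIndex_eq_one.mp hrel
  obtain ⟨v, hv⟩ := hker (MonoidHom.mem_ker.mpr hu)
  exact ⟨v, hv.symm⟩

end Fermat.Agent.H39
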