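import Fermat.Agent.H39.UnitIndex
import Fermat.Agent.H39.KummerCriterion
import Fermat.Agent.H39.DLog

/-!
# Kummer's lemma from a finite certificate

For an odd prime `p` and `K = ℚ(ζ_p)`: if the logarithmic derivatives of `(p - 1) / 2` explicit
units are linearly independent modulo `p`, then every unit congruent to a rational integer modulo
`p` is a `p`-th power.
-/

open Polynomial NumberField

namespace Fermat.Agent.H39

variable (p : ℕ) [hp : Fact p.Prime]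
variable {K : Type*} [Field K] [NumberField K] [IsCyclotomicExtension {p} ℚ K]

/-- The logarithmic derivative homomorphism on the units of `𝓞 K`. -/
noncomputable def LHom (h3 : 3 ≤ p) {ζ : K} (hζ : IsPrimitiveRoot ζ p) :
    (𝓞 K)ˣ →* Multiplicative (TruncPoly p) :=
  (dlog p).comp (Units.map ((phiHom p h3 hζ : 𝓞 K →+* DTarget p) : 𝓞 K →* DTarget p))

theorem LHom_eq_one_of_dvd (h3 : 3 ≤ p) {ζ : K} (hζ : IsPrimitiveRoot ζ p) (u : (𝓞 K)ˣ) (n : ℤ)
    (h : (p : 𝓞 K) ∣ (u : 𝓞 K) - n) : LHom p h3 hζ u = 1 := by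
  obtain ⟨t, ht⟩ := h
  have hu : (u : 𝓞 K) = n + p * t := by rw [← ht]; ring
  have h1 : phiHom p h3 hζ (u : 𝓞 K) = (n : DTarget p) := by
    rw [hu, map_add, map_mul, map_intCast, map_natCast, dTarget_natCast_self, zero_mul, add_zero]
  apply Multiplicative.toAdd.injective
  rw [LHom, MonoidHom.comp_apply, toAdd_dlog, toAdd_one]
  have h2 : ((Units.map ((phiHom p h3 hζ : 𝓞 K →+* DTarget p) : 𝓞 K →* DTarget p) u :
      (DTarget p)ˣ) : DTarget p) = (n : DTarget p) := h1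
  rw [h2, TrivSqZeroExt.snd_intCast, zero_mul]

theorem toAdd_LHom_of_cert (h3 : 3 ≤ p) {ζ : K} (hζ : IsPrimitiveRoot ζ p) (u : (𝓞 K)ˣ)
    (F l Q R : ℤ[X]) (hu : (u : 𝓞 K) = aeval hζ.toInteger F)
    (hcert : l * F.comp (1 + X) - (derivative F).comp (1 + X) =
      X ^ (p - 2) * Q + (p : ℤ[X]) * R) :
    Multiplicative.toAdd (LHom p h3 hζ u) = tmk p (l.map (Int.castRingHom (ZMod p))) := by
  rw [LHom, MonoidHom.comp_apply]
  apply toAdd_dlog_eq
  have h1 : ((Units.map ((phiHom p h3 hζ : 𝓞 K →+* DTarget p) : 𝓞 K →* DTarget p) u :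
      (DTarget p)ˣ) : DTarget p) = aeval (yElt p) F := by
    change phiHom p h3 hζ (u : 𝓞 K) = _
    rw [hu, ← Polynomial.aeval_algHom_apply, phiHom_zeta]
  rw [h1, aeval_yElt]
  simp only [TrivSqZeroExt.fst_add, TrivSqZeroExt.fst_inl, TrivSqZeroExt.fst_inr, add_zero,
    TrivSqZeroExt.snd_add, TrivSqZeroExt.snd_inl, TrivSqZeroExt.snd_inr, zero_add]
  rw [← map_mul, ← sub_eq_zero, ← map_sub, tmk_eq_zero_iff]
  have h2 := congrArg (Polynomial.map (Int.castRingHom (ZMod p))) hcert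
  simp only [Polynomial.map_sub, Polynomial.map_mul, Polynomial.map_add, Polynomial.map_pow,
    Polynomial.map_X, Polynomial.map_comp, Polynomial.map_one, Polynomial.map_natCast] at h2
  have h3 : ((p : ℕ) : (ZMod p)[X]) = 0 := by
    rw [← Polynomial.C_eq_natCast, ZMod.natCast_self, map_zero]
  rw [h3, zero_mul, add_zero] at h2
  rw [h2]
  exact Dvd.intro _ rfl

theorem indep_of_coeff (m : ℕ) (l : Fin m → ℤ[X])
    (hsolve : ∀ c : Fin m → ℤ, (∀ k < p - 2, (p : ℤ) ∣ ∑ i, c i * (l i).coeff k) →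
      ∀ i, (p : ℤ) ∣ c i)
    (c : Fin m → ℕ)
    (h : ∑ i, c i • tmk p ((l i).map (Int.castRingHom (ZMod p))) = 0) : ∀ i, p ∣ c i := by
  intro i
  have h1 : ∑ i, c i • tmk p ((l i).map (Int.castRingHom (ZMod p))) =
      tmk p ((∑ i, (c i : ℤ) • l i).map (Int.castRingHom (ZMod p))) := by
    rw [Polynomial.map_sum, map_sum]
    refine Finset.sum_congr rfl fun j _ => ?_
    rw [Polynomial.map_smul, ← map_nsmul]
    congr 1
    simp [Polynomial.smul_eq_C_mul, nsmul_eq_mul]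
  rw [h1, tmk_eq_zero_iff, Polynomial.X_pow_dvd_iff] at h
  have h2 := hsolve (fun i => (c i : ℤ)) (fun k hk => by
    have h3 := h k hk
    rw [Polynomial.coeff_map, Polynomial.finsetSum_coeff, eq_intCast,
      ZMod.intCast_zmod_eq_zero_iff_dvd] at h3
    simpa [Polynomial.coeff_smul] using h3) i
  exact Int.natCast_dvd_natCast.mp h2

/-- **Kummer's lemma** from a certificate, general form. -/
theorem kummer_of_cert (h3 : 3 ≤ p) {ζ : K} (hζ : IsPrimitiveRoot ζ p)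
    (m : ℕ) (hm : (p - 1) / 2 = m)
    (g : Fin m → (𝓞 K)ˣ) (F l Q R : Fin m → ℤ[X])
    (hg : ∀ i, (g i : 𝓞 K) = aeval hζ.toInteger (F i))
    (hcert : ∀ i, l i * (F i).comp (1 + X) - (derivative (F i)).comp (1 + X) =
      X ^ (p - 2) * Q i + (p : ℤ[X]) * R i)
    (hsolve : ∀ c : Fin m → ℤ,
      (∀ k < p - 2, (p : ℤ) ∣ ∑ i, c i * (l i).coeff k) → ∀ i, (p : ℤ) ∣ c i)
    (u : (𝓞 K)ˣ) (n : ℤ) (hu : (p : 𝓞 K) ∣ (u : 𝓞 K) - n) : ∃ v : (𝓞 K)ˣ, u = v ^ p := by
  subst hm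
  have hp2 : p ≠ 2 := by omega
  refine mem_pow_range_of_map_eq_zero p ((p - 1) / 2) (index_pow_units p K hp2)
    (LHom p h3 hζ) (truncPoly_nsmul_self p) g ?_ u (LHom_eq_one_of_dvd p h3 hζ u n hu)
  intro c hc
  refine indep_of_coeff p _ l hsolve c ?_
  rw [← hc]
  refine Finset.sum_congr rfl fun i _ => ?_
  rw [toAdd_LHom_of_cert p h3 hζ (g i) (F i) (l i) (Q i) (R i) (hg i) (hcert i)]

/-- The standard generators: `ζ` and the cyclotomic units `1 + ζ + ⋯ + ζ ^ (a - 1)`. -/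
noncomputable def stdUnit {ζ : K} (hζ : IsPrimitiveRoot ζ p) (i : ℕ) : (𝓞 K)ˣ :=
  if i = 0 then (hζ.toInteger_isPrimitiveRoot.isUnit hp.out.ne_zero).unit
  else if h : (i + 1).Coprime p then
    (hζ.toInteger_isPrimitiveRoot.geom_sum_isUnit hp.out.two_le h).unit
  else 1

/-- The polynomials giving the standard generators. -/
noncomputable def stdPoly (i : ℕ) : ℤ[X] :=
  if i = 0 then X else ∑ j ∈ Finset.range (i + 1), X ^ j

omit [NumberField K] [IsCyclotomicExtension {p} ℚ K] in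
theorem stdUnit_val {ζ : K} (hζ : IsPrimitiveRoot ζ p) (i : ℕ) (hi : i + 1 < p) :
    (stdUnit p hζ i : 𝓞 K) = aeval hζ.toInteger (stdPoly i) := by
  unfold stdUnit stdPoly
  by_cases h0 : i = 0
  · simp [h0]
  · have hc : (i + 1).Coprime p :=
      (Nat.coprime_of_lt_prime (Nat.succ_ne_zero i) hi hp.out).symm
    rw [if_neg h0, if_neg h0, dif_pos hc]
    simp

/-- **Kummer's lemma** from a certificate for the standard generators. -/
theorem kummer_of_stdCert (h3 : 3 ≤ p) {ζ : K} (hζ : IsPrimitiveRoot ζ p)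
    (m : ℕ) (hm : (p - 1) / 2 = m)
    (l Q R : Fin m → ℤ[X])
    (hcert : ∀ i : Fin m, l i * (stdPoly (i : ℕ)).comp (1 + X) -
        (derivative (stdPoly (i : ℕ))).comp (1 + X) =
      X ^ (p - 2) * Q i + (p : ℤ[X]) * R i)
    (hsolve : ∀ c : Fin m → ℤ,
      (∀ k < p - 2, (p : ℤ) ∣ ∑ i, c i * (l i).coeff k) → ∀ i, (p : ℤ) ∣ c i)
    (u : (𝓞 K)ˣ) (n : ℤ) (hu : (p : 𝓞 K) ∣ (u : 𝓞 K) - n) : ∃ v : (𝓞 K)ˣ, u = v ^ p := by
  refine kummer_of_cert p h3 hζ m hm (fun i => stdUnit p hζ i) (fun i => stdPoly i) l Q R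
    (fun i => stdUnit_val p hζ i ?_) hcert hsolve u n hu
  have := i.2
  omega

end Fermat.Agent.H39
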