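import Mathlib

/-!
# Index of the `p`-th powers in the unit group of the `p`-th cyclotomic field

For an odd prime `p` and `K = ℚ(ζ_p)`, the subgroup of `p`-th powers has index `p ^ ((p - 1) / 2)`
in `(𝓞 K)ˣ` (Dirichlet's unit theorem: rank `(p - 3) / 2`, torsion of order `2 p`).
-/

open NumberField NumberField.Units

namespace Fermat.Agent.H39

section general

variable (K : Type*) [Field K] [NumberField K]

/-- The `n`-th powers in `(𝓞 K)ˣ ⧸ torsion` have index `n ^ rank`. -/
theorem index_pow_modTorsion (n : ℕ) :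
    (powMonoidHom (α := (𝓞 K)ˣ ⧸ torsion K) n).range.index =
      n ^ rank K := by
  have h := AddSubgroup.index_range_nsmul (Additive ((𝓞 K)ˣ ⧸ torsion K)) n
  rw [finrank_modTorsion] at h
  rw [← h]
  rfl

omit [NumberField K] in
/-- A `p`-th power lying in the torsion subgroup is the `p`-th power of a torsion element. -/
theorem pow_range_subgroupOf_torsion (n : ℕ) (hn : 0 < n) :
    ((powMonoidHom n : (𝓞 K)ˣ →* (𝓞 K)ˣ).range).subgroupOf (torsion K) =
      (powMonoidHom n : torsion K →* torsion K).range := by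
  ext ⟨x, hx⟩
  simp only [Subgroup.mem_subgroupOf, MonoidHom.mem_range, powMonoidHom_apply]
  constructor
  · rintro ⟨u, hu⟩
    have hu' : u ∈ torsion K := by
      rw [torsion, CommGroup.mem_torsion, isOfFinOrder_iff_pow_eq_one] at hx ⊢
      obtain ⟨m, hm, hxm⟩ := hx
      refine ⟨n * m, Nat.mul_pos hn hm, ?_⟩
      rw [pow_mul, hu]
      exact hxm
    exact ⟨⟨u, hu'⟩, Subtype.ext hu⟩
  · rintro ⟨u, hu⟩
    exact ⟨u.1, congrArg Subtype.val hu⟩

/-- General formula: the index of the `n`-th powers in the unit group. -/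
theorem index_pow_units_general (n : ℕ) (hn : 0 < n) :
    (powMonoidHom n : (𝓞 K)ˣ →* (𝓞 K)ˣ).range.index =
      (torsionOrder K).gcd n * n ^ rank K := by
  set H : Subgroup (𝓞 K)ˣ := (powMonoidHom n : (𝓞 K)ˣ →* (𝓞 K)ˣ).range with hH
  set T : Subgroup (𝓞 K)ˣ := torsion K with hT
  -- index of `H ⊔ T`
  have h1 : (H ⊔ T).index = n ^ rank K := by
    have hmap : H.map (QuotientGroup.mk' T) =
        (powMonoidHom (α := (𝓞 K)ˣ ⧸ torsion K) n).range := by
      ext y
      constructor
      · rintro ⟨x, ⟨u, rfl⟩, rfl⟩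
        exact ⟨QuotientGroup.mk' T u, by simp⟩
      · rintro ⟨z, rfl⟩
        obtain ⟨u, rfl⟩ := QuotientGroup.mk'_surjective T z
        exact ⟨u ^ n, ⟨u, rfl⟩, by simp⟩
    have h2 := Subgroup.index_map H (QuotientGroup.mk' T)
    rw [hmap, QuotientGroup.ker_mk', MonoidHom.range_eq_top.mpr (QuotientGroup.mk'_surjective T),
      Subgroup.index_top, mul_one] at h2
    rw [← h2]
    exact index_pow_modTorsion K n
  -- relative index of `H` in `H ⊔ T`
  have h3 : H.relIndex (H ⊔ T) = (torsionOrder K).gcd n := by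
    rw [Subgroup.relIndex_sup_left, Subgroup.relIndex, hH, hT, pow_range_subgroupOf_torsion K n hn,
      IsCyclic.index_powMonoidHom_range]
    rfl
  rw [← Subgroup.relIndex_mul_index (le_sup_left : H ≤ H ⊔ T), h1, h3]

end general

section cyclotomic

variable (p : ℕ) [hp : Fact p.Prime] (K : Type*) [Field K] [NumberField K]
  [IsCyclotomicExtension {p} ℚ K]

/-- The unit rank of the `p`-th cyclotomic field, `p` an odd prime. -/
theorem rank_cyclotomic (hp2 : p ≠ 2) : rank K = (p - 1) / 2 - 1 := by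
  have hp3 : 2 < p := lt_of_le_of_ne hp.out.two_le (Ne.symm hp2)
  rw [rank, InfinitePlace.card_eq_nrRealPlaces_add_nrComplexPlaces,
    IsCyclotomicExtension.Rat.nrRealPlaces_eq_zero (n := p) K hp3,
    IsCyclotomicExtension.Rat.nrComplexPlaces_eq_totient_div_two p K,
    Nat.totient_prime hp.out, zero_add]

/-- The index of the `p`-th powers in the unit group of the `p`-th cyclotomic field. -/
theorem index_pow_units (hp2 : p ≠ 2) :
    (powMonoidHom p : (𝓞 K)ˣ →* (𝓞 K)ˣ).range.index = p ^ ((p - 1) / 2) := by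
  have hp3 : 2 < p := lt_of_le_of_ne hp.out.two_le (Ne.symm hp2)
  have hodd : ¬ Even p := by
    rw [Nat.not_even_iff_odd]
    exact hp.out.odd_of_ne_two hp2
  rw [index_pow_units_general K p hp.out.pos, rank_cyclotomic p K hp2,
    IsCyclotomicExtension.Rat.torsionOrder_eq (n := p) (K := K), if_neg hodd]
  have hgcd : (2 * p).gcd p = p := Nat.gcd_eq_right (Dvd.intro_left 2 rfl)
  rw [hgcd, ← pow_succ']
  congr 1
  have : 1 ≤ (p - 1) / 2 := by omega
  omega

end cyclotomic

end Fermat.Agent.H39
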